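import Mathlib

set_option autoImplicit false

namespace Fermat.Agent.S05

/-- `σ` behaves like an element of the inertia group of the valuation `v`: it preserves `v` and
acts trivially on the residue field. -/
structure IsInertiaLike {F K : Type*} [Field F] [Field K] [Algebra F K] {Γ₀ : Type*}
    [LinearOrderedCommGroupWithZero Γ₀] (v : Valuation K Γ₀) (σ : K ≃ₐ[F] K) : Prop where
  val_eq : ∀ x, v (σ x) = v x
  sub_lt : ∀ x, v x ≤ 1 → v (σ x - x) < 1

end Fermat.Agent.S05
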