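import Mathlib
import Fermat.Prelude.Def_FLTPrelim_Ramification
import Fermat.Agent.S05.InertiaDefs

/-!
# (L6): elements of `A.inertiaSubgroupIn F` are inertia-like for `A.valuation`
(for `K/F` algebraic), and arithmetic of `A.valuation` on integers when `A` lies over `q`.
-/

set_option autoImplicit false

namespace Fermat.Agent.S05

open scoped Pointwise

variable {F K : Type*} [Field F] [Field K] [Algebra F K]

/-- `σ` is *inertial* for the valuation subring `A`: it preserves `A` and acts trivially on the
residue field. -/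
structure IsInertial (A : ValuationSubring K) (σ : K ≃ₐ[F] K) : Prop where
  mem_iff : ∀ x : K, σ x ∈ A ↔ x ∈ A
  sub_mem : ∀ x : K, x ∈ A → σ x - x ∈ A.nonunits

theorem isInertial_of_mem_inertiaSubgroupIn (A : ValuationSubring K) (σ : K ≃ₐ[F] K)
    (hσ : σ ∈ A.inertiaSubgroupIn F) : IsInertial A σ := by
  obtain ⟨τ, hτ, rfl⟩ := hσ
  have hstab : (τ : K ≃ₐ[F] K) • A = A := τ.2
  have hmem : ∀ x : K, (τ : K ≃ₐ[F] K) x ∈ A ↔ x ∈ A := by
    intro x
    constructor
    · intro hx
      have : (τ : K ≃ₐ[F] K) • x ∈ (τ : K ≃ₐ[F] K) • A := by rw [hstab]; exact hx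
      exact ValuationSubring.smul_mem_pointwise_smul_iff.mp this
    · intro hx
      have := ValuationSubring.smul_mem_pointwise_smul (τ : K ≃ₐ[F] K) x A hx
      rw [hstab] at this
      exact this
  refine ⟨hmem, ?_⟩
  intro x hx
  have hker : ∀ r : IsLocalRing.ResidueField A, τ • r = r := by
    intro r
    have h1 : MulSemiringAction.toRingAut (A.decompositionSubgroup F)
        (IsLocalRing.ResidueField A) τ = 1 := hτ
    have := congrArg (fun e : RingAut (IsLocalRing.ResidueField A) => e r) h1
    simpa using this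
  have h2 := hker (IsLocalRing.residue A ⟨x, hx⟩)
  rw [← IsLocalRing.ResidueField.residue_smul] at h2
  have h3 : IsLocalRing.residue A (τ • (⟨x, hx⟩ : A) - ⟨x, hx⟩) = 0 := by
    rw [map_sub, h2, sub_self]
  have h4 : (τ • (⟨x, hx⟩ : A) - ⟨x, hx⟩) ∈ IsLocalRing.maximalIdeal A :=
    (IsLocalRing.residue_eq_zero_iff _).mp h3
  exact (ValuationSubring.coe_mem_nonunits_iff (A := A)).mpr h4

variable {A : ValuationSubring K} {σ : K ≃ₐ[F] K}

theorem IsInertial.symm_mem_iff (h : IsInertial A σ) (x : K) : σ.symm x ∈ A ↔ x ∈ A := by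
  rw [← h.mem_iff (σ.symm x), AlgEquiv.apply_symm_apply]

/-- `σ` is monotone for the valuation -/
theorem IsInertial.valuation_le_iff (h : IsInertial A σ) (x y : K) :
    A.valuation (σ x) ≤ A.valuation (σ y) ↔ A.valuation x ≤ A.valuation y := by
  rw [ValuationSubring.valuation_le_iff, ValuationSubring.valuation_le_iff]
  constructor
  · rintro ⟨a, ha⟩
    refine ⟨⟨σ.symm a, (h.symm_mem_iff _).mpr a.2⟩, ?_⟩
    apply σ.injective
    rw [map_mul]
    simpa using ha
  · rintro ⟨a, ha⟩
    refine ⟨⟨σ a, (h.mem_iff _).mpr a.2⟩, ?_⟩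
    rw [← ha, map_mul]

theorem IsInertial.valuation_lt_iff (h : IsInertial A σ) (x y : K) :
    A.valuation (σ x) < A.valuation (σ y) ↔ A.valuation x < A.valuation y := by
  rw [← not_le, ← not_le, h.valuation_le_iff]

/-- iterates of `σ` -/
theorem IsInertial.iterate_lt (h : IsInertial A σ) {x : K}
    (hx : A.valuation (σ x) < A.valuation x) (m : ℕ) :
    A.valuation ((⇑σ)^[m + 1] x) < A.valuation x := by
  induction m with
  | zero => simpa using hx
  | succ m ih =>
    have h1 : A.valuation (σ ((⇑σ)^[m + 1] x)) < A.valuation (σ x) :=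
      (h.valuation_lt_iff _ _).mpr ih
    rw [Function.iterate_succ_apply']
    exact h1.trans hx

theorem IsInertial.lt_iterate (h : IsInertial A σ) {x : K}
    (hx : A.valuation x < A.valuation (σ x)) (m : ℕ) :
    A.valuation x < A.valuation ((⇑σ)^[m + 1] x) := by
  induction m with
  | zero => simpa using hx
  | succ m ih =>
    have h1 : A.valuation (σ x) < A.valuation (σ ((⇑σ)^[m + 1] x)) :=
      (h.valuation_lt_iff _ _).mpr ih
    rw [Function.iterate_succ_apply']
    exact hx.trans h1

/-- an algebraic element has a finite `σ`-orbit -/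
theorem exists_iterate_eq_self [Algebra.IsAlgebraic F K] (σ : K ≃ₐ[F] K) (x : K) :
    ∃ m : ℕ, (⇑σ)^[m + 1] x = x := by
  have halg : IsAlgebraic F x := Algebra.IsAlgebraic.isAlgebraic x
  have hint : IsIntegral F x := halg.isIntegral
  have hne : minpoly F x ≠ 0 := minpoly.ne_zero hint
  have hfin : ((minpoly F x).rootSet K).Finite := Polynomial.rootSet_finite _ _
  have hmem : ∀ k : ℕ, (⇑σ)^[k] x ∈ (minpoly F x).rootSet K := by
    intro k
    rw [Polynomial.mem_rootSet]
    refine ⟨hne, ?_⟩
    induction k with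
    | zero => simp [minpoly.aeval F x]
    | succ k ih =>
      rw [Function.iterate_succ_apply']
      have := Polynomial.aeval_algHom_apply (σ : K →ₐ[F] K) ((⇑σ)^[k] x) (minpoly F x)
      rw [ih, map_zero] at this
      exact this
  have : Finite ((minpoly F x).rootSet K) := hfin.to_subtype
  obtain ⟨i, j, hij, heq⟩ := Finite.exists_ne_map_eq_of_infinite
    (fun k : ℕ => (⟨(⇑σ)^[k] x, hmem k⟩ : (minpoly F x).rootSet K))
  have heq' : (⇑σ)^[i] x = (⇑σ)^[j] x := congrArg Subtype.val heq
  have hinj : ∀ k : ℕ, Function.Injective ((⇑σ)^[k]) := fun k => σ.injective.iterate k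
  rcases Nat.lt_or_gt_of_ne hij with hlt | hlt
  · obtain ⟨d, rfl⟩ := Nat.exists_eq_add_of_lt hlt
    refine ⟨d, ?_⟩
    have : (⇑σ)^[i] x = (⇑σ)^[i] ((⇑σ)^[d + 1] x) := by
      rw [← Function.iterate_add_apply, heq', Nat.add_assoc]
    exact (hinj i this).symm
  · obtain ⟨d, rfl⟩ := Nat.exists_eq_add_of_lt hlt
    refine ⟨d, ?_⟩
    have : (⇑σ)^[j] x = (⇑σ)^[j] ((⇑σ)^[d + 1] x) := by
      rw [← Function.iterate_add_apply, ← heq', Nat.add_assoc]
    exact (hinj j this).symm

/-- for an algebraic extension, inertial automorphisms preserve the valuation -/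
theorem IsInertial.valuation_eq [Algebra.IsAlgebraic F K] (h : IsInertial A σ) (x : K) :
    A.valuation (σ x) = A.valuation x := by
  obtain ⟨m, hm⟩ := exists_iterate_eq_self σ x
  rcases lt_trichotomy (A.valuation (σ x)) (A.valuation x) with hlt | heq | hgt
  · have := h.iterate_lt hlt m
    rw [hm] at this
    exact absurd this (lt_irrefl _)
  · exact heq
  · have := h.lt_iterate hgt m
    rw [hm] at this
    exact absurd this (lt_irrefl _)

theorem isInertiaLike_of_mem_inertiaSubgroupIn [Algebra.IsAlgebraic F K] (A : ValuationSubring K)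
    (σ : K ≃ₐ[F] K) (hσ : σ ∈ A.inertiaSubgroupIn F) : IsInertiaLike A.valuation σ := by
  have h := isInertial_of_mem_inertiaSubgroupIn A σ hσ
  refine ⟨h.valuation_eq, ?_⟩
  intro x hx
  have hxA : x ∈ A := (A.valuation_le_one_iff x).mp hx
  exact (ValuationSubring.mem_nonunits_iff (A := A)).mp (h.sub_mem x hxA)

/-- integers are integral -/
theorem valuation_intCast_le_one (A : ValuationSubring K) (n : ℤ) : A.valuation (n : K) ≤ 1 :=
  (A.valuation_le_one_iff _).mpr (intCast_mem A n)

/-- if `A` lies over the prime `q`, an integer is a unit of `A` iff it is prime to `q` -/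
theorem valuation_intCast_eq_one_iff (A : ValuationSubring K) {q : ℕ} (hq : q.Prime)
    (hA : A.LiesOverPrime q) (n : ℤ) : A.valuation (n : K) = 1 ↔ ¬ (q : ℤ) ∣ n := by
  have hqlt : A.valuation (q : K) < 1 := (ValuationSubring.mem_nonunits_iff (A := A)).mp hA
  constructor
  · rintro h1 ⟨m, rfl⟩
    have : A.valuation (((q : ℤ) * m : ℤ) : K) < 1 := by
      push_cast
      rw [map_mul]
      calc A.valuation (q : K) * A.valuation (m : K)
          ≤ A.valuation (q : K) * 1 := by
            gcongr
            exact valuation_intCast_le_one A m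
        _ < 1 := by simpa using hqlt
    rw [h1] at this
    exact lt_irrefl _ this
  · intro hnd
    have hcop : IsCoprime (q : ℤ) n := by
      have hp : Prime (q : ℤ) := Nat.prime_iff_prime_int.mp hq
      exact (Prime.coprime_iff_not_dvd hp).mpr hnd
    obtain ⟨a, b, hab⟩ := hcop
    refine le_antisymm (valuation_intCast_le_one A n) ?_
    by_contra hlt
    rw [not_le] at hlt
    have h1 : A.valuation (((a * q + b * n : ℤ)) : K) < 1 := by
      push_cast
      apply lt_of_le_of_lt (A.valuation.map_add _ _)
      apply max_lt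
      · rw [map_mul]
        calc A.valuation (a : K) * A.valuation (q : K) ≤ 1 * A.valuation (q : K) := by
              gcongr
              exact valuation_intCast_le_one A a
          _ < 1 := by simpa using hqlt
      · rw [map_mul]
        calc A.valuation (b : K) * A.valuation (n : K) ≤ 1 * A.valuation (n : K) := by
              gcongr
              exact valuation_intCast_le_one A b
          _ < 1 := by simpa using hlt
    rw [hab] at h1
    simp at h1

end Fermat.Agent.S05
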