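import Mathlib

set_option autoImplicit false

/-!
# Curves of the shape `Y² = X³ + a₂ X² + a₄ X`: explicit formulas

All formulas are for Mathlib's `WeierstrassCurve.Affine.Point` group law.
-/

namespace Fermat.Agent.S05

open WeierstrassCurve WeierstrassCurve.Affine

/-- `W` has the shape `Y² = X³ + a₂X² + a₄X`. -/
structure IsLeg {R : Type*} [CommRing R] (W : WeierstrassCurve R) : Prop where
  a₁ : W.a₁ = 0
  a₃ : W.a₃ = 0
  a₆ : W.a₆ = 0

lemma IsLeg.map {R S : Type*} [CommRing R] [CommRing S] {W : WeierstrassCurve R} (hW : IsLeg W)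
    (f : R →+* S) : IsLeg (W.map f) :=
  ⟨by simp [hW.a₁], by simp [hW.a₃], by simp [hW.a₆]⟩

section field

variable {K : Type*} [Field K] {W : Affine K}

/-- the `x`-coordinate of a point (junk value `0` at infinity) -/
def xc : W.Point → K
  | .zero => 0
  | .some x _ _ => x

/-- the `y`-coordinate of a point (junk value `0` at infinity) -/
def yc : W.Point → K
  | .zero => 0
  | .some _ y _ => y

@[simp] lemma xc_zero : xc (0 : W.Point) = 0 := rfl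
@[simp] lemma yc_zero : yc (0 : W.Point) = 0 := rfl
@[simp] lemma xc_some {x y : K} (h : W.Nonsingular x y) : xc (Point.some x y h) = x := rfl
@[simp] lemma yc_some {x y : K} (h : W.Nonsingular x y) : yc (Point.some x y h) = y := rfl

lemma IsLeg.equation_iff (hW : IsLeg W) (x y : K) :
    W.Equation x y ↔ y ^ 2 = x ^ 3 + W.a₂ * x ^ 2 + W.a₄ * x := by
  rw [Affine.equation_iff, hW.a₁, hW.a₃, hW.a₆]
  constructor <;> intro h <;> linear_combination h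

lemma IsLeg.negY (hW : IsLeg W) (x y : K) : W.negY x y = -y := by
  simp [Affine.negY, hW.a₁, hW.a₃]

lemma IsLeg.sq_yc (hW : IsLeg W) {x y : K} (h : W.Nonsingular x y) :
    y ^ 2 = x ^ 3 + W.a₂ * x ^ 2 + W.a₄ * x :=
  (hW.equation_iff x y).1 h.1

@[simp] lemma xc_neg (P : W.Point) : xc (-P) = xc P := by
  cases P <;> rfl

lemma IsLeg.yc_neg (hW : IsLeg W) (P : W.Point) : yc (-P) = -yc P := by
  cases P with
  | zero => exact neg_zero.symm
  | some x y h => rw [Point.neg_some, yc_some, yc_some, hW.negY]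

variable [DecidableEq K]

lemma add_ne_zero_of_xc_ne {x₁ y₁ x₂ y₂ : K} (h₁ : W.Nonsingular x₁ y₁) (h₂ : W.Nonsingular x₂ y₂)
    (hx : x₁ ≠ x₂) : Point.some x₁ y₁ h₁ + Point.some x₂ y₂ h₂ ≠ 0 := by
  rw [Point.add_of_X_ne hx]
  exact Point.some_ne_zero _

lemma sub_ne_zero_of_xc_ne {x₁ y₁ x₂ y₂ : K} (h₁ : W.Nonsingular x₁ y₁) (h₂ : W.Nonsingular x₂ y₂)
    (hx : x₁ ≠ x₂) : Point.some x₁ y₁ h₁ - Point.some x₂ y₂ h₂ ≠ 0 := by
  rw [sub_eq_add_neg, Point.neg_some]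
  exact add_ne_zero_of_xc_ne _ _ hx

/-- chord formula for the `x`-coordinate of a sum -/
lemma IsLeg.xc_add_of_ne (hW : IsLeg W) {x₁ y₁ x₂ y₂ : K} (h₁ : W.Nonsingular x₁ y₁)
    (h₂ : W.Nonsingular x₂ y₂) (hx : x₁ ≠ x₂) :
    xc (Point.some x₁ y₁ h₁ + Point.some x₂ y₂ h₂) =
      ((y₁ - y₂) / (x₁ - x₂)) ^ 2 - W.a₂ - x₁ - x₂ := by
  rw [Point.add_of_X_ne hx, xc_some, Affine.slope_of_X_ne hx, Affine.addX, hW.a₁]
  ring

/-- chord formula for the `x`-coordinate of a difference -/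
lemma IsLeg.xc_sub_of_ne (hW : IsLeg W) {x₁ y₁ x₂ y₂ : K} (h₁ : W.Nonsingular x₁ y₁)
    (h₂ : W.Nonsingular x₂ y₂) (hx : x₁ ≠ x₂) :
    xc (Point.some x₁ y₁ h₁ - Point.some x₂ y₂ h₂) =
      ((y₁ + y₂) / (x₁ - x₂)) ^ 2 - W.a₂ - x₁ - x₂ := by
  rw [sub_eq_add_neg, Point.neg_some, hW.xc_add_of_ne _ _ hx, hW.negY, sub_neg_eq_add]

/-- **sum law**: `x(P+Q) + x(P-Q)` in terms of the `x`-coordinates -/
lemma IsLeg.xc_add_add_xc_sub (hW : IsLeg W) {x₁ y₁ x₂ y₂ : K} (h₁ : W.Nonsingular x₁ y₁)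
    (h₂ : W.Nonsingular x₂ y₂) (hx : x₁ ≠ x₂) :
    xc (Point.some x₁ y₁ h₁ + Point.some x₂ y₂ h₂) + xc (Point.some x₁ y₁ h₁ - Point.some x₂ y₂ h₂) =
      2 * ((x₁ * x₂ + W.a₄) * (x₁ + x₂) + 2 * W.a₂ * (x₁ * x₂)) / (x₁ - x₂) ^ 2 := by
  rw [hW.xc_add_of_ne h₁ h₂ hx, hW.xc_sub_of_ne h₁ h₂ hx]
  have hne : x₁ - x₂ ≠ 0 := sub_ne_zero.2 hx
  have e₁ := hW.sq_yc h₁
  have e₂ := hW.sq_yc h₂
  field_simp
  linear_combination 2 * e₁ + 2 * e₂

/-- **product law**: `x(P+Q) * x(P-Q)` in terms of the `x`-coordinates -/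
lemma IsLeg.xc_add_mul_xc_sub (hW : IsLeg W) {x₁ y₁ x₂ y₂ : K} (h₁ : W.Nonsingular x₁ y₁)
    (h₂ : W.Nonsingular x₂ y₂) (hx : x₁ ≠ x₂) :
    xc (Point.some x₁ y₁ h₁ + Point.some x₂ y₂ h₂) * xc (Point.some x₁ y₁ h₁ - Point.some x₂ y₂ h₂) =
      (x₁ * x₂ - W.a₄) ^ 2 / (x₁ - x₂) ^ 2 := by
  rw [hW.xc_add_of_ne h₁ h₂ hx, hW.xc_sub_of_ne h₁ h₂ hx]
  have hne : x₁ - x₂ ≠ 0 := sub_ne_zero.2 hx
  have e₁ := hW.sq_yc h₁
  have e₂ := hW.sq_yc h₂
  field_simp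
  linear_combination
    (y₁ ^ 2 + x₁ ^ 3 + W.a₂ * x₁ ^ 2 + W.a₄ * x₁ - 2 * y₂ ^ 2
      - 2 * (W.a₂ + x₁ + x₂) * (x₁ - x₂) ^ 2) * e₁ +
    (y₂ ^ 2 + x₂ ^ 3 + W.a₂ * x₂ ^ 2 + W.a₄ * x₂ - 2 * (x₁ ^ 3 + W.a₂ * x₁ ^ 2 + W.a₄ * x₁)
      - 2 * (W.a₂ + x₁ + x₂) * (x₁ - x₂) ^ 2) * e₂

/-- a point is `2`-torsion iff its `y`-coordinate vanishes -/
lemma IsLeg.add_self_eq_zero_iff (hW : IsLeg W) (h2 : (2 : K) ≠ 0) {x y : K}
    (h : W.Nonsingular x y) : Point.some x y h + Point.some x y h = 0 ↔ y = 0 := by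
  constructor
  · intro h0
    by_contra hy
    have hne : y ≠ W.negY x y := by
      rw [hW.negY]
      intro e
      apply hy
      have : (2 : K) * y = 0 := by linear_combination e
      rcases mul_eq_zero.1 this with h' | h'
      · exact absurd h' h2
      · exact h'
    rw [Point.add_self_of_Y_ne hne] at h0
    exact Point.some_ne_zero _ h0
  · intro hy
    apply Point.add_self_of_Y_eq
    rw [hW.negY, hy, neg_zero]

/-- duplication formula -/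
lemma IsLeg.xc_add_self (hW : IsLeg W) (h2 : (2 : K) ≠ 0) {x y : K} (h : W.Nonsingular x y)
    (hy : y ≠ 0) :
    xc (Point.some x y h + Point.some x y h) = (x ^ 2 - W.a₄) ^ 2 / (4 * y ^ 2) := by
  have hne : y ≠ W.negY x y := by
    rw [hW.negY]
    intro e
    apply hy
    have : (2 : K) * y = 0 := by linear_combination e
    rcases mul_eq_zero.1 this with h' | h'
    · exact absurd h' h2
    · exact h'
  rw [Point.add_self_of_Y_ne hne, xc_some, Affine.slope_of_Y_ne rfl hne, Affine.addX, hW.a₁,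
    hW.negY]
  have e := hW.sq_yc h
  have h4 : (4 : K) ≠ 0 := by
    have : (4 : K) = 2 * 2 := by norm_num
    rw [this]
    exact mul_ne_zero h2 h2
  have hyy : y - -y = 2 * y := by ring
  rw [hyy]
  field_simp
  linear_combination (-(16 : K) * (W.a₂ + 2 * x)) * e

/-- the point `(0, 0)` -/
lemma IsLeg.nonsingular_zero_zero (hW : IsLeg W) (hb : W.a₄ ≠ 0) : W.Nonsingular 0 0 := by
  rw [Affine.nonsingular_iff, hW.equation_iff]
  refine ⟨by ring, Or.inl ?_⟩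
  simpa [hW.a₁, eq_comm] using hb

/-- translation by the `2`-torsion point `(0, 0)` -/
lemma IsLeg.xc_add_zero_zero (hW : IsLeg W) {x y : K} (h : W.Nonsingular x y)
    (h0 : W.Nonsingular 0 0) (hx : x ≠ 0) :
    xc (Point.some x y h + Point.some 0 0 h0) = W.a₄ / x := by
  rw [hW.xc_add_of_ne h h0 hx]
  have e := hW.sq_yc h
  field_simp
  linear_combination x * e

end field

end Fermat.Agent.S05
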