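import Mathlib

/-!
# Kernel of reduction: algebra in `(z, w) = (-x/y, -1/y)` coordinates

Pure field algebra and valuation estimates, no elliptic-curve API.
-/

namespace Fermat.Agent.S05
namespace KerRed

variable {L : Type*} [Field L]

section Algebra

/-- The Weierstrass equation. -/
def Weq (a₁ a₂ a₃ a₄ a₆ x y : L) : Prop :=
  y ^ 2 + a₁ * x * y + a₃ * y = x ^ 3 + a₂ * x ^ 2 + a₄ * x + a₆

/-- The Weierstrass equation in `(z, w)`-coordinates. -/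
def Fzw (a₁ a₂ a₃ a₄ a₆ z w : L) : L :=
  z ^ 3 + a₁ * z * w + a₂ * z ^ 2 * w + a₃ * w ^ 2 + a₄ * z * w ^ 2 + a₆ * w ^ 3 - w

/-- Denominator of the `(z, w)`-slope. -/
def Uzw (a₁ a₂ a₃ a₄ a₆ z₁ w₁ w₂ : L) : L :=
  1 - a₁ * z₁ - a₂ * z₁ ^ 2 - a₃ * (w₁ + w₂) - a₄ * z₁ * (w₁ + w₂)
    - a₆ * (w₁ ^ 2 + w₁ * w₂ + w₂ ^ 2)

/-- Numerator of the `(z, w)`-slope. -/
def Vzw (a₁ a₂ a₄ z₁ z₂ w₂ : L) : L :=
  z₁ ^ 2 + z₁ * z₂ + z₂ ^ 2 + a₁ * w₂ + a₂ * (z₁ + z₂) * w₂ + a₄ * w₂ ^ 2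

/-- Denominator in the Vieta formula. -/
def Dzw (a₂ a₄ a₆ lam : L) : L := 1 + a₂ * lam + a₄ * lam ^ 2 + a₆ * lam ^ 3

/-- Numerator in the Vieta formula. -/
def Nzw (a₁ a₂ a₃ a₄ a₆ lam nu : L) : L :=
  a₁ * lam + a₂ * nu + a₃ * lam ^ 2 + 2 * a₄ * lam * nu + 3 * a₆ * lam ^ 2 * nu

variable {a₁ a₂ a₃ a₄ a₆ : L}

lemma fzw_of_weq {x y : L} (h : Weq a₁ a₂ a₃ a₄ a₆ x y) (hy : y ≠ 0) :
    Fzw a₁ a₂ a₃ a₄ a₆ (-x / y) (-1 / y) = 0 := by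
  unfold Weq at h
  unfold Fzw
  field_simp
  linear_combination h

lemma slope_identity {z₁ w₁ z₂ w₂ : L} (h₁ : Fzw a₁ a₂ a₃ a₄ a₆ z₁ w₁ = 0)
    (h₂ : Fzw a₁ a₂ a₃ a₄ a₆ z₂ w₂ = 0) :
    (w₁ - w₂) * Uzw a₁ a₂ a₃ a₄ a₆ z₁ w₁ w₂ = (z₁ - z₂) * Vzw a₁ a₂ a₄ z₁ z₂ w₂ := by
  unfold Fzw at h₁ h₂
  unfold Uzw Vzw
  linear_combination (-1 : L) * h₁ + h₂

lemma fzw_factor {z w : L} (h : Fzw a₁ a₂ a₃ a₄ a₆ z w = 0) :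
    w * (1 - a₁ * z - a₂ * z ^ 2 - a₃ * w - a₄ * z * w - a₆ * w ^ 2) = z ^ 3 := by
  unfold Fzw at h
  linear_combination (-1 : L) * h


/-- Chord case: the `(x, y)`-slope `ℓ` and intercept `c = y₁ - ℓ x₁` of the chord satisfy
`ℓ U = - c V`. -/
lemma chord_slope {x₁ y₁ x₂ y₂ ℓ : L} (h₁ : Weq a₁ a₂ a₃ a₄ a₆ x₁ y₁)
    (h₂ : Weq a₁ a₂ a₃ a₄ a₆ x₂ y₂) (hy₁ : y₁ ≠ 0) (hy₂ : y₂ ≠ 0) (hx : x₁ ≠ x₂)
    (hℓ : ℓ * (x₁ - x₂) = y₁ - y₂) :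
    ℓ * Uzw a₁ a₂ a₃ a₄ a₆ (-x₁ / y₁) (-1 / y₁) (-1 / y₂) =
      -(y₁ - ℓ * x₁) * Vzw a₁ a₂ a₄ (-x₁ / y₁) (-x₂ / y₂) (-1 / y₂) := by
  have hA := slope_identity (fzw_of_weq h₁ hy₁) (fzw_of_weq h₂ hy₂)
  have hx' : x₁ - x₂ ≠ 0 := sub_ne_zero.mpr hx
  generalize Uzw a₁ a₂ a₃ a₄ a₆ (-x₁ / y₁) (-1 / y₁) (-1 / y₂) = U at hA ⊢
  generalize Vzw a₁ a₂ a₄ (-x₁ / y₁) (-x₂ / y₂) (-1 / y₂) = V at hA ⊢
  have hk : (x₁ - x₂) / (y₁ * y₂) ≠ 0 := div_ne_zero hx' (mul_ne_zero hy₁ hy₂)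
  have hw : -1 / y₁ - -1 / y₂ = ℓ * ((x₁ - x₂) / (y₁ * y₂)) := by
    field_simp
    linear_combination (-1 : L) * hℓ
  have hz : -x₁ / y₁ - -x₂ / y₂ = -(y₁ - ℓ * x₁) * ((x₁ - x₂) / (y₁ * y₂)) := by
    field_simp
    linear_combination (-x₁) * hℓ
  rw [hw, hz] at hA
  apply mul_left_cancel₀ hk
  linear_combination hA

private lemma tangent_aux {U V n d y x ℓ : L} (hd : d ≠ 0) (hℓ : ℓ * d = n)
    (hn : n = V * y ^ 2) (hc : (y - ℓ * x) * d = -U * y ^ 2) :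
    ℓ * U = -(y - ℓ * x) * V := by
  apply mul_left_cancel₀ hd
  linear_combination U * hℓ + U * hn + V * hc

/-- Tangent case: the tangent slope `ℓ = n / d` and the intercept `c = y - ℓ x` satisfy
`ℓ U = - c V` and `c d = - U y ^ 2`. -/
lemma tangent_slope {x y ℓ : L} (h : Weq a₁ a₂ a₃ a₄ a₆ x y) (hy : y ≠ 0)
    (hd : 2 * y + a₁ * x + a₃ ≠ 0)
    (hℓ : ℓ * (2 * y + a₁ * x + a₃) = 3 * x ^ 2 + 2 * a₂ * x + a₄ - a₁ * y) :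
    ℓ * Uzw a₁ a₂ a₃ a₄ a₆ (-x / y) (-1 / y) (-1 / y) =
      -(y - ℓ * x) * Vzw a₁ a₂ a₄ (-x / y) (-x / y) (-1 / y) ∧
    (y - ℓ * x) * (2 * y + a₁ * x + a₃) =
      -Uzw a₁ a₂ a₃ a₄ a₆ (-x / y) (-1 / y) (-1 / y) * y ^ 2 := by
  unfold Weq at h
  have hn : 3 * x ^ 2 + 2 * a₂ * x + a₄ - a₁ * y =
      Vzw a₁ a₂ a₄ (-x / y) (-x / y) (-1 / y) * y ^ 2 := by
    unfold Vzw
    field_simp
    ring
  have hc : (y - ℓ * x) * (2 * y + a₁ * x + a₃) =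
      -Uzw a₁ a₂ a₃ a₄ a₆ (-x / y) (-1 / y) (-1 / y) * y ^ 2 := by
    have e : (y - ℓ * x) * (2 * y + a₁ * x + a₃) =
        y * (2 * y + a₁ * x + a₃) - (3 * x ^ 2 + 2 * a₂ * x + a₄ - a₁ * y) * x := by
      linear_combination (-x) * hℓ
    rw [e]
    unfold Uzw
    field_simp
    linear_combination (3 : L) * h
  exact ⟨tangent_aux hd hℓ hn hc, hc⟩

/-- Vieta for the chord cubic, product of the `y`'s. -/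
lemma vieta_prod {ℓ c x₁ x₂ x₃ : L} (hc : c ≠ 0)
    (e₁ : x₁ + x₂ + x₃ = ℓ ^ 2 + a₁ * ℓ - a₂)
    (e₂ : x₁ * x₂ + x₁ * x₃ + x₂ * x₃ = -(2 * ℓ * c + a₁ * c + a₃ * ℓ - a₄))
    (e₃ : x₁ * x₂ * x₃ = c ^ 2 + a₃ * c - a₆) :
    (ℓ * x₁ + c) * (ℓ * x₂ + c) * (ℓ * x₃ + c) = c ^ 3 * Dzw a₂ a₄ a₆ (-ℓ / c) := by
  unfold Dzw
  field_simp
  linear_combination ℓ ^ 3 * e₃ + ℓ ^ 2 * c * e₂ + ℓ * c ^ 2 * e₁

/-- Vieta for the chord cubic, the numerator of `∑ xᵢ / yᵢ`. -/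
lemma vieta_sum {ℓ c x₁ x₂ x₃ : L} (hc : c ≠ 0)
    (e₁ : x₁ + x₂ + x₃ = ℓ ^ 2 + a₁ * ℓ - a₂)
    (e₂ : x₁ * x₂ + x₁ * x₃ + x₂ * x₃ = -(2 * ℓ * c + a₁ * c + a₃ * ℓ - a₄))
    (e₃ : x₁ * x₂ * x₃ = c ^ 2 + a₃ * c - a₆) :
    x₁ * (ℓ * x₂ + c) * (ℓ * x₃ + c) + x₂ * (ℓ * x₁ + c) * (ℓ * x₃ + c) +
        x₃ * (ℓ * x₁ + c) * (ℓ * x₂ + c) =
      c ^ 3 * Nzw a₁ a₂ a₃ a₄ a₆ (-ℓ / c) (-1 / c) := by
  unfold Nzw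
  field_simp
  linear_combination 3 * ℓ ^ 2 * e₃ + 2 * ℓ * c * e₂ + c ^ 2 * e₁

/-- The third point of the chord lies on the curve. -/
lemma weq_third {ℓ c x₁ x₂ x₃ : L}
    (e₁ : x₁ + x₂ + x₃ = ℓ ^ 2 + a₁ * ℓ - a₂)
    (e₂ : x₁ * x₂ + x₁ * x₃ + x₂ * x₃ = -(2 * ℓ * c + a₁ * c + a₃ * ℓ - a₄))
    (e₃ : x₁ * x₂ * x₃ = c ^ 2 + a₃ * c - a₆) :
    Weq a₁ a₂ a₃ a₄ a₆ x₃ (ℓ * x₃ + c) := by
  unfold Weq
  linear_combination (-1 : L) * (x₃ ^ 2 * e₁ - x₃ * e₂ + e₃)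

end Algebra

section Val

variable {Γ₀ : Type*} [LinearOrderedCommGroupWithZero Γ₀] {v : Valuation L Γ₀}

lemma val_two_le : v (2 : L) ≤ 1 := by
  have : (2 : L) = 1 + 1 := by norm_num
  rw [this]
  exact v.map_add_le v.map_one.le v.map_one.le

lemma val_three_le : v (3 : L) ≤ 1 := by
  have : (3 : L) = 2 + 1 := by norm_num
  rw [this]
  exact v.map_add_le val_two_le v.map_one.le

lemma val_natCast_le (n : ℕ) : v (n : L) ≤ 1 := by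
  induction n with
  | zero => simp
  | succ k ih =>
    rw [Nat.cast_succ]
    exact v.map_add_le ih v.map_one.le

variable {a₁ a₂ a₃ a₄ a₆ : L}

/-- For a point with non-integral `x`, `v y ^ 2 = v x ^ 3` and `v x < v y`. -/
lemma val_y_of_val_x (h₁ : v a₁ ≤ 1) (h₂ : v a₂ ≤ 1) (h₃ : v a₃ ≤ 1) (h₄ : v a₄ ≤ 1)
    (h₆ : v a₆ ≤ 1) {x y : L} (h : Weq a₁ a₂ a₃ a₄ a₆ x y) (hx : 1 < v x) :
    v y ^ 2 = v x ^ 3 ∧ v x < v y := by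
  unfold Weq at h
  have hx1 : (1 : Γ₀) ≤ v x := hx.le
  have h12 : v x < v x ^ 2 := by
    calc v x = v x ^ 1 := (pow_one _).symm
      _ < v x ^ 2 := pow_lt_pow_right₀ hx (by norm_num)
  have h23 : v x ^ 2 < v x ^ 3 := pow_lt_pow_right₀ hx (by norm_num)
  have hlow : v (a₂ * x ^ 2 + a₄ * x + a₆) < v x ^ 3 := by
    refine v.map_add_lt (v.map_add_lt ?_ ?_) ?_
    · rw [map_mul, map_pow]
      calc v a₂ * v x ^ 2 ≤ 1 * v x ^ 2 := mul_le_mul' h₂ le_rfl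
        _ = v x ^ 2 := one_mul _
        _ < v x ^ 3 := h23
    · rw [map_mul]
      calc v a₄ * v x ≤ 1 * v x := mul_le_mul' h₄ le_rfl
        _ = v x := one_mul _
        _ < v x ^ 3 := h12.trans h23
    · exact h₆.trans_lt (hx.trans (h12.trans h23))
  have hr : v (x ^ 3 + a₂ * x ^ 2 + a₄ * x + a₆) = v x ^ 3 := by
    have e : x ^ 3 + a₂ * x ^ 2 + a₄ * x + a₆ = x ^ 3 + (a₂ * x ^ 2 + a₄ * x + a₆) := by ring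
    rw [e, v.map_add_eq_of_lt_left (by rwa [map_pow]), map_pow]
  have hl : y ^ 2 + a₁ * x * y + a₃ * y = y * (y + (a₁ * x + a₃)) := by ring
  rw [hl] at h
  have hv : v y * v (y + (a₁ * x + a₃)) = v x ^ 3 := by rw [← map_mul, h, hr]
  have hax : v (a₁ * x + a₃) ≤ v x := by
    refine v.map_add_le ?_ (h₃.trans hx1)
    rw [map_mul]
    calc v a₁ * v x ≤ 1 * v x := mul_le_mul' h₁ le_rfl
      _ = v x := one_mul _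
  rcases lt_or_ge (v x) (v y) with hxy | hxy
  · refine ⟨?_, hxy⟩
    rw [v.map_add_eq_of_lt_left (hax.trans_lt hxy)] at hv
    rw [pow_two, hv]
  · exfalso
    have h1 : v (y + (a₁ * x + a₃)) ≤ v x := v.map_add_le hxy hax
    have : v x ^ 3 ≤ v x ^ 2 := by
      rw [← hv, pow_two]
      exact mul_le_mul' hxy h1
    exact absurd this (not_le.mpr h23)

/-- On the `(z, w)`-curve near the origin, `v w = v z ^ 3`. -/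
lemma val_w_eq (h₁ : v a₁ ≤ 1) (h₂ : v a₂ ≤ 1) (h₃ : v a₃ ≤ 1) (h₄ : v a₄ ≤ 1)
    (h₆ : v a₆ ≤ 1) {z w : L} (h : Fzw a₁ a₂ a₃ a₄ a₆ z w = 0) (hz : v z < 1) (hw : v w < 1) :
    v w = v z ^ 3 := by
  have hf := fzw_factor h
  have e : 1 - a₁ * z - a₂ * z ^ 2 - a₃ * w - a₄ * z * w - a₆ * w ^ 2 =
      1 - (a₁ * z + a₂ * z ^ 2 + a₃ * w + a₄ * z * w + a₆ * w ^ 2) := by ring
  have hs : v (a₁ * z + a₂ * z ^ 2 + a₃ * w + a₄ * z * w + a₆ * w ^ 2) < 1 := by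
    have hz2 : v (z ^ 2) < 1 := by
      rw [map_pow]; exact pow_lt_one' hz (by norm_num)
    have hw2 : v (w ^ 2) < 1 := by
      rw [map_pow]; exact pow_lt_one' hw (by norm_num)
    have aux : ∀ {a t : L}, v a ≤ 1 → v t < 1 → v (a * t) < 1 := by
      intro a t ha ht
      rw [map_mul]
      calc v a * v t ≤ 1 * v t := mul_le_mul' ha le_rfl
        _ = v t := one_mul _
        _ < 1 := ht
    refine v.map_add_lt (v.map_add_lt (v.map_add_lt (v.map_add_lt ?_ ?_) ?_) ?_) ?_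
    · exact aux h₁ hz
    · exact aux h₂ hz2
    · exact aux h₃ hw
    · rw [mul_assoc]; exact aux h₄ (by
        rw [map_mul]
        calc v z * v w ≤ 1 * v w := mul_le_mul' hz.le le_rfl
          _ = v w := one_mul _
          _ < 1 := hw)
    · exact aux h₆ hw2
  rw [e] at hf
  have := congrArg v hf
  rwa [map_mul, v.map_one_sub_of_lt hs, mul_one, map_pow] at this

end Val

section Estimates

variable {Γ₀ : Type*} [LinearOrderedCommGroupWithZero Γ₀] {v : Valuation L Γ₀} {m : Γ₀}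

private lemma b_add {k : ℕ} {s t : L} (hs : v s ≤ m ^ k) (ht : v t ≤ m ^ k) :
    v (s + t) ≤ m ^ k := v.map_add_le hs ht

private lemma b_sub {k : ℕ} {s t : L} (hs : v s ≤ m ^ k) (ht : v t ≤ m ^ k) :
    v (s - t) ≤ m ^ k := v.map_sub_le hs ht

private lemma b_neg {k : ℕ} {t : L} (ht : v t ≤ m ^ k) : v (-t) ≤ m ^ k := by
  rwa [v.map_neg]

private lemma b_mul {j k : ℕ} {s t : L} (hs : v s ≤ m ^ j) (ht : v t ≤ m ^ k) :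
    v (s * t) ≤ m ^ (j + k) := by
  rw [map_mul, pow_add]
  exact mul_le_mul' hs ht

private lemma b_imul {k : ℕ} {a t : L} (ha : v a ≤ 1) (ht : v t ≤ m ^ k) :
    v (a * t) ≤ m ^ k := by
  rw [map_mul]
  calc v a * v t ≤ 1 * m ^ k := mul_le_mul' ha ht
    _ = m ^ k := one_mul _

private lemma b_mono (hm : m ≤ 1) {j k : ℕ} (hjk : j ≤ k) {t : L} (ht : v t ≤ m ^ k) :
    v t ≤ m ^ j := ht.trans (pow_le_pow_right_of_le_one' hm hjk)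

private lemma b_sq {k : ℕ} {t : L} (ht : v t ≤ m ^ k) : v (t ^ 2) ≤ m ^ (k + k) := by
  rw [pow_two]
  exact b_mul ht ht

private lemma b_one {t : L} (ht : v t ≤ m) : v t ≤ m ^ 1 := by rwa [pow_one]

variable {a₁ a₂ a₃ a₄ a₆ : L}

lemma val_Vzw (h₁ : v a₁ ≤ 1) (h₂ : v a₂ ≤ 1) (h₄ : v a₄ ≤ 1) (hm : m ≤ 1)
    {z₁ z₂ w₂ : L} (hz₁ : v z₁ ≤ m) (hz₂ : v z₂ ≤ m) (hw₂ : v w₂ ≤ m ^ 3) :
    v (Vzw a₁ a₂ a₄ z₁ z₂ w₂) ≤ m ^ 2 := by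
  unfold Vzw
  have hz₁' := b_one hz₁
  have hz₂' := b_one hz₂
  refine b_add (b_add (b_add (b_add (b_add ?_ ?_) ?_) ?_) ?_) ?_
  · exact b_sq hz₁'
  · exact b_mul hz₁' hz₂'
  · exact b_sq hz₂'
  · exact b_imul h₁ (b_mono hm (by norm_num) hw₂)
  · rw [mul_assoc]
    exact b_imul h₂ (b_mono hm (by norm_num) (b_mul (b_add hz₁' hz₂') hw₂))
  · exact b_imul h₄ (b_mono hm (by norm_num) (b_sq hw₂))

lemma val_Uzw (h₁ : v a₁ ≤ 1) (h₂ : v a₂ ≤ 1) (h₃ : v a₃ ≤ 1) (h₄ : v a₄ ≤ 1)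
    (h₆ : v a₆ ≤ 1) (hm : m < 1)
    {z₁ w₁ w₂ : L} (hz₁ : v z₁ ≤ m) (hw₁ : v w₁ ≤ m ^ 3) (hw₂ : v w₂ ≤ m ^ 3) :
    v (Uzw a₁ a₂ a₃ a₄ a₆ z₁ w₁ w₂) = 1 := by
  have e : Uzw a₁ a₂ a₃ a₄ a₆ z₁ w₁ w₂ = 1 - (a₁ * z₁ + a₂ * z₁ ^ 2 + a₃ * (w₁ + w₂) +
      a₄ * (z₁ * (w₁ + w₂)) + a₆ * (w₁ ^ 2 + w₁ * w₂ + w₂ ^ 2)) := by
    unfold Uzw; ring
  rw [e]
  apply v.map_one_sub_of_lt
  have hz₁' := b_one hz₁
  have hm' := hm.le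
  have key : v (a₁ * z₁ + a₂ * z₁ ^ 2 + a₃ * (w₁ + w₂) +
      a₄ * (z₁ * (w₁ + w₂)) + a₆ * (w₁ ^ 2 + w₁ * w₂ + w₂ ^ 2)) ≤ m ^ 1 := by
    refine b_add (b_add (b_add (b_add ?_ ?_) ?_) ?_) ?_
    · exact b_imul h₁ hz₁'
    · exact b_imul h₂ (b_mono hm' (by norm_num) (b_sq hz₁'))
    · exact b_imul h₃ (b_mono hm' (by norm_num) (b_add hw₁ hw₂))
    · exact b_imul h₄ (b_mono hm' (by norm_num) (b_mul hz₁' (b_add hw₁ hw₂)))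
    · exact b_imul h₆ (b_mono hm' (by norm_num)
        (b_add (b_add (b_sq hw₁) (b_mul hw₁ hw₂)) (b_sq hw₂)))
  rw [pow_one] at key
  exact key.trans_lt hm

lemma val_Dzw (h₂ : v a₂ ≤ 1) (h₄ : v a₄ ≤ 1) (h₆ : v a₆ ≤ 1) (hm : m < 1)
    {lam : L} (hlam : v lam ≤ m ^ 2) : v (Dzw a₂ a₄ a₆ lam) = 1 := by
  have e : Dzw a₂ a₄ a₆ lam = 1 + (a₂ * lam + a₄ * lam ^ 2 + a₆ * (lam ^ 2 * lam)) := by
    unfold Dzw; ring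
  rw [e]
  apply v.map_one_add_of_lt
  have hm' := hm.le
  have hl1 : v lam ≤ m ^ 1 := b_mono hm' (by norm_num) hlam
  have key : v (a₂ * lam + a₄ * lam ^ 2 + a₆ * (lam ^ 2 * lam)) ≤ m ^ 1 := by
    refine b_add (b_add ?_ ?_) ?_
    · exact b_imul h₂ hl1
    · exact b_imul h₄ (b_mono hm' (by norm_num) (b_sq hl1))
    · exact b_imul h₆ (b_mono hm' (by norm_num) (b_mul (b_sq hl1) hl1))
  rw [pow_one] at key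
  exact key.trans_lt hm

lemma val_Nzw (h₁ : v a₁ ≤ 1) (h₂ : v a₂ ≤ 1) (h₃ : v a₃ ≤ 1) (h₄ : v a₄ ≤ 1)
    (h₆ : v a₆ ≤ 1) (hm : m ≤ 1)
    {lam nu : L} (hlam : v lam ≤ m ^ 2) (hnu : v nu ≤ m ^ 3) :
    v (Nzw a₁ a₂ a₃ a₄ a₆ lam nu) ≤ m ^ 2 := by
  have e : Nzw a₁ a₂ a₃ a₄ a₆ lam nu = a₁ * lam + a₂ * nu + a₃ * lam ^ 2 +
      (2 * a₄) * (lam * nu) + (3 * a₆) * (lam ^ 2 * nu) := by
    unfold Nzw; ring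
  rw [e]
  have h2a : v (2 * a₄) ≤ 1 := by
    rw [map_mul]
    calc v 2 * v a₄ ≤ 1 * 1 := mul_le_mul' val_two_le h₄
      _ = 1 := one_mul _
  have h3a : v (3 * a₆) ≤ 1 := by
    rw [map_mul]
    calc v 3 * v a₆ ≤ 1 * 1 := mul_le_mul' val_three_le h₆
      _ = 1 := one_mul _
  refine b_add (b_add (b_add (b_add ?_ ?_) ?_) ?_) ?_
  · exact b_imul h₁ hlam
  · exact b_imul h₂ (b_mono hm (by norm_num) hnu)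
  · exact b_imul h₃ (b_mono hm (by norm_num) (b_sq hlam))
  · exact b_imul h2a (b_mono hm (by norm_num) (b_mul hlam hnu))
  · exact b_imul h3a (b_mono hm (by norm_num) (b_mul (b_sq hlam) hnu))

/-- The final step: passing from the third point of the chord to its negative. -/
lemma val_final (h₁ : v a₁ ≤ 1) (h₃ : v a₃ ≤ 1) (hm : m < 1)
    {z₁ z₂ z₃ w₃ : L} (hz₁ : v z₁ ≤ m) (hz₂ : v z₂ ≤ m) (hz₃ : v z₃ ≤ m) (hw₃ : v w₃ ≤ m ^ 3)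
    (hsum : v (z₃ + z₁ + z₂) ≤ m ^ 2) :
    v (1 - a₁ * z₃ - a₃ * w₃) = 1 ∧
      v (-z₃ / (1 - a₁ * z₃ - a₃ * w₃) - z₁ - z₂) ≤ m ^ 2 := by
  have hm' := hm.le
  have ht : v (a₁ * z₃ + a₃ * w₃) ≤ m ^ 1 :=
    b_add (b_imul h₁ (b_one hz₃)) (b_imul h₃ (b_mono hm' (by norm_num) hw₃))
  have hu : v (1 - a₁ * z₃ - a₃ * w₃) = 1 := by
    have e : 1 - a₁ * z₃ - a₃ * w₃ = 1 - (a₁ * z₃ + a₃ * w₃) := by ring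
    rw [e]
    apply v.map_one_sub_of_lt
    rw [pow_one] at ht
    exact ht.trans_lt hm
  refine ⟨hu, ?_⟩
  have hu0 : 1 - a₁ * z₃ - a₃ * w₃ ≠ 0 := by
    intro h0
    rw [h0, map_zero] at hu
    exact zero_ne_one hu
  have e : -z₃ / (1 - a₁ * z₃ - a₃ * w₃) - z₁ - z₂ =
      (-(z₃ + z₁ + z₂) + (z₁ + z₂) * (a₁ * z₃ + a₃ * w₃)) / (1 - a₁ * z₃ - a₃ * w₃) := by
    obtain ⟨u, hu_def⟩ : ∃ u, u = 1 - a₁ * z₃ - a₃ * w₃ := ⟨_, rfl⟩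
    rw [← hu_def] at hu0 ⊢
    have e2 : -(z₃ + z₁ + z₂) + (z₁ + z₂) * (a₁ * z₃ + a₃ * w₃) = -z₃ - (z₁ + z₂) * u := by
      rw [hu_def]; ring
    rw [e2]
    field_simp
    ring
  rw [e, map_div₀, hu, div_one]
  exact b_add (b_neg hsum) (b_mul (b_add (b_one hz₁) (b_one hz₂)) ht)

end Estimates

section Main

variable {Γ₀ : Type*} [LinearOrderedCommGroupWithZero Γ₀] {v : Valuation L Γ₀}
variable {a₁ a₂ a₃ a₄ a₆ : L}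

/-- Basic facts about a point with non-integral `x`-coordinate. -/
lemma point_facts (h₁ : v a₁ ≤ 1) (h₂ : v a₂ ≤ 1) (h₃ : v a₃ ≤ 1) (h₄ : v a₄ ≤ 1)
    (h₆ : v a₆ ≤ 1) {x y : L} (h : Weq a₁ a₂ a₃ a₄ a₆ x y) (hx : 1 < v x) :
    y ≠ 0 ∧ v (-x / y) < 1 ∧ v (-x / y) ≠ 0 ∧ v (-1 / y) = v (-x / y) ^ 3 ∧
      Fzw a₁ a₂ a₃ a₄ a₆ (-x / y) (-1 / y) = 0 := by
  obtain ⟨_, hxy⟩ := val_y_of_val_x h₁ h₂ h₃ h₄ h₆ h hx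
  have hy1 : 1 < v y := hx.trans hxy
  have hvy0 : 0 < v y := zero_lt_one.trans hy1
  have hy0 : y ≠ 0 := fun h0 => by rw [h0, map_zero] at hvy0; exact lt_irrefl _ hvy0
  have hx0 : x ≠ 0 := fun h0 => by
    rw [h0, map_zero] at hx; exact not_lt_of_ge zero_le_one hx
  have hz : v (-x / y) < 1 := by
    rw [map_div₀, v.map_neg]
    exact (div_lt_one₀ hvy0).mpr hxy
  have hw : v (-1 / y) < 1 := by
    rw [map_div₀, v.map_neg, map_one]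
    exact (div_lt_one₀ hvy0).mpr hy1
  have hF := fzw_of_weq h hy0
  refine ⟨hy0, hz, ?_, val_w_eq h₁ h₂ h₃ h₄ h₆ hF hz hw, hF⟩
  rw [ne_eq, map_eq_zero]
  exact div_ne_zero (neg_ne_zero.mpr hx0) hy0

/-- The main estimate: the sum of two points with non-integral `x`-coordinates (given by the
chord-tangent construction with slope `ℓ`) has non-integral `x`-coordinate, and the `z`-coordinate
is additive up to second order terms. -/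
theorem add_estimate (h₁ : v a₁ ≤ 1) (h₂ : v a₂ ≤ 1) (h₃ : v a₃ ≤ 1) (h₄ : v a₄ ≤ 1)
    (h₆ : v a₆ ≤ 1) {x₁ y₁ x₂ y₂ ℓ x₃ c : L}
    (hW₁ : Weq a₁ a₂ a₃ a₄ a₆ x₁ y₁) (hW₂ : Weq a₁ a₂ a₃ a₄ a₆ x₂ y₂)
    (hx₁ : 1 < v x₁) (hx₂ : 1 < v x₂)
    (hcdef : c = y₁ - ℓ * x₁)
    (hy₂ : y₂ = ℓ * x₂ + c)
    (e₁ : x₁ + x₂ + x₃ = ℓ ^ 2 + a₁ * ℓ - a₂)
    (e₂ : x₁ * x₂ + x₁ * x₃ + x₂ * x₃ = -(2 * ℓ * c + a₁ * c + a₃ * ℓ - a₄))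
    (e₃ : x₁ * x₂ * x₃ = c ^ 2 + a₃ * c - a₆)
    (hcl : Uzw a₁ a₂ a₃ a₄ a₆ (-x₁ / y₁) (-1 / y₁) (-1 / y₂) ≠ 0 → c ≠ 0 ∧
      ℓ * Uzw a₁ a₂ a₃ a₄ a₆ (-x₁ / y₁) (-1 / y₁) (-1 / y₂) =
        -c * Vzw a₁ a₂ a₄ (-x₁ / y₁) (-x₂ / y₂) (-1 / y₂)) :
    1 < v x₃ ∧ -(ℓ * (x₃ - x₁) + y₁) - a₁ * x₃ - a₃ ≠ 0 ∧
      v (-x₃ / (-(ℓ * (x₃ - x₁) + y₁) - a₁ * x₃ - a₃) - -x₁ / y₁ - -x₂ / y₂) ≤
        (max (v (-x₁ / y₁)) (v (-x₂ / y₂))) ^ 2 := by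
  obtain ⟨hy₁0, hz₁lt, -, hw₁, -⟩ := point_facts h₁ h₂ h₃ h₄ h₆ hW₁ hx₁
  obtain ⟨hy₂0, hz₂lt, -, hw₂, -⟩ := point_facts h₁ h₂ h₃ h₄ h₆ hW₂ hx₂
  obtain ⟨z₁, hz₁⟩ : ∃ z, z = -x₁ / y₁ := ⟨_, rfl⟩
  obtain ⟨z₂, hz₂⟩ : ∃ z, z = -x₂ / y₂ := ⟨_, rfl⟩
  obtain ⟨w₁, hw₁d⟩ : ∃ w, w = -1 / y₁ := ⟨_, rfl⟩
  obtain ⟨w₂, hw₂d⟩ : ∃ w, w = -1 / y₂ := ⟨_, rfl⟩
  rw [← hz₁, ← hw₁d] at hw₁
  rw [← hz₂, ← hw₂d] at hw₂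
  rw [← hz₁] at hz₁lt
  rw [← hz₂] at hz₂lt
  rw [← hz₁, ← hz₂, ← hw₁d, ← hw₂d] at hcl
  rw [← hz₁, ← hz₂]
  obtain ⟨m, hmdef⟩ : ∃ m, m = max (v z₁) (v z₂) := ⟨_, rfl⟩
  rw [← hmdef]
  have hm : m < 1 := by rw [hmdef]; exact max_lt hz₁lt hz₂lt
  have hz₁m : v z₁ ≤ m := by rw [hmdef]; exact le_max_left _ _
  have hz₂m : v z₂ ≤ m := by rw [hmdef]; exact le_max_right _ _
  have hw₁m : v w₁ ≤ m ^ 3 := by rw [hw₁]; exact pow_le_pow_left' hz₁m 3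
  have hw₂m : v w₂ ≤ m ^ 3 := by rw [hw₂]; exact pow_le_pow_left' hz₂m 3
  have hU := val_Uzw h₁ h₂ h₃ h₄ h₆ hm hz₁m hw₁m hw₂m
  have hV := val_Vzw h₁ h₂ h₄ hm.le hz₁m hz₂m hw₂m
  generalize Uzw a₁ a₂ a₃ a₄ a₆ z₁ w₁ w₂ = U at hU hcl
  generalize Vzw a₁ a₂ a₄ z₁ z₂ w₂ = V at hV hcl
  have hU0 : U ≠ 0 := fun h0 => by rw [h0, map_zero] at hU; exact zero_ne_one hU
  obtain ⟨hc, hlam⟩ := hcl hU0
  -- the `(z, w)`-slope and intercept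
  obtain ⟨lam, hlamd⟩ : ∃ lam, lam = -ℓ / c := ⟨_, rfl⟩
  obtain ⟨nu, hnud⟩ : ∃ nu, nu = -1 / c := ⟨_, rfl⟩
  have hlamU : lam * U = V := by
    rw [hlamd]
    field_simp
    linear_combination (-1 : L) * hlam
  have hvlam : v lam ≤ m ^ 2 := by
    have := congrArg v hlamU
    rw [map_mul, hU, mul_one] at this
    rw [this]; exact hV
  have hy₁c : y₁ = ℓ * x₁ + c := by rw [hcdef]; ring
  have hnu : nu = w₁ - lam * z₁ := by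
    rw [hnud, hlamd, hw₁d, hz₁]
    field_simp
    linear_combination (-1 : L) * hy₁c
  have hvnu : v nu ≤ m ^ 3 := by
    rw [hnu]
    exact v.map_sub_le hw₁m (b_mul hvlam (b_one hz₁m))
  have hD := val_Dzw h₂ h₄ h₆ hm hvlam
  have hN := val_Nzw h₁ h₂ h₃ h₄ h₆ hm.le hvlam hvnu
  -- the third point
  obtain ⟨y₃, hy₃d⟩ : ∃ y₃, y₃ = ℓ * x₃ + c := ⟨_, rfl⟩
  have hprod := vieta_prod (a₂ := a₂) (a₄ := a₄) (a₆ := a₆) hc e₁ e₂ e₃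
  have hsum := vieta_sum (a₂ := a₂) (a₄ := a₄) (a₆ := a₆) hc e₁ e₂ e₃
  rw [← hy₁c, ← hy₂, ← hy₃d, ← hlamd] at hprod
  rw [← hy₁c, ← hy₂, ← hy₃d, ← hlamd, ← hnud] at hsum
  generalize Dzw a₂ a₄ a₆ lam = D at hD hprod
  generalize Nzw a₁ a₂ a₃ a₄ a₆ lam nu = N at hN hsum
  have hD0 : D ≠ 0 := fun h0 => by rw [h0, map_zero] at hD; exact zero_ne_one hD
  have hy₃0 : y₃ ≠ 0 := by
    intro h0
    rw [h0, mul_zero] at hprod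
    exact (mul_ne_zero (pow_ne_zero 3 hc) hD0) hprod.symm
  obtain ⟨z₃, hz₃⟩ : ∃ z, z = -x₃ / y₃ := ⟨_, rfl⟩
  obtain ⟨w₃, hw₃d⟩ : ∃ w, w = -1 / y₃ := ⟨_, rfl⟩
  have hzsum : z₃ + z₁ + z₂ = -(N / D) := by
    have e : (z₃ + z₁ + z₂) * (y₁ * y₂ * y₃) =
        -(x₁ * y₂ * y₃ + x₂ * y₁ * y₃ + x₃ * y₁ * y₂) := by
      rw [hz₃, hz₁, hz₂]
      field_simp
      ring
    rw [hprod, hsum] at e
    have hc3 : c ^ 3 ≠ 0 := pow_ne_zero 3 hc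
    have e' : (z₃ + z₁ + z₂) * D = -N := by
      apply mul_left_cancel₀ hc3
      linear_combination e
    rw [← neg_div, eq_div_iff hD0]
    exact e'
  have hvsum : v (z₃ + z₁ + z₂) ≤ m ^ 2 := by
    rw [hzsum, v.map_neg, map_div₀, hD, div_one]; exact hN
  have hvz₃ : v z₃ ≤ m := by
    have e : z₃ = (z₃ + z₁ + z₂) - z₁ - z₂ := by ring
    rw [e]
    have h2 : v (z₃ + z₁ + z₂) ≤ m := by
      have := b_mono hm.le (show 1 ≤ 2 by norm_num) hvsum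
      rwa [pow_one] at this
    exact v.map_sub_le (v.map_sub_le h2 hz₁m) hz₂m
  have hw₃ : w₃ = lam * z₃ + nu := by
    rw [hw₃d, hlamd, hz₃, hnud]
    field_simp
    linear_combination hy₃d
  have hvw₃ : v w₃ ≤ m ^ 3 := by
    rw [hw₃]
    exact v.map_add_le (b_mul hvlam (b_one hvz₃)) hvnu
  have hW₃ : Weq a₁ a₂ a₃ a₄ a₆ x₃ y₃ := by rw [hy₃d]; exact weq_third e₁ e₂ e₃
  have hF₃ := fzw_of_weq hW₃ hy₃0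
  rw [← hz₃, ← hw₃d] at hF₃
  have hz₃lt : v z₃ < 1 := hvz₃.trans_lt hm
  have hw₃lt : v w₃ < 1 := by
    have := b_mono hm.le (show 1 ≤ 3 by norm_num) hvw₃
    rw [pow_one] at this
    exact this.trans_lt hm
  have hw₃eq := val_w_eq h₁ h₂ h₃ h₄ h₆ hF₃ hz₃lt hw₃lt
  have hw₃0 : w₃ ≠ 0 := by
    rw [hw₃d]; exact div_ne_zero (neg_ne_zero.mpr one_ne_zero) hy₃0
  have hvz₃0 : v z₃ ≠ 0 := by
    intro h0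
    rw [h0, zero_pow (by norm_num)] at hw₃eq
    exact hw₃0 (v.zero_iff.mp hw₃eq)
  have hx₃w : x₃ * w₃ = z₃ := by
    rw [hw₃d, hz₃]; field_simp
  have hvx₃ : 1 < v x₃ := by
    by_contra hle
    rw [not_lt] at hle
    have h1 : v z₃ ≤ v z₃ ^ 3 := by
      calc v z₃ = v x₃ * v z₃ ^ 3 := by
            have := congrArg v hx₃w
            rw [map_mul, hw₃eq] at this
            exact this.symm
        _ ≤ 1 * v z₃ ^ 3 := mul_le_mul' hle le_rfl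
        _ = v z₃ ^ 3 := one_mul _
    have h2 : v z₃ ^ 3 < v z₃ :=
      pow_lt_self_of_lt_one₀ (zero_lt_iff.mpr hvz₃0) hz₃lt (by norm_num)
    exact absurd h1 (not_le.mpr h2)
  obtain ⟨hu, hfin⟩ := val_final h₁ h₃ hm hz₁m hz₂m hvz₃ hvw₃ hvsum
  have hu0 : 1 - a₁ * z₃ - a₃ * w₃ ≠ 0 := fun h0 => by
    rw [h0, map_zero] at hu; exact zero_ne_one hu
  have hy₃neg : -(ℓ * (x₃ - x₁) + y₁) - a₁ * x₃ - a₃ = -y₃ * (1 - a₁ * z₃ - a₃ * w₃) := by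
    rw [hz₃, hw₃d]
    field_simp
    linear_combination hy₃d - hy₁c
  refine ⟨hvx₃, ?_, ?_⟩
  · rw [hy₃neg]; exact mul_ne_zero (neg_ne_zero.mpr hy₃0) hu0
  · have e : -x₃ / (-(ℓ * (x₃ - x₁) + y₁) - a₁ * x₃ - a₃) =
        -z₃ / (1 - a₁ * z₃ - a₃ * w₃) := by
      rw [hy₃neg, hz₃]
      field_simp
    rw [e]; exact hfin

/-- The main estimate, chord case. -/
theorem add_estimate_chord (h₁ : v a₁ ≤ 1) (h₂ : v a₂ ≤ 1) (h₃ : v a₃ ≤ 1) (h₄ : v a₄ ≤ 1)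
    (h₆ : v a₆ ≤ 1) {x₁ y₁ x₂ y₂ ℓ x₃ : L}
    (hW₁ : Weq a₁ a₂ a₃ a₄ a₆ x₁ y₁) (hW₂ : Weq a₁ a₂ a₃ a₄ a₆ x₂ y₂)
    (hx₁ : 1 < v x₁) (hx₂ : 1 < v x₂) (hx : x₁ ≠ x₂) (hℓ : ℓ * (x₁ - x₂) = y₁ - y₂)
    (e₁ : x₁ + x₂ + x₃ = ℓ ^ 2 + a₁ * ℓ - a₂)
    (e₂ : x₁ * x₂ + x₁ * x₃ + x₂ * x₃ =
      -(2 * ℓ * (y₁ - ℓ * x₁) + a₁ * (y₁ - ℓ * x₁) + a₃ * ℓ - a₄))
    (e₃ : x₁ * x₂ * x₃ = (y₁ - ℓ * x₁) ^ 2 + a₃ * (y₁ - ℓ * x₁) - a₆) :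
    1 < v x₃ ∧ -(ℓ * (x₃ - x₁) + y₁) - a₁ * x₃ - a₃ ≠ 0 ∧
      v (-x₃ / (-(ℓ * (x₃ - x₁) + y₁) - a₁ * x₃ - a₃) - -x₁ / y₁ - -x₂ / y₂) ≤
        (max (v (-x₁ / y₁)) (v (-x₂ / y₂))) ^ 2 := by
  obtain ⟨hy₁0, -, -, -, -⟩ := point_facts h₁ h₂ h₃ h₄ h₆ hW₁ hx₁
  obtain ⟨hy₂0, -, -, -, -⟩ := point_facts h₁ h₂ h₃ h₄ h₆ hW₂ hx₂
  refine add_estimate h₁ h₂ h₃ h₄ h₆ hW₁ hW₂ hx₁ hx₂ rfl ?_ e₁ e₂ e₃ ?_
  · linear_combination hℓ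
  · intro hU0
    have hlam := chord_slope hW₁ hW₂ hy₁0 hy₂0 hx hℓ
    refine ⟨?_, hlam⟩
    intro hc0
    rw [hc0, neg_zero, zero_mul] at hlam
    rcases mul_eq_zero.mp hlam with h | h
    · rw [h, zero_mul, sub_zero] at hc0
      exact hy₁0 hc0
    · exact hU0 h

/-- The main estimate, tangent case. -/
theorem add_estimate_tangent (h₁ : v a₁ ≤ 1) (h₂ : v a₂ ≤ 1) (h₃ : v a₃ ≤ 1) (h₄ : v a₄ ≤ 1)
    (h₆ : v a₆ ≤ 1) {x y ℓ x₃ : L}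
    (hW : Weq a₁ a₂ a₃ a₄ a₆ x y) (hx : 1 < v x) (hd : 2 * y + a₁ * x + a₃ ≠ 0)
    (hℓ : ℓ * (2 * y + a₁ * x + a₃) = 3 * x ^ 2 + 2 * a₂ * x + a₄ - a₁ * y)
    (e₁ : x + x + x₃ = ℓ ^ 2 + a₁ * ℓ - a₂)
    (e₂ : x * x + x * x₃ + x * x₃ =
      -(2 * ℓ * (y - ℓ * x) + a₁ * (y - ℓ * x) + a₃ * ℓ - a₄))
    (e₃ : x * x * x₃ = (y - ℓ * x) ^ 2 + a₃ * (y - ℓ * x) - a₆) :
    1 < v x₃ ∧ -(ℓ * (x₃ - x) + y) - a₁ * x₃ - a₃ ≠ 0 ∧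
      v (-x₃ / (-(ℓ * (x₃ - x) + y) - a₁ * x₃ - a₃) - -x / y - -x / y) ≤
        (max (v (-x / y)) (v (-x / y))) ^ 2 := by
  obtain ⟨hy0, -, -, -, -⟩ := point_facts h₁ h₂ h₃ h₄ h₆ hW hx
  refine add_estimate h₁ h₂ h₃ h₄ h₆ hW hW hx hx rfl ?_ e₁ e₂ e₃ ?_
  · ring
  · intro hU0
    obtain ⟨hlam, hcd⟩ := tangent_slope hW hy0 hd hℓ
    refine ⟨?_, hlam⟩
    intro hc0
    rw [hc0, zero_mul] at hcd
    have := mul_ne_zero (neg_ne_zero.mpr hU0) (pow_ne_zero 2 hy0)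
    exact this hcd.symm

/-- The estimate for the negative of a point. -/
theorem neg_estimate (h₁ : v a₁ ≤ 1) (h₂ : v a₂ ≤ 1) (h₃ : v a₃ ≤ 1) (h₄ : v a₄ ≤ 1)
    (h₆ : v a₆ ≤ 1) {x y : L} (hW : Weq a₁ a₂ a₃ a₄ a₆ x y) (hx : 1 < v x) :
    -y - a₁ * x - a₃ ≠ 0 ∧
      v (-x / (-y - a₁ * x - a₃) + -x / y) ≤ v (-x / y) ^ 2 := by
  obtain ⟨hy0, hzlt, -, hw, -⟩ := point_facts h₁ h₂ h₃ h₄ h₆ hW hx
  obtain ⟨z, hz⟩ : ∃ z, z = -x / y := ⟨_, rfl⟩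
  obtain ⟨w, hwd⟩ : ∃ w, w = -1 / y := ⟨_, rfl⟩
  rw [← hz, ← hwd] at hw
  rw [← hz] at hzlt ⊢
  have hneg : v (-z) ≤ v z := by rw [v.map_neg]
  have h0 : v (0 : L) ≤ v z := by rw [map_zero]; exact zero_le
  have hs : v (z + -z + 0) ≤ v z ^ 2 := by
    have : z + -z + 0 = 0 := by ring
    rw [this, map_zero]; exact zero_le
  obtain ⟨hu, hfin⟩ := val_final (z₁ := -z) (z₂ := 0) (z₃ := z) (w₃ := w) h₁ h₃ hzlt hneg h0 le_rfl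
    (by rw [hw]) hs
  have hu0 : 1 - a₁ * z - a₃ * w ≠ 0 := fun h0 => by
    rw [h0, map_zero] at hu; exact zero_ne_one hu
  have hyneg : -y - a₁ * x - a₃ = -y * (1 - a₁ * z - a₃ * w) := by
    rw [hz, hwd]
    field_simp
    ring
  refine ⟨?_, ?_⟩
  · rw [hyneg]; exact mul_ne_zero (neg_ne_zero.mpr hy0) hu0
  · have e : -x / (-y - a₁ * x - a₃) + z = -z / (1 - a₁ * z - a₃ * w) - -z - 0 := by
      rw [hyneg, hz]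
      field_simp
      ring
    rw [e]; exact hfin

end Main

end KerRed
end Fermat.Agent.S05
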