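import Mathlib
import Fermat.Agent.S05.KerRedAlg

/-!
# The kernel of reduction of a Weierstrass curve over a valued field

For a field `L` with a valuation subring `A` and a Weierstrass curve `W` over `L` with coefficients
in `A`, the points with non-integral `x`-coordinate (together with `0`) form a subgroup
`kerRed A W hW` of `W.Point`, and this subgroup has no `n`-torsion for `n` invertible in `A`.
No discreteness or completeness assumption, any residue characteristic.
-/

namespace Fermat.Agent.S05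

open WeierstrassCurve WeierstrassCurve.Affine

variable {L : Type*} [Field L] (A : ValuationSubring L)
  (W : WeierstrassCurve.Affine L)

/-- The Weierstrass curve `W` has coefficients in the valuation subring `A`. -/
def IsIntegralAt : Prop := W.a₁ ∈ A ∧ W.a₂ ∈ A ∧ W.a₃ ∈ A ∧ W.a₄ ∈ A ∧ W.a₆ ∈ A

/-- The point `P` is in the kernel of reduction: it is `0` or its `x`-coordinate is not in `A`. -/
def InKerRed : W.Point → Prop
  | .zero => True
  | .some x _ _ => x ∉ A

/-- The local parameter `z = -x / y` at the origin. -/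
def zCoord : W.Point → L
  | .zero => 0
  | .some x y _ => -x / y

variable {A W}

@[simp] lemma inKerRed_zero : InKerRed A W 0 := trivial

@[simp] lemma inKerRed_some {x y : L} (h : W.Nonsingular x y) :
    InKerRed A W (.some x y h) ↔ x ∉ A := Iff.rfl

@[simp] lemma zCoord_zero : zCoord W 0 = 0 := rfl

@[simp] lemma zCoord_some {x y : L} (h : W.Nonsingular x y) :
    zCoord W (.some x y h) = -x / y := rfl

lemma inKerRed_iff {P : W.Point} :
    InKerRed A W P ↔ P = 0 ∨ ∃ x y h, P = .some x y h ∧ x ∉ A := by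
  cases P with
  | zero => exact ⟨fun _ => Or.inl rfl, fun _ => trivial⟩
  | some x y h =>
    constructor
    · intro hx
      exact Or.inr ⟨x, y, h, rfl, hx⟩
    · rintro (h0 | ⟨x', y', h', he, hx'⟩)
      · exact absurd h0 (Point.some_ne_zero h)
      · cases he
        exact hx'

lemma one_lt_val_of_not_mem {x : L} (hx : x ∉ A) : 1 < A.valuation x := by
  rw [← not_le]
  exact fun h => hx ((A.valuation_le_one_iff x).mp h)

lemma weq_of_equation {x y : L} (h : W.Equation x y) :
    KerRed.Weq W.a₁ W.a₂ W.a₃ W.a₄ W.a₆ x y := (W.equation_iff x y).mp h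

variable [DecidableEq L]

/-- The estimate for the sum of two affine points in the kernel of reduction which are not
inverse to each other. -/
theorem add_some_estimate (hW : IsIntegralAt A W) {x₁ y₁ x₂ y₂ : L}
    (h₁ : W.Nonsingular x₁ y₁) (h₂ : W.Nonsingular x₂ y₂) (hx₁ : x₁ ∉ A) (hx₂ : x₂ ∉ A)
    (hxy : ¬(x₁ = x₂ ∧ y₁ = W.negY x₂ y₂)) :
    W.addX x₁ x₂ (W.slope x₁ x₂ y₁ y₂) ∉ A ∧
      A.valuation (-(W.addX x₁ x₂ (W.slope x₁ x₂ y₁ y₂)) /
          (W.addY x₁ x₂ y₁ (W.slope x₁ x₂ y₁ y₂)) - -x₁ / y₁ - -x₂ / y₂) ≤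
        (max (A.valuation (-x₁ / y₁)) (A.valuation (-x₂ / y₂))) ^ 2 := by
  obtain ⟨ha₁, ha₂, ha₃, ha₄, ha₆⟩ := hW
  have i₁ := (A.valuation_le_one_iff _).mpr ha₁
  have i₂ := (A.valuation_le_one_iff _).mpr ha₂
  have i₃ := (A.valuation_le_one_iff _).mpr ha₃
  have i₄ := (A.valuation_le_one_iff _).mpr ha₄
  have i₆ := (A.valuation_le_one_iff _).mpr ha₆
  have hv₁ := one_lt_val_of_not_mem hx₁
  have hv₂ := one_lt_val_of_not_mem hx₂
  have hpoly := addPolynomial_slope h₁.left h₂.left hxy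
  rw [addPolynomial_eq, neg_inj, Cubic.prod_X_sub_C_eq, Cubic.toPoly_injective] at hpoly
  obtain ⟨-, hb, hc, hd⟩ := Cubic.ext_iff.mp hpoly
  dsimp only at hb hc hd
  obtain ⟨ℓ, hℓd⟩ : ∃ ℓ, ℓ = W.slope x₁ x₂ y₁ y₂ := ⟨_, rfl⟩
  rw [← hℓd] at hb hc hd ⊢
  obtain ⟨x₃, hx₃d⟩ : ∃ x₃, x₃ = W.addX x₁ x₂ ℓ := ⟨_, rfl⟩
  rw [← hx₃d] at hb hc hd ⊢
  have hY : W.addY x₁ x₂ y₁ ℓ = -(ℓ * (x₃ - x₁) + y₁) - W.a₁ * x₃ - W.a₃ := by
    rw [hx₃d]; simp only [addY, negAddY, negY]
  rw [hY]
  have e₁ : x₁ + x₂ + x₃ = ℓ ^ 2 + W.a₁ * ℓ - W.a₂ := by linear_combination hb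
  have e₂ : x₁ * x₂ + x₁ * x₃ + x₂ * x₃ =
      -(2 * ℓ * (y₁ - ℓ * x₁) + W.a₁ * (y₁ - ℓ * x₁) + W.a₃ * ℓ - W.a₄) := by
    linear_combination (-1 : L) * hc
  have e₃ : x₁ * x₂ * x₃ = (y₁ - ℓ * x₁) ^ 2 + W.a₃ * (y₁ - ℓ * x₁) - W.a₆ := by
    linear_combination hd
  have key : 1 < A.valuation x₃ ∧ -(ℓ * (x₃ - x₁) + y₁) - W.a₁ * x₃ - W.a₃ ≠ 0 ∧
      A.valuation (-x₃ / (-(ℓ * (x₃ - x₁) + y₁) - W.a₁ * x₃ - W.a₃) - -x₁ / y₁ - -x₂ / y₂) ≤
        (max (A.valuation (-x₁ / y₁)) (A.valuation (-x₂ / y₂))) ^ 2 := by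
    by_cases hx : x₁ = x₂
    · have hy : y₁ ≠ W.negY x₂ y₂ := fun h => hxy ⟨hx, h⟩
      have hyy : y₁ = y₂ := Y_eq_of_Y_ne h₁.left h₂.left hx hy
      subst hx hyy
      have hd0 : 2 * y₁ + W.a₁ * x₁ + W.a₃ ≠ 0 := by
        intro h0
        apply hy
        simp only [negY]
        linear_combination h0
      have hℓ : ℓ * (2 * y₁ + W.a₁ * x₁ + W.a₃) =
          3 * x₁ ^ 2 + 2 * W.a₂ * x₁ + W.a₄ - W.a₁ * y₁ := by
        rw [hℓd, slope_of_Y_ne rfl hy]
        have : y₁ - W.negY x₁ y₁ = 2 * y₁ + W.a₁ * x₁ + W.a₃ := by simp only [negY]; ring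
        rw [this, div_mul_cancel₀ _ hd0]
      exact KerRed.add_estimate_tangent i₁ i₂ i₃ i₄ i₆ (weq_of_equation h₁.left) hv₁ hd0 hℓ
        e₁ e₂ e₃
    · have hℓ : ℓ * (x₁ - x₂) = y₁ - y₂ := by
        rw [hℓd, slope_of_X_ne hx, div_mul_cancel₀ _ (sub_ne_zero.mpr hx)]
      exact KerRed.add_estimate_chord i₁ i₂ i₃ i₄ i₆ (weq_of_equation h₁.left)
        (weq_of_equation h₂.left) hv₁ hv₂ hx hℓ e₁ e₂ e₃
  refine ⟨?_, ?_⟩
  · intro hmem
    exact absurd ((A.valuation_le_one_iff _).mpr hmem) (not_le.mpr key.1)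
  · exact key.2.2

omit [DecidableEq L] in
lemma integral_vals (hW : IsIntegralAt A W) :
    A.valuation W.a₁ ≤ 1 ∧ A.valuation W.a₂ ≤ 1 ∧ A.valuation W.a₃ ≤ 1 ∧
      A.valuation W.a₄ ≤ 1 ∧ A.valuation W.a₆ ≤ 1 := by
  obtain ⟨ha₁, ha₂, ha₃, ha₄, ha₆⟩ := hW
  exact ⟨(A.valuation_le_one_iff _).mpr ha₁, (A.valuation_le_one_iff _).mpr ha₂,
    (A.valuation_le_one_iff _).mpr ha₃, (A.valuation_le_one_iff _).mpr ha₄,
    (A.valuation_le_one_iff _).mpr ha₆⟩

omit [DecidableEq L] in
lemma inKerRed_neg {P : W.Point} (hP : InKerRed A W P) : InKerRed A W (-P) := by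
  cases P with
  | zero => exact trivial
  | some x y h => rw [Point.neg_some]; exact hP

lemma inKerRed_add (hW : IsIntegralAt A W) {P Q : W.Point} (hP : InKerRed A W P)
    (hQ : InKerRed A W Q) : InKerRed A W (P + Q) := by
  cases P with
  | zero => rw [← Point.zero_def, zero_add]; exact hQ
  | some x₁ y₁ h₁ =>
    cases Q with
    | zero => rw [← Point.zero_def, add_zero]; exact hP
    | some x₂ y₂ h₂ =>
      by_cases hxy : x₁ = x₂ ∧ y₁ = W.negY x₂ y₂
      · rw [Point.add_of_Y_eq hxy.1 hxy.2]; exact trivial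
      · rw [Point.add_some hxy]
        exact (add_some_estimate hW h₁ h₂ hP hQ hxy).1

variable (A W) in
/-- The kernel of reduction as a subgroup of the group of points. -/
def kerRed (hW : IsIntegralAt A W) : AddSubgroup W.Point where
  carrier := {P | InKerRed A W P}
  zero_mem' := trivial
  add_mem' := fun hP hQ => inKerRed_add hW hP hQ
  neg_mem' := fun hP => inKerRed_neg hP

lemma mem_kerRed (hW : IsIntegralAt A W) {P : W.Point} :
    P ∈ kerRed A W hW ↔ InKerRed A W P := Iff.rfl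

lemma inKerRed_nsmul (hW : IsIntegralAt A W) {P : W.Point} (hP : InKerRed A W P) (n : ℕ) :
    InKerRed A W (n • P) :=
  (kerRed A W hW).nsmul_mem hP n

omit [DecidableEq L] in
/-- On the kernel of reduction, the parameter `z` lies in the maximal ideal. -/
lemma val_zCoord_lt_one (hW : IsIntegralAt A W) {P : W.Point} (hP : InKerRed A W P) :
    A.valuation (zCoord W P) < 1 := by
  cases P with
  | zero => simp [zCoord]
  | some x y h =>
    obtain ⟨i₁, i₂, i₃, i₄, i₆⟩ := integral_vals hW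
    exact (KerRed.point_facts i₁ i₂ i₃ i₄ i₆ (weq_of_equation h.left)
      (one_lt_val_of_not_mem hP)).2.1

omit [DecidableEq L] in
/-- On the kernel of reduction, `z` vanishes only at the origin. -/
lemma zCoord_eq_zero_iff (hW : IsIntegralAt A W) {P : W.Point} (hP : InKerRed A W P) :
    zCoord W P = 0 ↔ P = 0 := by
  cases P with
  | zero => exact ⟨fun _ => rfl, fun _ => rfl⟩
  | some x y h =>
    obtain ⟨i₁, i₂, i₃, i₄, i₆⟩ := integral_vals hW
    have := (KerRed.point_facts i₁ i₂ i₃ i₄ i₆ (weq_of_equation h.left)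
      (one_lt_val_of_not_mem hP)).2.2.1
    constructor
    · intro h0
      rw [zCoord_some] at h0
      rw [h0, map_zero] at this
      exact absurd rfl this
    · intro h0
      exact absurd h0 (Point.some_ne_zero h)

omit [DecidableEq L] in
/-- `z (-P) + z P` is of second order. -/
theorem val_zCoord_neg_add (hW : IsIntegralAt A W) {P : W.Point} (hP : InKerRed A W P) :
    A.valuation (zCoord W (-P) + zCoord W P) ≤ A.valuation (zCoord W P) ^ 2 := by
  cases P with
  | zero =>
    rw [← Point.zero_def, Point.neg_zero, zCoord_zero, add_zero, map_zero]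
    exact zero_le
  | some x y h =>
    obtain ⟨i₁, i₂, i₃, i₄, i₆⟩ := integral_vals hW
    rw [Point.neg_some]
    simp only [zCoord_some, negY]
    exact (KerRed.neg_estimate i₁ i₂ i₃ i₄ i₆ (weq_of_equation h.left)
      (one_lt_val_of_not_mem hP)).2

/-- `z` is additive up to second order terms on the kernel of reduction. -/
theorem val_zCoord_add (hW : IsIntegralAt A W) {P Q : W.Point} (hP : InKerRed A W P)
    (hQ : InKerRed A W Q) :
    A.valuation (zCoord W (P + Q) - zCoord W P - zCoord W Q) ≤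
      (max (A.valuation (zCoord W P)) (A.valuation (zCoord W Q))) ^ 2 := by
  cases P with
  | zero =>
    rw [← Point.zero_def, zero_add, zCoord_zero, sub_zero, sub_self, map_zero]
    exact zero_le
  | some x₁ y₁ h₁ =>
    cases Q with
    | zero =>
      rw [← Point.zero_def, add_zero, zCoord_zero, sub_zero, sub_self, map_zero]
      exact zero_le
    | some x₂ y₂ h₂ =>
      by_cases hxy : x₁ = x₂ ∧ y₁ = W.negY x₂ y₂
      · have hPQ : Point.some x₁ y₁ h₁ = -Point.some x₂ y₂ h₂ := by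
          rw [Point.neg_some]
          obtain ⟨hx, hy⟩ := hxy
          subst hx hy
          rfl
        rw [Point.add_of_Y_eq hxy.1 hxy.2, hPQ, zCoord_zero, zero_sub,
          ← neg_add', (A.valuation).map_neg]
        refine (val_zCoord_neg_add hW hQ).trans ?_
        exact pow_le_pow_left' (le_max_right _ _) 2
      · rw [Point.add_some hxy]
        simp only [zCoord_some]
        exact (add_some_estimate hW h₁ h₂ hP hQ hxy).2

/-- `z (n • P) = n z(P)` up to second order terms. -/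
theorem val_zCoord_nsmul (hW : IsIntegralAt A W) {P : W.Point} (hP : InKerRed A W P) (n : ℕ) :
    A.valuation (zCoord W (n • P) - n * zCoord W P) ≤ A.valuation (zCoord W P) ^ 2 := by
  have hz1 : A.valuation (zCoord W P) ≤ 1 := (val_zCoord_lt_one hW hP).le
  have hz2 : A.valuation (zCoord W P) ^ 2 ≤ A.valuation (zCoord W P) := by
    calc A.valuation (zCoord W P) ^ 2 ≤ A.valuation (zCoord W P) ^ 1 :=
          pow_le_pow_right_of_le_one' hz1 (by norm_num)
      _ = A.valuation (zCoord W P) := pow_one _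
  induction n with
  | zero => simp
  | succ k ih =>
    have hk : InKerRed A W (k • P) := inKerRed_nsmul hW hP k
    have hadd := val_zCoord_add hW hk hP
    have hzk : A.valuation (zCoord W (k • P)) ≤ A.valuation (zCoord W P) := by
      have e : zCoord W (k • P) = (zCoord W (k • P) - k * zCoord W P) + k * zCoord W P := by ring
      rw [e]
      refine (A.valuation).map_add_le (ih.trans hz2) ?_
      rw [map_mul]
      calc A.valuation (k : L) * A.valuation (zCoord W P)
          ≤ 1 * A.valuation (zCoord W P) := mul_le_mul' (KerRed.val_natCast_le k) le_rfl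
        _ = _ := one_mul _
    rw [max_eq_right hzk] at hadd
    have e : zCoord W ((k + 1) • P) - ((k + 1 : ℕ) : L) * zCoord W P =
        (zCoord W (k • P + P) - zCoord W (k • P) - zCoord W P) +
          (zCoord W (k • P) - k * zCoord W P) := by
      rw [succ_nsmul]; push_cast; ring
    rw [e]
    exact (A.valuation).map_add_le hadd ih

/-- **The kernel of reduction has no `n`-torsion for `n` invertible in `A`.** -/
theorem kerRed_torsion_free (hW : IsIntegralAt A W) {n : ℕ} (hn0 : (n : L) ≠ 0)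
    (hn : ((n : L))⁻¹ ∈ A) {P : W.Point} (hP : InKerRed A W P) (h : n • P = 0) : P = 0 := by
  have hvn : A.valuation (n : L) = 1 := by
    apply le_antisymm (KerRed.val_natCast_le n)
    have h1 : A.valuation ((n : L)⁻¹) ≤ 1 := (A.valuation_le_one_iff _).mpr hn
    rw [map_inv₀] at h1
    have hpos : 0 < A.valuation (n : L) := by
      rw [zero_lt_iff, ne_eq, map_eq_zero]; exact hn0
    exact (inv_le_one₀ hpos).mp h1
  have hest := val_zCoord_nsmul hW hP n
  rw [h, zCoord_zero, zero_sub, (A.valuation).map_neg, map_mul, hvn, one_mul] at hest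
  rw [← zCoord_eq_zero_iff hW hP]
  by_contra hz
  have hpos : 0 < A.valuation (zCoord W P) := by
    rw [zero_lt_iff, ne_eq, map_eq_zero]; exact hz
  have hlt : A.valuation (zCoord W P) ^ 2 < A.valuation (zCoord W P) :=
    pow_lt_self_of_lt_one₀ hpos (val_zCoord_lt_one hW hP) (by norm_num)
  exact absurd hest (not_le.mpr hlt)

/-- Version with an integer multiple. -/
theorem kerRed_torsion_free_zsmul (hW : IsIntegralAt A W) {n : ℕ} (hn0 : (n : L) ≠ 0)
    (hn : ((n : L))⁻¹ ∈ A) {P : W.Point} (hP : InKerRed A W P) (h : (n : ℤ) • P = 0) : P = 0 := by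
  rw [natCast_zsmul] at h
  exact kerRed_torsion_free hW hn0 hn hP h

end Fermat.Agent.S05
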