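import Mathlib
import Fermat.Agent.S05.Legendre

set_option autoImplicit false
set_option linter.unusedSectionVars false
set_option linter.unusedVariables false

/-!
# (L3a): the component function in the multiplicative case (`a₂` a unit, `0 < v a₄ < 1`)

`kap v P ∈ [v a₄, 1]` is the valuation of `x(P)` clamped to `[v a₄, 1]` (`1` at infinity).
MAIN: `kap_pair`.
-/

namespace Fermat.Agent.S05

open WeierstrassCurve WeierstrassCurve.Affine Valuation

section abstract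

variable {K : Type*} [Field K] {Γ₀ : Type*} [LinearOrderedCommGroupWithZero Γ₀]
  (v : Valuation K Γ₀)

lemma comp_sq_inj {a b : Γ₀} (h : a ^ 2 = b ^ 2) : a = b :=
  le_antisymm ((pow_le_pow_iff_left₀ zero_le zero_le two_ne_zero).mp h.le)
    ((pow_le_pow_iff_left₀ zero_le zero_le two_ne_zero).mp h.ge)

lemma comp_sq_lt_self {a : Γ₀} (h : a < 1) (h0 : a ≠ 0) : a ^ 2 < a := by
  calc a ^ 2 = a * a := sq a
    _ < 1 * a := mul_lt_mul_of_pos_right h (zero_lt_iff.mpr h0)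
    _ = a := one_mul a

/-- Newton polygon, one slope: if `v S ^ 2 ≤ v Π` the two roots have the same valuation. -/
lemma comp_newton_eq {r₁ r₂ : K} (h : v (r₁ + r₂) ^ 2 ≤ v (r₁ * r₂)) :
    v r₁ = v r₂ := by
  by_contra hne
  rcases lt_or_gt_of_ne hne with hlt | hlt
  · rw [map_add_eq_of_lt_right v hlt, map_mul, sq] at h
    have h0 : v r₂ ≠ 0 := fun h0 => by rw [h0] at hlt; exact not_lt_zero hlt
    have := mul_lt_mul_of_pos_right hlt (zero_lt_iff.mpr h0)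
    exact absurd h (not_le.mpr this)
  · rw [map_add_eq_of_lt_left v hlt, map_mul, sq] at h
    have h0 : v r₁ ≠ 0 := fun h0 => by rw [h0] at hlt; exact not_lt_zero hlt
    have := mul_lt_mul_of_pos_left hlt (zero_lt_iff.mpr h0)
    exact absurd h (not_le.mpr this)

/-- Newton polygon, two slopes. -/
lemma comp_newton_split {r₁ r₂ : K} (h : v (r₁ * r₂) < v (r₁ + r₂) ^ 2) :
    (v r₁ = v (r₁ + r₂) ∧ v r₂ * v (r₁ + r₂) = v (r₁ * r₂)) ∨
    (v r₂ = v (r₁ + r₂) ∧ v r₁ * v (r₁ + r₂) = v (r₁ * r₂)) := by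
  have hne : v r₁ ≠ v r₂ := by
    intro he
    have h1 : v (r₁ + r₂) ≤ v r₁ := map_add_le v le_rfl he.ge
    have h2 : v (r₁ + r₂) ^ 2 ≤ v r₁ ^ 2 := pow_le_pow_left' h1 2
    rw [map_mul, ← he, ← sq] at h
    exact absurd h2 (not_le.mpr h)
  rcases lt_or_gt_of_ne hne with hlt | hlt
  · right
    rw [map_add_eq_of_lt_right v hlt, map_mul]
    exact ⟨rfl, rfl⟩
  · left
    rw [map_add_eq_of_lt_left v hlt, map_mul]
    exact ⟨rfl, mul_comm _ _⟩

/-- Newton polygon: both roots have valuation `≥ 1`. -/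
lemma comp_newton_ge {r₁ r₂ : K} (h1 : 1 ≤ v (r₁ * r₂)) (h2 : v (r₁ + r₂) ≤ v (r₁ * r₂)) :
    1 ≤ v r₁ ∧ 1 ≤ v r₂ := by
  have key : ∀ a b : K, 1 ≤ v (a * b) → v (a + b) ≤ v (a * b) → 1 ≤ v a := by
    intro a b h1 h2
    by_contra hlt
    rw [not_le] at hlt
    have hb : v a < v b := by
      by_contra hba
      rw [not_lt] at hba
      have : v (a * b) < 1 := by
        rw [map_mul]
        calc v a * v b ≤ v a * v a := mul_le_mul' le_rfl hba
          _ ≤ v a * 1 := mul_le_mul' le_rfl hlt.le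
          _ = v a := mul_one _
          _ < 1 := hlt
      exact absurd h1 (not_le.mpr this)
    rw [map_add_eq_of_lt_right v hb, map_mul] at h2
    have hb0 : v b ≠ 0 := fun h0 => by rw [h0] at hb; exact not_lt_zero hb
    have : v a * v b < 1 * v b := mul_lt_mul_of_pos_right hlt (zero_lt_iff.mpr hb0)
    rw [one_mul] at this
    exact absurd h2 (not_le.mpr this)
  refine ⟨key r₁ r₂ h1 h2, key r₂ r₁ ?_ ?_⟩
  · rwa [mul_comm]
  · rwa [mul_comm, add_comm]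

lemma comp_clamp_eq {β t s : Γ₀} (hβs : β ≤ s) (hs1 : s ≤ 1) (hts : t ≤ s) (heq : β < s → t = s) :
    max β (min t 1) = s := by
  rcases hβs.lt_or_eq with hlt | rfl
  · rw [heq hlt, min_eq_left hs1, max_eq_right hβs]
  · rw [min_eq_left (hts.trans hs1), max_eq_left hts]

section regimes

variable {a b x₁ x₂ Xp Xm : K}

/-- the numerator of the sum law -/
def compN (a b x₁ x₂ : K) : K := (x₁ * x₂ + b) * (x₁ + x₂) + 2 * a * (x₁ * x₂)

lemma comp_v_four (h2 : v (2 : K) = 1) : v (4 : K) = 1 := by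
  have : (4 : K) = 2 * 2 := by norm_num
  rw [this, map_mul, h2, one_mul]

/-- regime (h): both `x`-coordinates have valuation `≥ 1`. -/
lemma comp_regime_h (h2 : v (2 : K) = 1) (ha : v a = 1) (hb : v b < 1) (hx : x₁ ≠ x₂)
    (hs : Xp + Xm = 2 * compN a b x₁ x₂ / (x₁ - x₂) ^ 2)
    (hp : Xp * Xm = (x₁ * x₂ - b) ^ 2 / (x₁ - x₂) ^ 2)
    (h₁ : 1 ≤ v x₁) (h₂ : 1 ≤ v x₂) : 1 ≤ v Xp ∧ 1 ≤ v Xm := by
  have hD : x₁ - x₂ ≠ 0 := sub_ne_zero.mpr hx
  have hδ : v (x₁ - x₂) ≠ 0 := (v.ne_zero_iff).mpr hD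
  have hδ2 : 0 < v (x₁ - x₂) ^ 2 := zero_lt_iff.mpr (pow_ne_zero 2 hδ)
  set m := v x₁ * v x₂ with hm
  have hm1 : 1 ≤ m := one_le_mul_of_one_le_of_one_le h₁ h₂
  have hx1m : v x₁ ≤ m := le_mul_of_one_le_right' h₂
  have hx2m : v x₂ ≤ m := le_mul_of_one_le_left' h₁
  have hmm : m ≤ m ^ 2 := by rw [sq]; exact le_mul_of_one_le_left' hm1
  have hbm : v b < m := lt_of_lt_of_le hb hm1
  have hprod : v (x₁ * x₂ - b) = m := by
    rw [map_sub_eq_of_lt_left v (by rw [map_mul]; exact hbm), map_mul]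
  have hδm : v (x₁ - x₂) ≤ m := map_sub_le v hx1m hx2m
  have hPi : v (Xp * Xm) = m ^ 2 / v (x₁ - x₂) ^ 2 := by
    rw [hp, map_div₀, map_pow, map_pow, hprod]
  have hN : v (compN a b x₁ x₂) ≤ m ^ 2 := by
    apply map_add_le v
    · rw [map_mul, sq]
      exact mul_le_mul' (map_add_le v (by rw [map_mul]) hbm.le) (map_add_le v hx1m hx2m)
    · rw [map_mul, map_mul, map_mul, h2, ha, one_mul, one_mul]
      exact hmm
  have hS : v (Xp + Xm) ≤ m ^ 2 / v (x₁ - x₂) ^ 2 := by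
    rw [hs, map_div₀, map_mul, h2, one_mul, map_pow]
    exact div_le_div_of_nonneg_right hN hδ2.le
  apply comp_newton_ge v
  · rw [hPi, le_div_iff₀ hδ2, one_mul]
    exact pow_le_pow_left' hδm 2
  · rw [hPi]; exact hS

lemma comp_ne_zero_of_le_sq {β h : Γ₀} (hβ0 : β ≠ 0) (hβ : β ≤ h ^ 2) : h ≠ 0 := by
  rintro rfl
  rw [zero_pow two_ne_zero, le_zero_iff] at hβ
  exact hβ0 hβ

/-- regime (d): `1 ≤ v x₁`, `v x₂ < 1`, `v b ≤ (v x₂)²`. -/
lemma comp_regime_d (h2 : v (2 : K) = 1) (ha : v a = 1) (hb0 : b ≠ 0) (hx : x₁ ≠ x₂)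
    (hs : Xp + Xm = 2 * compN a b x₁ x₂ / (x₁ - x₂) ^ 2)
    (hp : Xp * Xm = (x₁ * x₂ - b) ^ 2 / (x₁ - x₂) ^ 2)
    (h₁ : 1 ≤ v x₁) (h₂ : v x₂ < 1) (hβ : v b ≤ v x₂ ^ 2) :
    v Xp = v x₂ ∧ v Xm = v x₂ := by
  have hβ0 : v b ≠ 0 := (v.ne_zero_iff).mpr hb0
  have hh0 : v x₂ ≠ 0 := comp_ne_zero_of_le_sq hβ0 hβ
  have hg0 : v x₁ ≠ 0 := (lt_of_lt_of_le zero_lt_one h₁).ne'
  have hhg : v x₂ < v x₁ := lt_of_lt_of_le h₂ h₁
  have hδg : v (x₁ - x₂) = v x₁ := map_sub_eq_of_lt_left v hhg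
  have hhsq : v x₂ ^ 2 < v x₂ := comp_sq_lt_self h₂ hh0
  have hbgh : v b < v x₁ * v x₂ :=
    lt_of_le_of_lt hβ (lt_of_lt_of_le hhsq (le_mul_of_one_le_left' h₁))
  have hprod : v (x₁ * x₂ - b) = v x₁ * v x₂ := by
    rw [map_sub_eq_of_lt_left v (by rw [map_mul]; exact hbgh), map_mul]
  have hprod' : v (x₁ * x₂ + b) = v x₁ * v x₂ := by
    rw [map_add_eq_of_lt_left v (by rw [map_mul]; exact hbgh), map_mul]
  have hsum : v (x₁ + x₂) = v x₁ := map_add_eq_of_lt_left v hhg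
  have hg2 : 0 < v x₁ ^ 2 := zero_lt_iff.mpr (pow_ne_zero 2 hg0)
  have hPi : v (Xp * Xm) = v x₂ ^ 2 := by
    rw [hp, map_div₀, map_pow, map_pow, hprod, hδg, mul_pow,
      mul_div_cancel_left₀ _ (pow_ne_zero 2 hg0)]
  have hN : v (compN a b x₁ x₂) ≤ v x₂ * v x₁ ^ 2 := by
    apply map_add_le v
    · rw [map_mul, hprod', hsum, sq]
      exact le_of_eq (by ac_rfl)
    · rw [map_mul, map_mul, map_mul, h2, ha, one_mul, one_mul, sq]
      calc v x₁ * v x₂ = v x₂ * (1 * v x₁) := by rw [one_mul, mul_comm]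
        _ ≤ v x₂ * (v x₁ * v x₁) := mul_le_mul' le_rfl (mul_le_mul' h₁ le_rfl)
  have hS : v (Xp + Xm) ≤ v x₂ := by
    rw [hs, map_div₀, map_mul, h2, one_mul, map_pow, hδg, div_le_iff₀ hg2]
    exact hN
  have heq := comp_newton_eq v (r₁ := Xp) (r₂ := Xm) (by rw [hPi]; exact pow_le_pow_left' hS 2)
  have h1 : v Xp ^ 2 = v x₂ ^ 2 := by rw [← hPi, map_mul, ← heq, sq]
  have h1' := comp_sq_inj h1
  exact ⟨h1', heq ▸ h1'⟩

/-- regime (a): `v x₂ < v x₁ < 1`, `v b ≤ (v x₂)²`. -/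
lemma comp_regime_a (h2 : v (2 : K) = 1) (ha : v a = 1) (hb0 : b ≠ 0) (hx : x₁ ≠ x₂)
    (hs : Xp + Xm = 2 * compN a b x₁ x₂ / (x₁ - x₂) ^ 2)
    (hp : Xp * Xm = (x₁ * x₂ - b) ^ 2 / (x₁ - x₂) ^ 2)
    (h₁ : v x₁ < 1) (h₂ : v x₂ < v x₁) (hβ : v b ≤ v x₂ ^ 2) :
    (v Xp = v x₂ / v x₁ ∧ v Xm = v x₁ * v x₂) ∨ (v Xm = v x₂ / v x₁ ∧ v Xp = v x₁ * v x₂) := by
  have hβ0 : v b ≠ 0 := (v.ne_zero_iff).mpr hb0
  have hh0 : v x₂ ≠ 0 := comp_ne_zero_of_le_sq hβ0 hβ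
  have hg0 : v x₁ ≠ 0 := (lt_of_le_of_lt zero_le h₂).ne'
  have hgpos : 0 < v x₁ := zero_lt_iff.mpr hg0
  have hhpos : 0 < v x₂ := zero_lt_iff.mpr hh0
  have hδg : v (x₁ - x₂) = v x₁ := map_sub_eq_of_lt_left v h₂
  have hbgh : v b < v x₁ * v x₂ := by
    refine lt_of_le_of_lt hβ ?_
    rw [sq]
    exact mul_lt_mul_of_pos_right h₂ hhpos
  have hprod : v (x₁ * x₂ - b) = v x₁ * v x₂ := by
    rw [map_sub_eq_of_lt_left v (by rw [map_mul]; exact hbgh), map_mul]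
  have hprod' : v (x₁ * x₂ + b) = v x₁ * v x₂ := by
    rw [map_add_eq_of_lt_left v (by rw [map_mul]; exact hbgh), map_mul]
  have hsum : v (x₁ + x₂) = v x₁ := map_add_eq_of_lt_left v h₂
  have hg2 : 0 < v x₁ ^ 2 := zero_lt_iff.mpr (pow_ne_zero 2 hg0)
  have hPi : v (Xp * Xm) = v x₂ ^ 2 := by
    rw [hp, map_div₀, map_pow, map_pow, hprod, hδg, mul_pow,
      mul_div_cancel_left₀ _ (pow_ne_zero 2 hg0)]
  have hN : v (compN a b x₁ x₂) = v x₁ * v x₂ := by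
    unfold compN
    rw [map_add_eq_of_lt_right v]
    · rw [map_mul, map_mul, map_mul, h2, ha, one_mul, one_mul]
    · rw [map_mul, hprod', hsum, map_mul, map_mul, map_mul, h2, ha, one_mul, one_mul]
      calc v x₁ * v x₂ * v x₁ = v x₁ * (v x₁ * v x₂) := by ac_rfl
        _ < 1 * (v x₁ * v x₂) := mul_lt_mul_of_pos_right h₁ (mul_pos hgpos hhpos)
        _ = v x₁ * v x₂ := one_mul _
  have hS : v (Xp + Xm) = v x₂ / v x₁ := by
    rw [hs, map_div₀, map_mul, h2, one_mul, map_pow, hδg, hN, sq, mul_div_mul_left _ _ hg0]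
  have hlt : v (Xp * Xm) < v (Xp + Xm) ^ 2 := by
    rw [hPi, hS, div_pow, lt_div_iff₀ hg2]
    calc v x₂ ^ 2 * v x₁ ^ 2 < v x₂ ^ 2 * 1 :=
          mul_lt_mul_of_pos_left (pow_lt_one₀ zero_le h₁ two_ne_zero)
            (zero_lt_iff.mpr (pow_ne_zero 2 hh0))
      _ = v x₂ ^ 2 := mul_one _
  have hother : ∀ t : Γ₀, t * (v x₂ / v x₁) = v x₂ ^ 2 → t = v x₁ * v x₂ := by
    intro t ht
    field_simp at ht
    rw [ht, mul_comm]
  rcases comp_newton_split v hlt with ⟨h1, h3⟩ | ⟨h1, h3⟩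
  · left
    rw [hS, hPi] at h3
    exact ⟨h1.trans hS, hother _ h3⟩
  · right
    rw [hS, hPi] at h3
    exact ⟨h1.trans hS, hother _ h3⟩

/-- regime (b): `v x₁ = v x₂ < 1`, `x₁ ≠ x₂`, `v b ≤ (v x₁)²`. -/
lemma comp_regime_b (h2 : v (2 : K) = 1) (ha : v a = 1) (hb0 : b ≠ 0) (hx : x₁ ≠ x₂)
    (hs : Xp + Xm = 2 * compN a b x₁ x₂ / (x₁ - x₂) ^ 2)
    (hp : Xp * Xm = (x₁ * x₂ - b) ^ 2 / (x₁ - x₂) ^ 2)
    (h₁ : v x₁ < 1) (h₂ : v x₂ = v x₁) (hβ : v b ≤ v x₁ ^ 2) :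
    (1 ≤ v Xp ∧ max (v b) (min (v Xm) 1) = v x₁ ^ 2) ∨
    (1 ≤ v Xm ∧ max (v b) (min (v Xp) 1) = v x₁ ^ 2) := by
  have hβ0 : v b ≠ 0 := (v.ne_zero_iff).mpr hb0
  have hg0 : v x₁ ≠ 0 := comp_ne_zero_of_le_sq hβ0 hβ
  have hgpos : 0 < v x₁ := zero_lt_iff.mpr hg0
  have hg2 : 0 < v x₁ ^ 2 := zero_lt_iff.mpr (pow_ne_zero 2 hg0)
  have hg21 : v x₁ ^ 2 ≤ 1 := pow_le_one' h₁.le 2
  have hD : x₁ - x₂ ≠ 0 := sub_ne_zero.mpr hx
  have hδ0 : v (x₁ - x₂) ≠ 0 := (v.ne_zero_iff).mpr hD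
  have hδ2 : 0 < v (x₁ - x₂) ^ 2 := zero_lt_iff.mpr (pow_ne_zero 2 hδ0)
  have hδg : v (x₁ - x₂) ≤ v x₁ := map_sub_le v le_rfl h₂.le
  have hδ1 : v (x₁ - x₂) ^ 2 < 1 := pow_lt_one₀ zero_le (lt_of_le_of_lt hδg h₁) two_ne_zero
  have hx12 : v (x₁ * x₂) = v x₁ ^ 2 := by rw [map_mul, h₂, sq]
  have hc : v (x₁ * x₂ - b) ≤ v x₁ ^ 2 := map_sub_le v hx12.le hβ
  have hc' : v b < v x₁ ^ 2 → v (x₁ * x₂ - b) = v x₁ ^ 2 := fun hlt => by
    rw [map_sub_eq_of_lt_left v (by rw [hx12]; exact hlt), hx12]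
  have hN : v (compN a b x₁ x₂) = v x₁ ^ 2 := by
    unfold compN
    rw [map_add_eq_of_lt_right v]
    · rw [map_mul, map_mul, h2, ha, one_mul, one_mul, hx12]
    · rw [map_mul v (2 * a), map_mul v 2 a, h2, ha, one_mul, one_mul, hx12, map_mul]
      calc v (x₁ * x₂ + b) * v (x₁ + x₂) ≤ v x₁ ^ 2 * v x₁ :=
            mul_le_mul' (map_add_le v hx12.le hβ) (map_add_le v le_rfl h₂.le)
        _ < v x₁ ^ 2 * 1 := mul_lt_mul_of_pos_left h₁ hg2
        _ = v x₁ ^ 2 := mul_one _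
  have hS : v (Xp + Xm) = v x₁ ^ 2 / v (x₁ - x₂) ^ 2 := by
    rw [hs, map_div₀, map_mul, h2, one_mul, map_pow, hN]
  have hPi : v (Xp * Xm) = v (x₁ * x₂ - b) ^ 2 / v (x₁ - x₂) ^ 2 := by
    rw [hp, map_div₀, map_pow, map_pow]
  have hS1 : 1 ≤ v (Xp + Xm) := by
    rw [hS, le_div_iff₀ hδ2, one_mul]
    exact pow_le_pow_left' hδg 2
  have hlt : v (Xp * Xm) < v (Xp + Xm) ^ 2 := by
    rw [hPi, hS, div_pow, div_lt_div_iff₀ hδ2 (pow_pos hδ2 2)]
    calc v (x₁ * x₂ - b) ^ 2 * (v (x₁ - x₂) ^ 2) ^ 2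
        ≤ (v x₁ ^ 2) ^ 2 * (v (x₁ - x₂) ^ 2) ^ 2 := mul_le_mul' (pow_le_pow_left' hc 2) le_rfl
      _ = (v x₁ ^ 2) ^ 2 * v (x₁ - x₂) ^ 2 * v (x₁ - x₂) ^ 2 := by rw [sq (v (x₁ - x₂) ^ 2), mul_assoc]
      _ < (v x₁ ^ 2) ^ 2 * v (x₁ - x₂) ^ 2 * 1 :=
          mul_lt_mul_of_pos_left hδ1 (mul_pos (pow_pos hg2 2) hδ2)
      _ = (v x₁ ^ 2) ^ 2 * v (x₁ - x₂) ^ 2 := mul_one _
  have hother : ∀ t : Γ₀, t * v (Xp + Xm) = v (Xp * Xm) →
      max (v b) (min t 1) = v x₁ ^ 2 := by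
    intro t ht
    rw [hS, hPi] at ht
    have ht' : t = v (x₁ * x₂ - b) ^ 2 / v x₁ ^ 2 := by
      field_simp at ht
      field_simp
      rw [ht]
    apply comp_clamp_eq hβ hg21
    · rw [ht', div_le_iff₀ hg2, ← sq]
      exact pow_le_pow_left' hc 2
    · intro hlt
      rw [ht', hc' hlt, sq, mul_div_cancel_right₀ _ (pow_ne_zero 2 hg0)]
  rcases comp_newton_split v hlt with ⟨h1, h3⟩ | ⟨h1, h3⟩
  · left
    exact ⟨h1 ▸ hS1, hother _ h3⟩
  · right
    exact ⟨h1 ▸ hS1, hother _ h3⟩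

/-- duplication, `1 ≤ v x`. -/
lemma comp_dbl_h {x y : K} (h2 : v (2 : K) = 1) (ha : v a = 1) (hb : v b < 1)
    (hxy : y ^ 2 = x ^ 3 + a * x ^ 2 + b * x) (hy : y ≠ 0) (h₁ : 1 ≤ v x) :
    1 ≤ v ((x ^ 2 - b) ^ 2 / (4 * y ^ 2)) := by
  have h4 := comp_v_four v h2
  have hy2 : 0 < v (y ^ 2) := zero_lt_iff.mpr ((v.ne_zero_iff).mpr (pow_ne_zero 2 hy))
  have hx2 : 1 ≤ v x ^ 2 := one_le_pow_of_one_le' h₁ 2
  have hnum : v (x ^ 2 - b) = v x ^ 2 := by
    rw [map_sub_eq_of_lt_left v (by rw [map_pow]; exact lt_of_lt_of_le hb hx2), map_pow]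
  have hden : v (y ^ 2) ≤ (v x ^ 2) ^ 2 := by
    have e4 : (v x ^ 2) ^ 2 = v x ^ 4 := by rw [← pow_mul]
    rw [hxy, e4]
    apply map_add_le v (map_add_le v _ _)
    · rw [map_mul]
      calc v b * v x ≤ 1 * v x := mul_le_mul' hb.le le_rfl
        _ = v x ^ 1 := by rw [one_mul, pow_one]
        _ ≤ v x ^ 4 := pow_le_pow_right' h₁ (by norm_num)
    · rw [map_pow]; exact pow_le_pow_right' h₁ (by norm_num)
    · rw [map_mul, ha, one_mul, map_pow]; exact pow_le_pow_right' h₁ (by norm_num)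
  rw [map_div₀, map_pow, hnum, map_mul, h4, one_mul, le_div_iff₀ hy2, one_mul]
  exact hden

/-- duplication, `v x < 1`, `v b ≤ (v x)²`. -/
lemma comp_dbl_a {x y : K} (h2 : v (2 : K) = 1) (ha : v a = 1) (hb0 : b ≠ 0)
    (hxy : y ^ 2 = x ^ 3 + a * x ^ 2 + b * x) (h₁ : v x < 1) (hβ : v b ≤ v x ^ 2) :
    y ≠ 0 ∧ max (v b) (min (v ((x ^ 2 - b) ^ 2 / (4 * y ^ 2))) 1) = v x ^ 2 := by
  have h4 := comp_v_four v h2
  have hβ0 : v b ≠ 0 := (v.ne_zero_iff).mpr hb0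
  have hg0 : v x ≠ 0 := comp_ne_zero_of_le_sq hβ0 hβ
  have hgpos : 0 < v x := zero_lt_iff.mpr hg0
  have hg2 : 0 < v x ^ 2 := zero_lt_iff.mpr (pow_ne_zero 2 hg0)
  have hg21 : v x ^ 2 ≤ 1 := pow_le_one' h₁.le 2
  have hy2 : v (y ^ 2) = v x ^ 2 := by
    rw [hxy, map_add_eq_of_lt_left v, map_add_eq_of_lt_right v]
    · rw [map_mul, ha, one_mul, map_pow]
    · rw [map_mul, ha, one_mul, map_pow, map_pow, pow_succ]
      calc v x ^ 2 * v x < v x ^ 2 * 1 := mul_lt_mul_of_pos_left h₁ hg2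
        _ = v x ^ 2 := mul_one _
    · rw [map_add_eq_of_lt_right v]
      · rw [map_mul, map_mul, ha, one_mul, map_pow, sq]
        exact mul_lt_mul_of_pos_right (lt_of_le_of_lt hβ (comp_sq_lt_self h₁ hg0)) hgpos
      · rw [map_mul, ha, one_mul, map_pow, map_pow, pow_succ]
        calc v x ^ 2 * v x < v x ^ 2 * 1 := mul_lt_mul_of_pos_left h₁ hg2
          _ = v x ^ 2 := mul_one _
  have hy : y ≠ 0 := by
    rintro rfl
    rw [zero_pow two_ne_zero, map_zero] at hy2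
    exact hg2.ne hy2
  refine ⟨hy, ?_⟩
  have hc : v (x ^ 2 - b) ≤ v x ^ 2 := map_sub_le v (by rw [map_pow]) hβ
  have hc' : v b < v x ^ 2 → v (x ^ 2 - b) = v x ^ 2 := fun hlt => by
    rw [map_sub_eq_of_lt_left v (by rw [map_pow]; exact hlt), map_pow]
  have hval : v ((x ^ 2 - b) ^ 2 / (4 * y ^ 2)) = v (x ^ 2 - b) ^ 2 / v x ^ 2 := by
    rw [map_div₀, map_pow, map_mul, h4, one_mul, hy2]
  rw [hval]
  apply comp_clamp_eq hβ hg21
  · rw [div_le_iff₀ hg2, ← sq]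
    exact pow_le_pow_left' hc 2
  · intro hlt
    rw [hc' hlt, sq, mul_div_cancel_right₀ _ (pow_ne_zero 2 hg0)]

end regimes

end abstract

section algebra

variable {Γ₀ : Type*} [LinearOrderedCommGroupWithZero Γ₀]

lemma comp_div_le_div_left {β a b : Γ₀} (ha : a ≠ 0) (hab : a ≤ b) : β / b ≤ β / a := by
  have hapos : 0 < a := zero_lt_iff.mpr ha
  have hbpos : 0 < b := lt_of_lt_of_le hapos hab
  rw [div_le_div_iff₀ hbpos hapos]
  exact mul_le_mul' le_rfl hab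

lemma comp_div_max {β a b : Γ₀} (ha : a ≠ 0) (hb : b ≠ 0) :
    β / max a b = min (β / a) (β / b) := by
  rcases le_total a b with h | h
  · rw [max_eq_right h, min_eq_right (comp_div_le_div_left ha h)]
  · rw [max_eq_left h, min_eq_left (comp_div_le_div_left hb h)]

lemma comp_div_min {β a b : Γ₀} (ha : a ≠ 0) (hb : b ≠ 0) :
    β / min a b = max (β / a) (β / b) := by
  rcases le_total a b with h | h
  · rw [min_eq_left h, max_eq_left (comp_div_le_div_left ha h)]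
  · rw [min_eq_right h, max_eq_right (comp_div_le_div_left hb h)]

/-- the expected unordered pair -/
def compPair (β g h : Γ₀) : Sym2 Γ₀ :=
  s(min (g / h) (h / g), max (g * h) (β ^ 2 / (g * h)))

lemma compPair_comm (β g h : Γ₀) : compPair β g h = compPair β h g := by
  unfold compPair
  rw [min_comm, mul_comm]

lemma comp_clamp_of_mem {β t : Γ₀} (h1 : β ≤ t) (h2 : t ≤ 1) : max β (min t 1) = t := by
  rw [min_eq_left h2, max_eq_right h1]

/-- both in the lower half -/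
lemma compPair_lower {β g h : Γ₀} (hg0 : g ≠ 0) (hh0 : h ≠ 0) (hg : β ≤ g ^ 2)
    (hh : β ≤ h ^ 2) : compPair β g h = s(min (g / h) (h / g), g * h) := by
  unfold compPair
  have hgh : 0 < g * h := zero_lt_iff.mpr (mul_ne_zero hg0 hh0)
  rw [max_eq_left]
  rw [div_le_iff₀ hgh, sq]
  calc β * β ≤ g ^ 2 * h ^ 2 := mul_le_mul' hg hh
    _ = g * h * (g * h) := by rw [sq, sq]; ac_rfl

/-- effect of the translation by `(0,0)` on the expected pair -/
lemma compPair_tau {β g h : Γ₀} (hβ0 : β ≠ 0) (hg0 : g ≠ 0) (hh0 : h ≠ 0) :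
    compPair β (β / g) h = (compPair β g h).map (fun t => β / t) := by
  unfold compPair
  rw [Sym2.map_pair_eq, Sym2.eq_iff]
  right
  have h1 : g * h ≠ 0 := mul_ne_zero hg0 hh0
  have h2 : β ^ 2 / (g * h) ≠ 0 := div_ne_zero (pow_ne_zero 2 hβ0) h1
  have h3 : g / h ≠ 0 := div_ne_zero hg0 hh0
  have h4 : h / g ≠ 0 := div_ne_zero hh0 hg0
  have e1 : β / g / h = β / (g * h) := by field_simp
  have e2 : h / (β / g) = β / (β ^ 2 / (g * h)) := by field_simp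
  have e3 : β / g * h = β / (g / h) := by field_simp
  have e4 : β ^ 2 / (β / g * h) = β / (h / g) := by field_simp
  constructor
  · rw [comp_div_max h1 h2, e1, e2]
  · rw [comp_div_min h3 h4, e4, e3]

lemma comp_sym2_invol {β a b : Γ₀} (hβ0 : β ≠ 0) (ha : a ≠ 0) (hb : b ≠ 0) :
    (s(a, b).map (fun t => β / t)).map (fun t => β / t) = s(a, b) := by
  rw [Sym2.map_pair_eq, Sym2.map_pair_eq]
  have e1 : β / (β / a) = a := by field_simp
  have e2 : β / (β / b) = b := by field_simp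
  rw [e1, e2]

end algebra
section curve

variable {K : Type*} [Field K] [DecidableEq K] {Γ₀ : Type*} [LinearOrderedCommGroupWithZero Γ₀]
  (v : Valuation K Γ₀) (W : Affine K)

/-- multiplicative reduction with the node at `(0,0)` -/
structure IsMultRed : Prop where
  leg : IsLeg W
  two : v 2 = 1
  a₂ : v W.a₂ = 1
  a₄_lt : v W.a₄ < 1
  a₄_ne : W.a₄ ≠ 0

variable {W}

/-- clamped valuation of the `x`-coordinate -/
noncomputable def kap (P : W.Point) : Γ₀ :=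
  if P = 0 then 1 else max (v W.a₄) (min (v (xc P)) 1)

theorem kap_zero : kap v (0 : W.Point) = 1 := by
  rw [kap, if_pos rfl]

lemma kap_some {x y : K} (hxy : W.Nonsingular x y) :
    kap v (Point.some x y hxy) = max (v W.a₄) (min (v x) 1) := by
  rw [kap, if_neg (Point.some_ne_zero _), xc_some]

lemma kap_of_ne_zero {P : W.Point} (hP : P ≠ 0) :
    kap v P = max (v W.a₄) (min (v (xc P)) 1) := by
  rw [kap, if_neg hP]

variable {v}

lemma IsMultRed.a₄_val_ne (h : IsMultRed v W) : v W.a₄ ≠ 0 := (v.ne_zero_iff).mpr h.a₄_ne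

lemma IsMultRed.two_ne (h : IsMultRed v W) : (2 : K) ≠ 0 := by
  intro h0
  have := h.two
  rw [h0, map_zero] at this
  exact zero_ne_one this

variable (v)

theorem kap_le_one (h : IsMultRed v W) (P : W.Point) : kap v P ≤ 1 := by
  unfold kap
  split_ifs
  · exact le_rfl
  · exact max_le h.a₄_lt.le (min_le_right _ _)

theorem le_kap (h : IsMultRed v W) (P : W.Point) : v W.a₄ ≤ kap v P := by
  unfold kap
  split_ifs
  · exact h.a₄_lt.le
  · exact le_max_left _ _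

theorem kap_neg (P : W.Point) : kap v (-P) = kap v P := by
  by_cases hP : P = 0
  · rw [hP, neg_zero]
  · rw [kap_of_ne_zero v hP, kap_of_ne_zero v (neg_ne_zero.mpr hP), xc_neg]

/-- `kap = 1` iff nonsingular reduction -/
theorem kap_eq_one_iff (h : IsMultRed v W) (P : W.Point) :
    kap v P = 1 ↔ (P = 0 ∨ 1 ≤ v (xc P)) := by
  by_cases hP : P = 0
  · simp [hP, kap_zero]
  · rw [kap_of_ne_zero v hP]
    constructor
    · intro h1
      right
      by_contra hlt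
      rw [not_le] at hlt
      rw [min_eq_left hlt.le] at h1
      exact absurd h1 (max_lt h.a₄_lt hlt).ne
    · rintro (h0 | h1)
      · exact absurd h0 hP
      · rw [min_eq_right h1, max_eq_right h.a₄_lt.le]

variable {v}

lemma IsMultRed.kap_ne_zero (h : IsMultRed v W) (P : W.Point) : kap v P ≠ 0 :=
  (lt_of_lt_of_le (zero_lt_iff.mpr h.a₄_val_ne) (le_kap v h P)).ne'

/-- description of `kap` in the lower half -/
lemma IsMultRed.lower_facts (h : IsMultRed v W) {x y : K} (hxy : W.Nonsingular x y)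
    (hg : v W.a₄ ≤ kap v (Point.some x y hxy) ^ 2) :
    (1 ≤ v x ∧ kap v (Point.some x y hxy) = 1) ∨
      (v x < 1 ∧ kap v (Point.some x y hxy) = v x ∧ v W.a₄ ≤ v x ^ 2) := by
  rw [kap_some] at hg ⊢
  rcases le_or_gt 1 (v x) with h1 | h1
  · left
    exact ⟨h1, by rw [min_eq_right h1, max_eq_right h.a₄_lt.le]⟩
  · right
    rw [min_eq_left h1.le] at hg ⊢
    rcases le_or_gt (v x) (v W.a₄) with h3 | h3
    · exfalso
      rw [max_eq_left h3] at hg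
      exact absurd hg (not_le.mpr (comp_sq_lt_self h.a₄_lt h.a₄_val_ne))
    · rw [max_eq_right h3.le] at hg ⊢
      exact ⟨h1, rfl, hg⟩

end curve
section pair

variable {K : Type*} [Field K] [DecidableEq K] {Γ₀ : Type*} [LinearOrderedCommGroupWithZero Γ₀]
  {v : Valuation K Γ₀} {W : Affine K}

/-- generic pair in the lower half -/
lemma IsMultRed.lower_generic (h : IsMultRed v W) {x₁ y₁ x₂ y₂ : K} (h₁ : W.Nonsingular x₁ y₁)
    (h₂ : W.Nonsingular x₂ y₂) (hx : x₁ ≠ x₂)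
    (hg : v W.a₄ ≤ kap v (Point.some x₁ y₁ h₁) ^ 2)
    (hh : v W.a₄ ≤ kap v (Point.some x₂ y₂ h₂) ^ 2)
    (hle : kap v (Point.some x₂ y₂ h₂) ≤ kap v (Point.some x₁ y₁ h₁)) :
    s(kap v (Point.some x₁ y₁ h₁ + Point.some x₂ y₂ h₂),
        kap v (Point.some x₁ y₁ h₁ - Point.some x₂ y₂ h₂)) =
      s(kap v (Point.some x₂ y₂ h₂) / kap v (Point.some x₁ y₁ h₁),
        kap v (Point.some x₁ y₁ h₁) * kap v (Point.some x₂ y₂ h₂)) := by
  have hs : xc (Point.some x₁ y₁ h₁ + Point.some x₂ y₂ h₂) +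
      xc (Point.some x₁ y₁ h₁ - Point.some x₂ y₂ h₂) =
      2 * compN W.a₂ W.a₄ x₁ x₂ / (x₁ - x₂) ^ 2 := h.leg.xc_add_add_xc_sub h₁ h₂ hx
  have hp := h.leg.xc_add_mul_xc_sub h₁ h₂ hx
  rw [kap_of_ne_zero v (add_ne_zero_of_xc_ne h₁ h₂ hx),
    kap_of_ne_zero v (sub_ne_zero_of_xc_ne h₁ h₂ hx)]
  have hβ1 := h.a₄_lt
  rcases h.lower_facts h₁ hg with ⟨hx1, hk1⟩ | ⟨hx1, hk1, hb1⟩ <;>
    rcases h.lower_facts h₂ hh with ⟨hx2, hk2⟩ | ⟨hx2, hk2, hb2⟩
  · -- regime (h)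
    obtain ⟨hp1, hm1⟩ := comp_regime_h v h.two h.a₂ h.a₄_lt hx hs hp hx1 hx2
    rw [hk1, hk2, min_eq_right hp1, min_eq_right hm1, max_eq_right hβ1.le, div_one, one_mul]
  · -- regime (d)
    obtain ⟨hp1, hm1⟩ := comp_regime_d v h.two h.a₂ h.a₄_ne hx hs hp hx1 hx2 hb2
    have hβx : v W.a₄ ≤ v x₂ := hb2.trans (pow_le_of_le_one zero_le hx2.le two_ne_zero)
    rw [hk1, hk2, hp1, hm1, div_one, one_mul, comp_clamp_of_mem hβx hx2.le]
  · -- impossible
    rw [hk1, hk2] at hle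
    exact absurd hle (not_le.mpr hx1)
  · rw [hk1, hk2] at hle ⊢
    have hg0 : v x₁ ≠ 0 := comp_ne_zero_of_le_sq h.a₄_val_ne hb1
    have hh0 : v x₂ ≠ 0 := comp_ne_zero_of_le_sq h.a₄_val_ne hb2
    have hgpos : 0 < v x₁ := zero_lt_iff.mpr hg0
    rcases hle.lt_or_eq with hlt | heq
    · -- regime (a)
      have hβx : v W.a₄ ≤ v x₂ := hb2.trans (pow_le_of_le_one zero_le hx2.le two_ne_zero)
      have c1 : max (v W.a₄) (min (v x₂ / v x₁) 1) = v x₂ / v x₁ := by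
        apply comp_clamp_of_mem
        · rw [le_div_iff₀ hgpos]
          calc v W.a₄ * v x₁ ≤ v x₂ * 1 := mul_le_mul' hβx hx1.le
            _ = v x₂ := mul_one _
        · exact (div_le_one₀ hgpos).mpr hlt.le
      have c2 : max (v W.a₄) (min (v x₁ * v x₂) 1) = v x₁ * v x₂ := by
        apply comp_clamp_of_mem
        · calc v W.a₄ ≤ v x₂ ^ 2 := hb2
            _ = v x₂ * v x₂ := sq _
            _ ≤ v x₁ * v x₂ := mul_le_mul' hlt.le le_rfl
        · exact mul_le_one' hx1.le hx2.le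
      rcases comp_regime_a v h.two h.a₂ h.a₄_ne hx hs hp hx1 hlt hb2 with ⟨e1, e2⟩ | ⟨e1, e2⟩
      · rw [e1, e2, c1, c2]
      · rw [e1, e2, c1, c2, Sym2.eq_swap]
    · -- regime (b)
      rw [heq, div_self hg0, ← sq]
      rcases comp_regime_b v h.two h.a₂ h.a₄_ne hx hs hp hx1 heq hb1 with ⟨e1, e2⟩ | ⟨e1, e2⟩
      · rw [e2, min_eq_right e1, max_eq_right hβ1.le]
      · rw [e2, min_eq_right e1, max_eq_right hβ1.le, Sym2.eq_swap]

/-- doubling in the lower half -/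
lemma IsMultRed.lower_dbl (h : IsMultRed v W) {x y : K} (hxy : W.Nonsingular x y)
    (hg : v W.a₄ ≤ kap v (Point.some x y hxy) ^ 2) :
    kap v (Point.some x y hxy + Point.some x y hxy) = kap v (Point.some x y hxy) ^ 2 := by
  have heq := h.leg.sq_yc hxy
  rcases h.lower_facts hxy hg with ⟨hx1, hk1⟩ | ⟨hx1, hk1, hb1⟩
  · rw [hk1, one_pow]
    by_cases hy : y = 0
    · rw [(h.leg.add_self_eq_zero_iff h.two_ne hxy).mpr hy, kap_zero]
    · have hne : Point.some x y hxy + Point.some x y hxy ≠ 0 := fun h0 =>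
        hy ((h.leg.add_self_eq_zero_iff h.two_ne hxy).mp h0)
      rw [kap_of_ne_zero v hne, h.leg.xc_add_self h.two_ne hxy hy]
      have := comp_dbl_h v h.two h.a₂ h.a₄_lt heq hy hx1
      rw [min_eq_right this, max_eq_right h.a₄_lt.le]
  · obtain ⟨hy, hval⟩ := comp_dbl_a v h.two h.a₂ h.a₄_ne heq hx1 hb1
    have hne : Point.some x y hxy + Point.some x y hxy ≠ 0 := fun h0 =>
      hy ((h.leg.add_self_eq_zero_iff h.two_ne hxy).mp h0)
    rw [kap_of_ne_zero v hne, h.leg.xc_add_self h.two_ne hxy hy, hk1]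
    exact hval

/-- the pair law in the lower half, `kap Q ≤ kap P` -/
lemma IsMultRed.lower_pair (h : IsMultRed v W) (P Q : W.Point)
    (hg : v W.a₄ ≤ kap v P ^ 2) (hh : v W.a₄ ≤ kap v Q ^ 2) (hle : kap v Q ≤ kap v P) :
    s(kap v (P + Q), kap v (P - Q)) = s(kap v Q / kap v P, kap v P * kap v Q) := by
  rcases P with _ | ⟨x₁, y₁, h₁⟩
  · rw [← Point.zero_def, zero_add, zero_sub, kap_neg, kap_zero, div_one, one_mul]
  rcases Q with _ | ⟨x₂, y₂, h₂⟩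
  · rw [← Point.zero_def] at hle ⊢
    rw [kap_zero] at hle
    have hk : kap v (Point.some x₁ y₁ h₁) = 1 := le_antisymm (kap_le_one v h _) hle
    rw [add_zero, sub_zero, kap_zero, hk, div_one, one_mul]
  by_cases hx : x₁ = x₂
  · subst hx
    have hg0 := h.kap_ne_zero (Point.some x₁ y₁ h₁)
    have e₁ := h.leg.sq_yc h₁
    have e₂ := h.leg.sq_yc h₂
    have hyy : y₂ ^ 2 = y₁ ^ 2 := by rw [e₁, e₂]
    rcases sq_eq_sq_iff_eq_or_eq_neg.mp hyy with rfl | rfl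
    · rw [sub_self, kap_zero, h.lower_dbl h₁ hg, div_self hg0, ← sq, Sym2.eq_swap]
    · have hQ : Point.some x₁ (-y₁) h₂ = -Point.some x₁ y₁ h₁ := by
        rw [Point.neg_some]
        congr 1
        rw [h.leg.negY]
      rw [hQ, add_neg_cancel, sub_neg_eq_add, kap_neg, kap_zero, h.lower_dbl h₁ hg,
        div_self hg0, ← sq]
  · exact h.lower_generic h₁ h₂ hx hg hh hle

end pair
section assembly

variable {K : Type*} [Field K] [DecidableEq K] {Γ₀ : Type*} [LinearOrderedCommGroupWithZero Γ₀]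
  {v : Valuation K Γ₀} {W : Affine K}

lemma comp_clamp_inv {β ξ : Γ₀} (hβ0 : β ≠ 0) (hβ1 : β ≤ 1) (hξ0 : ξ ≠ 0) :
    max β (min (β / ξ) 1) = β / max β (min ξ 1) := by
  have h1 : min ξ 1 ≠ 0 := by
    rcases le_total ξ 1 with h | h
    · rwa [min_eq_left h]
    · rw [min_eq_right h]; exact one_ne_zero
  rw [comp_div_max hβ0 h1, comp_div_min hξ0 one_ne_zero, div_self hβ0, div_one,
    max_min_distrib_left, max_eq_right hβ1, min_comm, max_comm]

/-- the `2`-torsion point `(0, 0)` -/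
noncomputable def IsMultRed.T (h : IsMultRed v W) : W.Point :=
  Point.some 0 0 (h.leg.nonsingular_zero_zero h.a₄_ne)

lemma IsMultRed.T_add_T (h : IsMultRed v W) : h.T + h.T = 0 :=
  (h.leg.add_self_eq_zero_iff h.two_ne _).mpr rfl

lemma IsMultRed.kap_T (h : IsMultRed v W) : kap v h.T = v W.a₄ := by
  unfold IsMultRed.T
  rw [kap_some, map_zero, min_eq_left zero_le, max_eq_left zero_le]

/-- translation by `(0,0)` inverts `kap` -/
lemma IsMultRed.kap_add_T (h : IsMultRed v W) (P : W.Point) :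
    kap v (P + h.T) = v W.a₄ / kap v P := by
  rcases P with _ | ⟨x, y, hxy⟩
  · rw [← Point.zero_def, zero_add, h.kap_T, kap_zero, div_one]
  by_cases hx : x = 0
  · subst hx
    have hy : y = 0 := by
      have := h.leg.sq_yc hxy
      simpa using this
    subst hy
    have : Point.some 0 0 hxy = h.T := rfl
    rw [this, h.T_add_T, kap_zero, h.kap_T, div_self h.a₄_val_ne]
  · have h0 := h.leg.nonsingular_zero_zero h.a₄_ne
    have hne : Point.some x y hxy + h.T ≠ 0 := add_ne_zero_of_xc_ne hxy h0 hx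
    have hxc : xc (Point.some x y hxy + h.T) = W.a₄ / x := h.leg.xc_add_zero_zero hxy h0 hx
    rw [kap_of_ne_zero v hne, hxc, kap_some, map_div₀]
    exact comp_clamp_inv h.a₄_val_ne h.a₄_lt.le ((v.ne_zero_iff).mpr hx)

/-- the pair law when both points are in the lower half -/
lemma IsMultRed.pair_LL (h : IsMultRed v W) (P Q : W.Point)
    (hg : v W.a₄ ≤ kap v P ^ 2) (hh : v W.a₄ ≤ kap v Q ^ 2) :
    s(kap v (P + Q), kap v (P - Q)) = compPair (v W.a₄) (kap v P) (kap v Q) := by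
  have hg0 := h.kap_ne_zero P
  have hh0 := h.kap_ne_zero Q
  have hgpos : 0 < kap v P := zero_lt_iff.mpr hg0
  have hhpos : 0 < kap v Q := zero_lt_iff.mpr hh0
  rw [compPair_lower hg0 hh0 hg hh]
  rcases le_total (kap v Q) (kap v P) with hle | hle
  · rw [h.lower_pair P Q hg hh hle, min_eq_right]
    exact ((div_le_one₀ hgpos).mpr hle).trans ((one_le_div₀ hhpos).mpr hle)
  · have := h.lower_pair Q P hh hg hle
    rw [add_comm Q P, ← neg_sub P Q, kap_neg] at this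
    rw [this, min_eq_left, mul_comm]
    exact ((div_le_one₀ hhpos).mpr hle).trans ((one_le_div₀ hgpos).mpr hle)

/-- the pair law is invariant under translation of `P` by `(0,0)` -/
lemma IsMultRed.pair_tau (h : IsMultRed v W) (P Q : W.Point)
    (hc : s(kap v (P + h.T + Q), kap v (P + h.T - Q)) =
      compPair (v W.a₄) (kap v (P + h.T)) (kap v Q)) :
    s(kap v (P + Q), kap v (P - Q)) = compPair (v W.a₄) (kap v P) (kap v Q) := by
  have hβ0 := h.a₄_val_ne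
  have e1 : P + h.T + Q = (P + Q) + h.T := add_right_comm _ _ _
  have e2 : P + h.T - Q = (P - Q) + h.T := by abel
  rw [e1, e2, h.kap_add_T, h.kap_add_T, h.kap_add_T,
    compPair_tau hβ0 (h.kap_ne_zero P) (h.kap_ne_zero Q)] at hc
  have hc' := congrArg (Sym2.map (fun t => v W.a₄ / t)) hc
  rw [← Sym2.map_pair_eq (fun t => v W.a₄ / t),
    comp_sym2_invol hβ0 (h.kap_ne_zero _) (h.kap_ne_zero _)] at hc'
  rw [hc']
  unfold compPair
  have hg0 := h.kap_ne_zero P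
  have hh0 := h.kap_ne_zero Q
  apply comp_sym2_invol hβ0
  · rcases le_total (kap v P / kap v Q) (kap v Q / kap v P) with hle | hle
    · rw [min_eq_left hle]; exact div_ne_zero hg0 hh0
    · rw [min_eq_right hle]; exact div_ne_zero hh0 hg0
  · exact (lt_of_lt_of_le (zero_lt_iff.mpr (mul_ne_zero hg0 hh0)) (le_max_left _ _)).ne'

lemma IsMultRed.pair_symm (h : IsMultRed v W) (P Q : W.Point)
    (hc : s(kap v (Q + P), kap v (Q - P)) = compPair (v W.a₄) (kap v Q) (kap v P)) :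
    s(kap v (P + Q), kap v (P - Q)) = compPair (v W.a₄) (kap v P) (kap v Q) := by
  rw [add_comm Q P, ← neg_sub P Q, kap_neg, compPair_comm] at hc
  exact hc

lemma IsMultRed.upper_to_lower (h : IsMultRed v W) (P : W.Point)
    (hg : ¬ v W.a₄ ≤ kap v P ^ 2) : v W.a₄ ≤ kap v (P + h.T) ^ 2 := by
  rw [not_le] at hg
  have hβ0 := h.a₄_val_ne
  have hβpos : 0 < v W.a₄ := zero_lt_iff.mpr hβ0
  have hg2 : 0 < kap v P ^ 2 := zero_lt_iff.mpr (pow_ne_zero 2 (h.kap_ne_zero P))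
  rw [h.kap_add_T, div_pow, le_div_iff₀ hg2, sq (v W.a₄)]
  exact mul_le_mul' le_rfl hg.le

/-- the pair law, `Sym2` form -/
lemma IsMultRed.pair_sym2 (h : IsMultRed v W) (P Q : W.Point) :
    s(kap v (P + Q), kap v (P - Q)) = compPair (v W.a₄) (kap v P) (kap v Q) := by
  have key : ∀ P Q : W.Point, v W.a₄ ≤ kap v Q ^ 2 →
      s(kap v (P + Q), kap v (P - Q)) = compPair (v W.a₄) (kap v P) (kap v Q) := by
    intro P Q hh
    by_cases hg : v W.a₄ ≤ kap v P ^ 2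
    · exact h.pair_LL P Q hg hh
    · exact h.pair_tau P Q (h.pair_LL _ Q (h.upper_to_lower P hg) hh)
  by_cases hh : v W.a₄ ≤ kap v Q ^ 2
  · exact key P Q hh
  · by_cases hg : v W.a₄ ≤ kap v P ^ 2
    · exact h.pair_symm P Q (key Q P hg)
    · exact h.pair_tau P Q (h.pair_symm _ Q (key Q _ (h.upper_to_lower P hg)))

variable (v)

/-- **the pair law** -/
theorem kap_pair (h : IsMultRed v W) (P Q : W.Point) :
    (kap v (P + Q) = min (kap v P / kap v Q) (kap v Q / kap v P) ∧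
      kap v (P - Q) = max (kap v P * kap v Q) (v W.a₄ ^ 2 / (kap v P * kap v Q))) ∨
    (kap v (P - Q) = min (kap v P / kap v Q) (kap v Q / kap v P) ∧
      kap v (P + Q) = max (kap v P * kap v Q) (v W.a₄ ^ 2 / (kap v P * kap v Q))) := by
  have := h.pair_sym2 P Q
  unfold compPair at this
  rcases Sym2.eq_iff.mp this with ⟨h1, h2⟩ | ⟨h1, h2⟩
  · exact Or.inl ⟨h1, h2⟩
  · exact Or.inr ⟨h2, h1⟩

end assembly
end Fermat.Agent.S05
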