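import Mathlib
import Fermat.Agent.S05.Components

set_option autoImplicit false

/-!
# (L3b) Induction on the pair law

From the pair law `kap_pair` (taken as a hypothesis `hpair`, so that this file does not depend on
its proof) we deduce: `kap (k • P) = (kap P)^(±k) * β^(2l)` for some `l`, and hence, if
`n • P = 0`, `kap P ^ n = β ^ (2 l)` for some integer `l` (`β = v a₄`).

The combinatorial core (`compRel_nsmul`) is a statement about an additive commutative group.
-/

namespace Fermat.Agent.S05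

/-! ### The abstract induction -/

section abstract

variable {A : Type*} [AddCommGroup A]

/-- `x` and `y` agree up to sign and up to multiples of `b`. -/
def CompRel (b x y : A) : Prop := ∃ l : ℤ, x = y + l • b ∨ x = -y + l • b

lemma compRel_refl (b x : A) : CompRel b x x := ⟨0, Or.inl (by module)⟩

lemma compRel_of_eq {b x y : A} (h : x = y) : CompRel b x y := h ▸ compRel_refl b x

lemma compRel_symm {b x y : A} (h : CompRel b x y) : CompRel b y x := by
  obtain ⟨l, h | h⟩ := h
  · exact ⟨-l, Or.inl (by subst h; module)⟩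
  · exact ⟨l, Or.inr (by subst h; module)⟩

lemma compRel_trans {b x y z : A} (h₁ : CompRel b x y) (h₂ : CompRel b y z) : CompRel b x z := by
  obtain ⟨l, h₁ | h₁⟩ := h₁ <;> obtain ⟨m, h₂ | h₂⟩ := h₂
  · exact ⟨l + m, Or.inl (by subst h₁ h₂; module)⟩
  · exact ⟨l + m, Or.inr (by subst h₁ h₂; module)⟩
  · exact ⟨l - m, Or.inr (by subst h₁ h₂; module)⟩
  · exact ⟨l - m, Or.inl (by subst h₁ h₂; module)⟩

/-- `x ∈ {y, -y}` up to `b`. -/
lemma compRel_of_eq_or_neg {b x y : A} (h : x = y ∨ x = -y) : CompRel b x y := by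
  rcases h with h | h
  · exact ⟨0, Or.inl (by subst h; module)⟩
  · exact ⟨0, Or.inr (by subst h; module)⟩

/-- `x ∈ {y, b - y}`. -/
lemma compRel_of_eq_or_sub {b x y : A} (h : x = y ∨ x = b - y) : CompRel b x y := by
  rcases h with h | h
  · exact ⟨0, Or.inl (by subst h; module)⟩
  · exact ⟨1, Or.inr (by subst h; module)⟩

/-- The abstract induction: a sequence `c` with `c 0 = 0`, `c 1 = g` such that the unordered pair
`{c (k+2), c k}` is `{± (c (k+1) - g), (c (k+1) + g) or b - (c (k+1) + g)}` satisfies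
`c k = ± k • g` modulo `b`. -/
theorem compRel_nsmul {b g : A} (c : ℕ → A) (h0 : c 0 = 0) (h1 : c 1 = g)
    (hstep : ∀ k : ℕ,
      ((c (k + 2) = c (k + 1) - g ∨ c (k + 2) = -(c (k + 1) - g)) ∧
        (c k = c (k + 1) + g ∨ c k = b - (c (k + 1) + g))) ∨
      ((c k = c (k + 1) - g ∨ c k = -(c (k + 1) - g)) ∧
        (c (k + 2) = c (k + 1) + g ∨ c (k + 2) = b - (c (k + 1) + g)))) :
    ∀ k : ℕ, CompRel b (c k) (k • g) := by
  have key : ∀ k : ℕ, CompRel b (c k) (k • g) ∧ CompRel b (c (k + 1)) ((k + 1) • g) := by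
    intro k
    induction k with
    | zero =>
      refine ⟨compRel_of_eq (by rw [h0]; module), compRel_of_eq (by rw [h1]; module)⟩
    | succ k ih =>
      obtain ⟨hk, hk1⟩ := ih
      refine ⟨hk1, ?_⟩
      -- the two relations coming from `c (k+1) = ± (k+1) • g`
      have hcases :
          (CompRel b (c (k + 1) - g) (k • g) ∧ CompRel b (c (k + 1) + g) ((k + 2) • g)) ∨
          (CompRel b (c (k + 1) - g) ((k + 2) • g) ∧ CompRel b (c (k + 1) + g) (k • g)) := by
        obtain ⟨l, hl | hl⟩ := hk1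
        · left
          exact ⟨⟨l, Or.inl (by rw [hl]; module)⟩, ⟨l, Or.inl (by rw [hl]; module)⟩⟩
        · right
          exact ⟨⟨l, Or.inr (by rw [hl]; module)⟩, ⟨l, Or.inr (by rw [hl]; module)⟩⟩
      have hswap : CompRel b (c k) ((k + 2) • g) → CompRel b (k • g) ((k + 2) • g) :=
        fun h => compRel_trans (compRel_symm hk) h
      show CompRel b (c (k + 1 + 1)) ((k + 1 + 1) • g)
      have e : (k + 1 + 1) • g = (k + 2) • g := rfl
      rw [e]
      rcases hstep k with ⟨hA1, hA2⟩ | ⟨hB1, hB2⟩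
      · have r1 : CompRel b (c (k + 2)) (c (k + 1) - g) := compRel_of_eq_or_neg hA1
        have r2 : CompRel b (c k) (c (k + 1) + g) := compRel_of_eq_or_sub hA2
        rcases hcases with ⟨s1, s2⟩ | ⟨s1, s2⟩
        · exact compRel_trans (compRel_trans r1 s1) (hswap (compRel_trans r2 s2))
        · exact compRel_trans r1 s1
      · have r1 : CompRel b (c k) (c (k + 1) - g) := compRel_of_eq_or_neg hB1
        have r2 : CompRel b (c (k + 2)) (c (k + 1) + g) := compRel_of_eq_or_sub hB2
        rcases hcases with ⟨s1, s2⟩ | ⟨s1, s2⟩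
        · exact compRel_trans r2 s2
        · exact compRel_trans (compRel_trans r2 s2) (hswap (compRel_trans r1 s1))
  exact fun k => (key k).1

end abstract

/-! ### The additive logarithm on a linearly ordered group with zero -/

section lg

variable {Γ₀ : Type*} [LinearOrderedCommGroupWithZero Γ₀]

/-- additive logarithm of a nonzero element (junk value `0` at `0`) -/
noncomputable def compLg (x : Γ₀) : Additive Γ₀ˣ :=
  if h : x = 0 then 0 else Additive.ofMul (Units.mk0 x h)

lemma compLg_of_ne {x : Γ₀} (h : x ≠ 0) : compLg x = Additive.ofMul (Units.mk0 x h) := by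
  rw [compLg, dif_neg h]

lemma compLg_one : compLg (1 : Γ₀) = 0 := by
  rw [compLg_of_ne one_ne_zero]
  have : Units.mk0 (1 : Γ₀) one_ne_zero = 1 := Units.ext rfl
  rw [this]
  rfl

lemma compLg_mul {x y : Γ₀} (hx : x ≠ 0) (hy : y ≠ 0) : compLg (x * y) = compLg x + compLg y := by
  rw [compLg_of_ne hx, compLg_of_ne hy, compLg_of_ne (mul_ne_zero hx hy), ← ofMul_mul]
  congr 1
  exact Units.ext rfl

lemma compLg_inv {x : Γ₀} (hx : x ≠ 0) : compLg x⁻¹ = -compLg x := by
  rw [compLg_of_ne hx, compLg_of_ne (inv_ne_zero hx), ← ofMul_inv]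
  congr 1
  exact Units.ext rfl

lemma compLg_div {x y : Γ₀} (hx : x ≠ 0) (hy : y ≠ 0) : compLg (x / y) = compLg x - compLg y := by
  rw [div_eq_mul_inv, compLg_mul hx (inv_ne_zero hy), compLg_inv hy, sub_eq_add_neg]

lemma compLg_pow {x : Γ₀} (hx : x ≠ 0) (n : ℕ) : compLg (x ^ n) = n • compLg x := by
  induction n with
  | zero => simp [compLg_one]
  | succ n ih => rw [pow_succ, compLg_mul (pow_ne_zero n hx) hx, ih, succ_nsmul]

lemma compLg_zpow {x : Γ₀} (hx : x ≠ 0) (l : ℤ) : compLg (x ^ l) = l • compLg x := by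
  induction l with
  | zero => simp [compLg_one]
  | succ n ih =>
    rw [zpow_add_one₀ hx, compLg_mul (zpow_ne_zero _ hx) hx, ih, add_smul, one_smul]
  | pred n ih =>
    rw [zpow_sub_one₀ hx, compLg_mul (zpow_ne_zero _ hx) (inv_ne_zero hx), ih, compLg_inv hx,
      sub_smul, one_smul, sub_eq_add_neg]

lemma compLg_injOn {x y : Γ₀} (hx : x ≠ 0) (hy : y ≠ 0) (h : compLg x = compLg y) : x = y := by
  rw [compLg_of_ne hx, compLg_of_ne hy] at h
  have h' : Units.mk0 x hx = Units.mk0 y hy := Additive.ofMul.injective h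
  exact congrArg Units.val h'

end lg

/-! ### Application to the component function `kap` -/

section kap

open WeierstrassCurve WeierstrassCurve.Affine

variable {K : Type*} [Field K] [DecidableEq K] {Γ₀ : Type*} [LinearOrderedCommGroupWithZero Γ₀]
  (v : Valuation K Γ₀) {W : Affine K}

lemma comp_kap_zero : kap v (0 : W.Point) = 1 := by
  rw [kap, if_pos rfl]

lemma comp_kap_ne_zero (h : IsMultRed v W) (P : W.Point) : kap v P ≠ 0 := by
  have hβ : v W.a₄ ≠ 0 := (Valuation.ne_zero_iff v).2 h.a₄_ne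
  unfold kap
  split_ifs
  · exact one_ne_zero
  · intro h0
    have h1 : v W.a₄ ≤ max (v W.a₄) (min (v (xc P)) 1) := le_max_left _ _
    rw [h0] at h1
    exact hβ (le_zero_iff.1 h1)

/-- **(L3b)** the induction on the pair law, with the pair law as a hypothesis. -/
theorem kap_pow_of_nsmul_eq_zero_of_pair (h : IsMultRed v W)
    (hpair : ∀ P Q : W.Point,
      (kap v (P + Q) = min (kap v P / kap v Q) (kap v Q / kap v P) ∧
        kap v (P - Q) = max (kap v P * kap v Q) (v W.a₄ ^ 2 / (kap v P * kap v Q))) ∨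
      (kap v (P - Q) = min (kap v P / kap v Q) (kap v Q / kap v P) ∧
        kap v (P + Q) = max (kap v P * kap v Q) (v W.a₄ ^ 2 / (kap v P * kap v Q))))
    {P : W.Point} {n : ℕ} (hP : n • P = 0) : ∃ l : ℤ, kap v P ^ n = v W.a₄ ^ (2 * l) := by
  have hβ : v W.a₄ ≠ 0 := (Valuation.ne_zero_iff v).2 h.a₄_ne
  have hβ2 : v W.a₄ ^ 2 ≠ 0 := pow_ne_zero 2 hβ
  have hne : ∀ Q : W.Point, kap v Q ≠ 0 := comp_kap_ne_zero v h
  -- the conversion of the four shapes
  have hmin : ∀ x y z : Γ₀, y ≠ 0 → z ≠ 0 → x = min (y / z) (z / y) →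
      compLg x = compLg y - compLg z ∨ compLg x = -(compLg y - compLg z) := by
    intro x y z hy hz hx
    rcases min_choice (y / z) (z / y) with e | e
    · left
      rw [hx, e, compLg_div hy hz]
    · right
      rw [hx, e, compLg_div hz hy, neg_sub]
  have hmax : ∀ x y z : Γ₀, y ≠ 0 → z ≠ 0 → x = max (y * z) (v W.a₄ ^ 2 / (y * z)) →
      compLg x = compLg y + compLg z ∨
        compLg x = compLg (v W.a₄ ^ 2) - (compLg y + compLg z) := by
    intro x y z hy hz hx
    rcases max_choice (y * z) (v W.a₄ ^ 2 / (y * z)) with e | e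
    · left
      rw [hx, e, compLg_mul hy hz]
    · right
      rw [hx, e, compLg_div hβ2 (mul_ne_zero hy hz), compLg_mul hy hz]
  have key := compRel_nsmul (b := compLg (v W.a₄ ^ 2)) (g := compLg (kap v P))
    (fun k => compLg (kap v (k • P)))
    (by simp only [zero_smul, comp_kap_zero, compLg_one])
    (by simp only [one_smul])
    (by
      intro k
      have e1 : (k + 2) • P = (k + 1) • P + P := succ_nsmul P (k + 1)
      have e2 : k • P = (k + 1) • P - P := by rw [succ_nsmul, add_sub_cancel_right]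
      show ((compLg (kap v ((k + 2) • P)) = _ ∨ _) ∧ (compLg (kap v (k • P)) = _ ∨ _)) ∨
        ((compLg (kap v (k • P)) = _ ∨ _) ∧ (compLg (kap v ((k + 2) • P)) = _ ∨ _))
      rw [e1, e2]
      rcases hpair ((k + 1) • P) P with ⟨hA1, hA2⟩ | ⟨hB1, hB2⟩
      · exact Or.inl ⟨hmin _ _ _ (hne _) (hne _) hA1, hmax _ _ _ (hne _) (hne _) hA2⟩
      · exact Or.inr ⟨hmin _ _ _ (hne _) (hne _) hB1, hmax _ _ _ (hne _) (hne _) hB2⟩)
    n
  simp only [hP, comp_kap_zero, compLg_one] at key
  obtain ⟨l, hl | hl⟩ := key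
  · refine ⟨-l, ?_⟩
    apply compLg_injOn (pow_ne_zero n (hne P)) (zpow_ne_zero _ hβ)
    rw [compLg_pow (hne P), zpow_mul, compLg_zpow (zpow_ne_zero _ hβ), zpow_two, ← pow_two,
      neg_smul, eq_neg_iff_add_eq_zero]
    exact hl.symm
  · refine ⟨l, ?_⟩
    apply compLg_injOn (pow_ne_zero n (hne P)) (zpow_ne_zero _ hβ)
    rw [compLg_pow (hne P), zpow_mul, compLg_zpow (zpow_ne_zero _ hβ), zpow_two, ← pow_two]
    have : -(n • compLg (kap v P)) + l • compLg (v W.a₄ ^ 2) = 0 := hl.symm
    rw [neg_add_eq_zero] at this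
    exact this

/-- consequence of the pair law by induction on `k`:
`kap (k • P) = (kap P)^(±k) * β^(2l)` for some `l`; at `k = n` with `n • P = 0` this gives: -/
theorem kap_pow_of_nsmul_eq_zero (h : IsMultRed v W) {P : W.Point} {n : ℕ}
    (hP : n • P = 0) : ∃ l : ℤ, kap v P ^ n = v W.a₄ ^ (2 * l) :=
  kap_pow_of_nsmul_eq_zero_of_pair v h (kap_pair v h) hP

end kap

end Fermat.Agent.S05

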