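import Mathlib
import Fermat.Agent.S05.Legendre
import Fermat.Agent.S05.KerRed

set_option autoImplicit false

/-!
# (L1) the kernel of reduction on `Y² = X³ + a₂X² + a₄X`

`v` is an arbitrary valuation on the field `K` with `v a₂ ≤ 1`, `v a₄ ≤ 1`.
`InKer v P` means: `P = 0` or the `x`-coordinate of `P` is not `v`-integral.
Everything is deduced from the general statements of `KerRed.lean` applied to the valuation
subring of `v`.
-/

namespace Fermat.Agent.S05

open WeierstrassCurve WeierstrassCurve.Affine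

variable {K : Type*} [Field K] [DecidableEq K] {Γ₀ : Type*} [LinearOrderedCommGroupWithZero Γ₀]
  (v : Valuation K Γ₀) {W : Affine K}

/-- the kernel of reduction: the point at infinity and the points with non-integral `x` -/
def InKer (P : W.Point) : Prop := P = 0 ∨ 1 < v (xc P)

theorem inKer_zero : InKer v (0 : W.Point) := Or.inl rfl

omit [DecidableEq K] in
theorem inKer_iff_inKerRed (P : W.Point) : InKer v P ↔ InKerRed v.valuationSubring W P := by
  cases P with
  | zero => exact ⟨fun _ => trivial, fun _ => Or.inl rfl⟩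
  | some x y h =>
    rw [inKerRed_some, Valuation.mem_valuationSubring_iff, not_le]
    constructor
    · rintro (h0 | h1)
      · exact absurd h0 (Point.some_ne_zero h)
      · exact h1
    · intro h1
      exact Or.inr h1

omit [DecidableEq K] in
theorem isIntegralAt_of_isLeg (hW : IsLeg W) (ha : v W.a₂ ≤ 1) (hb : v W.a₄ ≤ 1) :
    IsIntegralAt v.valuationSubring W := by
  refine ⟨?_, ?_, ?_, ?_, ?_⟩
  · rw [hW.a₁]; exact zero_mem _
  · exact (Valuation.mem_valuationSubring_iff v _).mpr ha
  · rw [hW.a₃]; exact zero_mem _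
  · exact (Valuation.mem_valuationSubring_iff v _).mpr hb
  · rw [hW.a₆]; exact zero_mem _

omit [DecidableEq K] in
theorem InKer.neg {P : W.Point} (h : InKer v P) : InKer v (-P) := by
  rw [inKer_iff_inKerRed] at h ⊢
  exact inKerRed_neg h

/-- the kernel of reduction is closed under addition -/
theorem InKer.add (hW : IsLeg W) (h2 : v 2 = 1) (ha : v W.a₂ ≤ 1) (hb : v W.a₄ ≤ 1)
    {P Q : W.Point} (hP : InKer v P) (hQ : InKer v Q) : InKer v (P + Q) := by
  rw [inKer_iff_inKerRed] at hP hQ ⊢
  exact inKerRed_add (isIntegralAt_of_isLeg v hW ha hb) hP hQ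

theorem InKer.sub (hW : IsLeg W) (h2 : v 2 = 1) (ha : v W.a₂ ≤ 1) (hb : v W.a₄ ≤ 1)
    {P Q : W.Point} (hP : InKer v P) (hQ : InKer v Q) : InKer v (P - Q) := by
  rw [sub_eq_add_neg]
  exact InKer.add v hW h2 ha hb hP (InKer.neg v hQ)

/-- the kernel of reduction has no `n`-torsion when `n` is a `v`-unit -/
theorem InKer.eq_zero_of_nsmul_eq_zero (hW : IsLeg W) (h2 : v 2 = 1) (ha : v W.a₂ ≤ 1)
    (hb : v W.a₄ ≤ 1) {P : W.Point} (hP : InKer v P) {n : ℕ} (hn : v (n : K) = 1)
    (h : n • P = 0) : P = 0 := by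
  rw [inKer_iff_inKerRed] at hP
  have hn0 : (n : K) ≠ 0 := by
    intro h0
    rw [h0, map_zero] at hn
    exact zero_ne_one hn
  have hninv : ((n : K))⁻¹ ∈ v.valuationSubring := by
    rw [Valuation.mem_valuationSubring_iff, map_inv₀, hn, inv_one]
  exact kerRed_torsion_free (isIntegralAt_of_isLeg v hW ha hb) hn0 hninv hP h

end Fermat.Agent.S05
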