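import Mathlib

/-!
# S05, core of (L2): two integral points with the same nonsingular reduction differ by an element
of the kernel of reduction

`L` a field, `A` a valuation subring, `W` a Weierstrass curve over `L` with coefficients in `A`.
If `P = (x, y)` and `Q = (x', y')` are affine points with coordinates in `A`, congruent modulo the
maximal ideal, and the common reduction is a nonsingular point of the reduced cubic, then
`P - Q` is `0` or has an `x`-coordinate outside `A`.

No group-homomorphism statement about reduction is needed for this.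
-/

set_option autoImplicit false

namespace Fermat.Agent.S05

open WeierstrassCurve WeierstrassCurve.Affine

variable {L : Type*} [Field L]

section nonunits

variable (A : ValuationSubring L)

theorem samered_nu_add {a b : L} (ha : a ∈ A.nonunits) (hb : b ∈ A.nonunits) : a + b ∈ A.nonunits := by
  have haA := A.nonunits_le ha
  have hbA := A.nonunits_le hb
  have h1 : (⟨a, haA⟩ : A) ∈ IsLocalRing.maximalIdeal A := A.coe_mem_nonunits_iff.mp ha
  have h2 : (⟨b, hbA⟩ : A) ∈ IsLocalRing.maximalIdeal A := A.coe_mem_nonunits_iff.mp hb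
  exact A.coe_mem_nonunits_iff.mpr (Ideal.add_mem _ h1 h2)

theorem samered_nu_neg {a : L} (ha : a ∈ A.nonunits) : -a ∈ A.nonunits := by
  have haA := A.nonunits_le ha
  have h1 : (⟨a, haA⟩ : A) ∈ IsLocalRing.maximalIdeal A := A.coe_mem_nonunits_iff.mp ha
  exact A.coe_mem_nonunits_iff.mpr (Ideal.neg_mem_iff _ |>.mpr h1)

theorem samered_nu_sub {a b : L} (ha : a ∈ A.nonunits) (hb : b ∈ A.nonunits) : a - b ∈ A.nonunits := by
  rw [sub_eq_add_neg]; exact samered_nu_add A ha (samered_nu_neg A hb)

theorem samered_nu_mul_left {a b : L} (ha : a ∈ A) (hb : b ∈ A.nonunits) : a * b ∈ A.nonunits := by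
  have hbA := A.nonunits_le hb
  have h2 : (⟨b, hbA⟩ : A) ∈ IsLocalRing.maximalIdeal A := A.coe_mem_nonunits_iff.mp hb
  exact A.coe_mem_nonunits_iff.mpr (Ideal.mul_mem_left _ ⟨a, ha⟩ h2)

theorem samered_nu_mul_right {a b : L} (ha : a ∈ A.nonunits) (hb : b ∈ A) : a * b ∈ A.nonunits := by
  rw [mul_comm]; exact samered_nu_mul_left A hb ha

/-- `n / d ∉ A` for a unit `n` and a nonzero nonunit `d`. -/
theorem samered_div_not_mem {n d : L} (hn' : n ∉ A.nonunits) (hd : d ∈ A.nonunits)
    (hd0 : d ≠ 0) : n / d ∉ A := by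
  intro h
  apply hn'
  have : n = (n / d) * d := by field_simp
  rw [this]
  exact samered_nu_mul_left A h hd

/-- A monic quadratic expression with integral coefficients in a non-integral element is
non-integral. -/
theorem samered_quad_not_mem {ℓ c₁ c₀ : L} (hℓ : ℓ ∉ A) (h₁ : c₁ ∈ A) (h₀ : c₀ ∈ A) :
    ℓ ^ 2 + c₁ * ℓ + c₀ ∉ A := by
  intro ht
  have hℓ0 : ℓ ≠ 0 := fun h => hℓ (h ▸ A.zero_mem)
  have hinv : ℓ⁻¹ ∈ A := (A.mem_or_inv_mem ℓ).resolve_left hℓ
  apply hℓ
  have : ℓ = (ℓ ^ 2 + c₁ * ℓ + c₀ - c₀) * ℓ⁻¹ - c₁ := by field_simp; ring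
  rw [this]
  exact sub_mem (mul_mem (sub_mem ht h₀) hinv) h₁

end nonunits

variable [DecidableEq L]

/-- **Same nonsingular reduction ⇒ difference in the kernel of reduction.** -/
theorem sameRed_sub (A : ValuationSubring L) (W : Affine L)
    (h₁ : W.a₁ ∈ A) (h₂ : W.a₂ ∈ A) (h₃ : W.a₃ ∈ A) (h₄ : W.a₄ ∈ A)
    {x y x' y' : L} (hP : W.Nonsingular x y) (hQ : W.Nonsingular x' y')
    (hx : x ∈ A) (hy : y ∈ A) (hx' : x' ∈ A) (hy' : y' ∈ A)
    (hxx : x - x' ∈ A.nonunits) (hyy : y - y' ∈ A.nonunits)
    (hns : ¬ (W.polynomialX.evalEval x y ∈ A.nonunits ∧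
      W.polynomialY.evalEval x y ∈ A.nonunits)) :
    Point.some x y hP - Point.some x' y' hQ = 0 ∨
      ∃ (x₃ y₃ : L) (h : W.Nonsingular x₃ y₃),
        Point.some x y hP - Point.some x' y' hQ = Point.some x₃ y₃ h ∧ x₃ ∉ A := by
  rw [evalEval_polynomialX, evalEval_polynomialY] at hns
  rw [sub_eq_add_neg, Point.neg_some]
  set y'' := W.negY x' y' with hy''
  have hy''A : y'' ∈ A := by
    rw [hy'', negY]
    exact sub_mem (sub_mem (neg_mem hy') (mul_mem h₁ hx')) h₃
  have hQ' : W.Nonsingular x' y'' := (nonsingular_neg x' y').mpr hQ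
  have h2A : (2 : L) ∈ A := by
    have := A.add_mem _ _ A.one_mem A.one_mem
    rwa [one_add_one_eq_two] at this
  have h3A : (3 : L) ∈ A := by
    have h : (3 : L) = 2 + 1 := by norm_num
    rw [h]
    exact add_mem h2A (one_mem _)
  -- integrality of the two partial derivatives
  have hpXA : W.a₁ * y - (3 * x ^ 2 + 2 * W.a₂ * x + W.a₄) ∈ A := by
    refine sub_mem (mul_mem h₁ hy) (add_mem (add_mem ?_ ?_) h₄)
    · exact mul_mem h3A (pow_mem hx 2)
    · exact mul_mem (mul_mem h2A h₂) hx
  by_cases hxeq : x = x'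
  · -- same `x`-coordinate
    subst hxeq
    by_cases hyeq : y = W.negY x y''
    · left
      exact Point.add_of_Y_eq rfl hyeq
    · right
      -- `y ≠ y'`, hence `y = y''`, and we are doubling
      have hyy'' : y = y'' := by
        rcases Y_eq_of_X_eq hP.1 hQ.1 rfl with h | h
        · exact absurd (by rw [hy'', negY_negY]; exact h) hyeq
        · exact h
      refine ⟨_, _, _, Point.add_of_Y_ne hyeq, ?_⟩
      rw [slope_of_Y_ne rfl hyeq]
      -- denominator `y - negY x y = y - y'` is a nonzero nonunit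
      have hden : y - W.negY x y = y - y' := by
        rw [hyy'', hy'', negY_negY]
      have hden0 : y - y' ≠ 0 := by
        intro h
        apply hyeq
        rw [hy'', negY_negY]
        exact sub_eq_zero.mp h
      -- so `polynomialY` is a nonunit and `polynomialX` is a unit
      have hpY : 2 * y + W.a₁ * x + W.a₃ ∈ A.nonunits := by
        have : 2 * y + W.a₁ * x + W.a₃ = y - W.negY x y := by rw [negY]; ring
        rw [this, hden]; exact hyy
      have hpX : W.a₁ * y - (3 * x ^ 2 + 2 * W.a₂ * x + W.a₄) ∉ A.nonunits :=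
        fun h => hns ⟨h, hpY⟩
      have hnum : 3 * x ^ 2 + 2 * W.a₂ * x + W.a₄ - W.a₁ * y ∉ A.nonunits := by
        intro h
        apply hpX
        have := samered_nu_neg A h
        rwa [neg_sub] at this
      have hℓ : (3 * x ^ 2 + 2 * W.a₂ * x + W.a₄ - W.a₁ * y) / (y - W.negY x y) ∉ A := by
        rw [hden]
        exact samered_div_not_mem A hnum hyy hden0
      have := samered_quad_not_mem A hℓ h₁ (sub_mem (sub_mem (neg_mem h₂) hx) hx)
      have e : ∀ ℓ : L, W.addX x x ℓ = ℓ ^ 2 + W.a₁ * ℓ + (-W.a₂ - x - x) := by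
        intro ℓ; simp only [addX]; ring
      rw [e]
      exact this
  · right
    refine ⟨_, _, _, Point.add_of_X_ne hxeq, ?_⟩
    rw [slope_of_X_ne hxeq]
    have hden0 : x - x' ≠ 0 := sub_ne_zero.mpr hxeq
    have hℓ : (y - y'') / (x - x') ∉ A := by
      by_cases hnum : y - y'' ∈ A.nonunits
      · -- use the alternative expression of the slope
        set D2 := y + y'' + W.a₁ * x + W.a₃ with hD2
        set N2 := x ^ 2 + x * x' + x' ^ 2 + W.a₂ * (x + x') + W.a₄ - W.a₁ * y'' with hN2
        have hid : (y - y'') * D2 = (x - x') * N2 := by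
          have e1 := (equation_iff x y).mp hP.1
          have e2 := (equation_iff x' y'').mp hQ'.1
          rw [hD2, hN2]
          linear_combination e1 - e2
        -- `polynomialY (x, y)` is a nonunit
        have hpY : 2 * y + W.a₁ * x + W.a₃ ∈ A.nonunits := by
          have : 2 * y + W.a₁ * x + W.a₃ =
              (y - y'') + (y - y') + W.a₁ * (x - x') := by
            rw [hy'', negY]; ring
          rw [this]
          exact samered_nu_add A (samered_nu_add A hnum hyy) (samered_nu_mul_left A h₁ hxx)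
        have hpX : W.a₁ * y - (3 * x ^ 2 + 2 * W.a₂ * x + W.a₄) ∉ A.nonunits :=
          fun h => hns ⟨h, hpY⟩
        -- `N2 ≡ -polynomialX (x, y)` modulo the maximal ideal
        have hN2nu : N2 ∉ A.nonunits := by
          intro h
          apply hpX
          have e : W.a₁ * y - (3 * x ^ 2 + 2 * W.a₂ * x + W.a₄) =
              -N2 + (-(x - x') * (2 * x + x' + W.a₂)) + W.a₁ * (y - y'') := by
            rw [hN2]; ring
          rw [e]
          refine samered_nu_add A (samered_nu_add A (samered_nu_neg A h) (samered_nu_mul_right A (samered_nu_neg A hxx) ?_))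
            (samered_nu_mul_left A h₁ hnum)
          exact add_mem (add_mem (mul_mem h2A hx) hx') h₂
        have hD2nu : D2 ∈ A.nonunits := by
          have : D2 = (y - y') + W.a₁ * (x - x') := by
            rw [hD2, hy'', negY]; ring
          rw [this]
          exact samered_nu_add A hyy (samered_nu_mul_left A h₁ hxx)
        have hN20 : N2 ≠ 0 := fun h => hN2nu (h ▸ A.nonunits.zero_mem)
        have hD20 : D2 ≠ 0 := by
          intro h
          rw [h, mul_zero] at hid
          exact (mul_ne_zero hden0 hN20) hid.symm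
        have : (y - y'') / (x - x') = N2 / D2 := by
          rw [div_eq_div_iff hden0 hD20]
          exact hid.trans (mul_comm _ _)
        rw [this]
        exact samered_div_not_mem A hN2nu hD2nu hD20
      · exact samered_div_not_mem A hnum hxx hden0
    have := samered_quad_not_mem A hℓ h₁ (sub_mem (sub_mem (neg_mem h₂) hx) hx')
    have e : ∀ ℓ : L, W.addX x x' ℓ = ℓ ^ 2 + W.a₁ * ℓ + (-W.a₂ - x - x') := by
      intro ℓ; simp only [addX]; ring
    rw [e]
    exact this

end Fermat.Agent.S05
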