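import Mathlib
import Fermat.Agent.S05.Kernel
import Fermat.Agent.S05.SameRedCore

set_option autoImplicit false

/-!
# (L2): two integral points with the same nonsingular reduction differ by an element of
the kernel of reduction (valuation form, on `Y² = X³ + a₂X² + a₄X`)

Wrapper around `sameRed_sub` (`SameRedCore.lean`, general Weierstrass form, valuation subrings)
with `A := v.valuationSubring`.
-/

namespace Fermat.Agent.S05

open WeierstrassCurve WeierstrassCurve.Affine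

variable {K : Type*} [Field K] {Γ₀ : Type*} [LinearOrderedCommGroupWithZero Γ₀]
  (v : Valuation K Γ₀)

theorem samered_mem_iff (x : K) : x ∈ v.valuationSubring ↔ v x ≤ 1 :=
  Valuation.mem_valuationSubring_iff v x

theorem samered_mem_nonunits_iff (x : K) : x ∈ v.valuationSubring.nonunits ↔ v x < 1 := by
  rw [ValuationSubring.mem_nonunits_iff]
  exact (Valuation.isEquiv_valuation_valuationSubring v).lt_one_iff_lt_one.symm

/-- On an integral model, an affine point with integral `x` has integral `y`. -/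
theorem samered_y_mem_of_x_mem (A : ValuationSubring K) (W : Affine K)
    (h₁ : W.a₁ ∈ A) (h₂ : W.a₂ ∈ A) (h₃ : W.a₃ ∈ A) (h₄ : W.a₄ ∈ A) (h₆ : W.a₆ ∈ A)
    {x y : K} (h : W.Equation x y) (hx : x ∈ A) : y ∈ A := by
  by_contra hy
  have hy0 : y ≠ 0 := fun h0 => hy (h0 ▸ A.zero_mem)
  have hinv : y⁻¹ ∈ A := (A.mem_or_inv_mem y).resolve_left hy
  apply hy
  have e := (equation_iff x y).mp h
  have : y = (x ^ 3 + W.a₂ * x ^ 2 + W.a₄ * x + W.a₆) * y⁻¹ - (W.a₁ * x + W.a₃) := by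
    field_simp
    linear_combination e
  rw [this]
  refine sub_mem (mul_mem ?_ hinv) (add_mem (mul_mem h₁ hx) h₃)
  exact add_mem (add_mem (add_mem (pow_mem hx 3) (mul_mem h₂ (pow_mem hx 2))) (mul_mem h₄ hx)) h₆

variable [DecidableEq K] {W : Affine K}

theorem inKer_sub_of_same_reduction (hW : IsLeg W) (h2 : v 2 = 1) (ha : v W.a₂ ≤ 1)
    (hb : v W.a₄ ≤ 1) {x₁ y₁ x₂ y₂ : K} (h₁ : W.Nonsingular x₁ y₁) (h₂ : W.Nonsingular x₂ y₂)
    (hx₁ : v x₁ ≤ 1) (hx : v (x₁ - x₂) < 1) (hy : v (y₁ - y₂) < 1)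
    (hns : v y₁ = 1 ∨ v (3 * x₁ ^ 2 + 2 * W.a₂ * x₁ + W.a₄) = 1) :
    InKer v (Point.some x₁ y₁ h₁ - Point.some x₂ y₂ h₂) := by
  set A := v.valuationSubring with hA
  have m₁ : W.a₁ ∈ A := by rw [hW.a₁]; exact A.zero_mem
  have m₂ : W.a₂ ∈ A := (samered_mem_iff v _).mpr ha
  have m₃ : W.a₃ ∈ A := by rw [hW.a₃]; exact A.zero_mem
  have m₄ : W.a₄ ∈ A := (samered_mem_iff v _).mpr hb
  have m₆ : W.a₆ ∈ A := by rw [hW.a₆]; exact A.zero_mem
  have mx₁ : x₁ ∈ A := (samered_mem_iff v _).mpr hx₁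
  have nx : x₁ - x₂ ∈ A.nonunits := (samered_mem_nonunits_iff v _).mpr hx
  have ny : y₁ - y₂ ∈ A.nonunits := (samered_mem_nonunits_iff v _).mpr hy
  have mx₂ : x₂ ∈ A := by
    have : x₂ = x₁ - (x₁ - x₂) := by ring
    rw [this]; exact sub_mem mx₁ (A.nonunits_subset nx)
  have my₁ : y₁ ∈ A := samered_y_mem_of_x_mem A W m₁ m₂ m₃ m₄ m₆ h₁.1 mx₁
  have my₂ : y₂ ∈ A := samered_y_mem_of_x_mem A W m₁ m₂ m₃ m₄ m₆ h₂.1 mx₂
  have hns' : ¬ (W.polynomialX.evalEval x₁ y₁ ∈ A.nonunits ∧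
      W.polynomialY.evalEval x₁ y₁ ∈ A.nonunits) := by
    rw [evalEval_polynomialX, evalEval_polynomialY, hW.a₁, hW.a₃, samered_mem_nonunits_iff,
      samered_mem_nonunits_iff]
    rintro ⟨hX, hY⟩
    rcases hns with h | h
    · have : v (2 * y₁ + 0 * x₁ + 0) = 1 := by
        rw [zero_mul, add_zero, add_zero, map_mul, h2, h, one_mul]
      exact absurd hY (by rw [this]; exact lt_irrefl _)
    · have : v (0 * y₁ - (3 * x₁ ^ 2 + 2 * W.a₂ * x₁ + W.a₄)) = 1 := by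
        rw [zero_mul, zero_sub, Valuation.map_neg, h]
      exact absurd hX (by rw [this]; exact lt_irrefl _)
  rcases sameRed_sub A W m₁ m₂ m₃ m₄ h₁ h₂ mx₁ my₁ mx₂ my₂ nx ny hns' with h | ⟨x₃, y₃, h₃, e, hx₃⟩
  · exact Or.inl h
  · right
    rw [e, xc_some]
    rw [samered_mem_iff] at hx₃
    exact not_le.mp hx₃

end Fermat.Agent.S05
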