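import Mathlib
import Fermat.Agent.S05.InertiaDefs
import Fermat.Agent.S05.SameRed
import Fermat.Agent.S05.ComponentsInd

set_option autoImplicit false

/-!
# (L4): inertia-like automorphisms fix the `n`-torsion of `Y² = X³ + a₂X² + a₄X`
(`n` a unit) in the good case and in the multiplicative case with `a₄ = unit * d ^ n`.

In all cases we show that `σ P - P` lies in the kernel of reduction; as it is `n`-torsion it
vanishes (`InKer.eq_zero_of_nsmul_eq_zero`).
-/

namespace Fermat.Agent.S05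

open WeierstrassCurve WeierstrassCurve.Affine

section general

variable {K : Type*} [Field K] {Γ₀ : Type*} [LinearOrderedCommGroupWithZero Γ₀]
  (v : Valuation K Γ₀)

/-- The discriminant lies in the ideal generated by the equation and the two partial derivatives
(with integral coefficients): if `Δ` is a unit then every integral point has nonsingular
reduction. -/
theorem main_not_both_partials_of_Δ (A : ValuationSubring K) (W : Affine K)
    (h₁ : W.a₁ ∈ A) (h₂ : W.a₂ ∈ A)
    (hΔ : W.Δ ∉ A.nonunits) {x y : K} (h : W.Equation x y) (hx : x ∈ A) :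
    ¬ (W.polynomialX.evalEval x y ∈ A.nonunits ∧ W.polynomialY.evalEval x y ∈ A.nonunits) := by
  rintro ⟨hX, hY⟩
  apply hΔ
  rw [evalEval_polynomialX] at hX
  rw [evalEval_polynomialY] at hY
  have e := (equation_iff' x y).mp h
  -- coefficients of the curve translated to `(x, y)`
  set b₁ := W.a₁ with hb₁
  set b₂ := W.a₂ + 3 * x with hb₂
  set b₃ := 2 * y + b₁ * x + W.a₃ with hb₃
  set b₄ := 3 * x ^ 2 + 2 * W.a₂ * x + W.a₄ - b₁ * y with hb₄
  have hb₂A : b₂ ∈ A := add_mem h₂ (mul_mem (ofNat_mem A 3) hx)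
  have hb₄nu : b₄ ∈ A.nonunits := by
    have := samered_nu_neg A hX
    rwa [neg_sub] at this
  have mem_of_nu : ∀ {a : K}, a ∈ A.nonunits → a ∈ A := fun h => A.nonunits_subset h
  have hb₃A : b₃ ∈ A := mem_of_nu hY
  have hb₄A : b₄ ∈ A := mem_of_nu hb₄nu
  -- the `b`-invariants of the translated curve (with `a₆' = 0`)
  set B2 := b₁ ^ 2 + 4 * b₂ with hB2
  set B4 := 2 * b₄ + b₁ * b₃ with hB4
  set B6 := b₃ ^ 2 with hB6
  set B8 := -(b₁ * b₃ * b₄) + b₂ * b₃ ^ 2 - b₄ ^ 2 with hB8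
  have key : W.Δ = -B2 ^ 2 * B8 - 8 * B4 ^ 3 - 27 * B6 ^ 2 + 9 * B2 * B4 * B6 := by
    rw [WeierstrassCurve.Δ, WeierstrassCurve.b₂, WeierstrassCurve.b₄,
      WeierstrassCurve.b₆, WeierstrassCurve.b₈, hB2, hB4, hB6, hB8, hb₄, hb₃, hb₂]
    linear_combination ((b₁ ^ 2 + 4 * (W.a₂ + 3 * x)) ^ 3
      + 216 * (2 * y + b₁ * x + W.a₃) ^ 2
      - 36 * (b₁ ^ 2 + 4 * (W.a₂ + 3 * x)) * (2 * (3 * x ^ 2 + 2 * W.a₂ * x + W.a₄ - b₁ * y)
          + b₁ * (2 * y + b₁ * x + W.a₃))
      - 432 * (y ^ 2 + b₁ * x * y + W.a₃ * y - (x ^ 3 + W.a₂ * x ^ 2 + W.a₄ * x + W.a₆))) * e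
  have hB2A : B2 ∈ A := add_mem (pow_mem h₁ 2) (mul_mem (ofNat_mem A 4) hb₂A)
  have hB4 : B4 ∈ A.nonunits :=
    samered_nu_add A (samered_nu_mul_left A (ofNat_mem A 2) hb₄nu) (samered_nu_mul_left A h₁ hY)
  have hB6 : B6 ∈ A.nonunits := by rw [hB6, pow_two]; exact samered_nu_mul_left A hb₃A hY
  have hB8 : B8 ∈ A.nonunits := by
    refine samered_nu_sub A (samered_nu_add A
      (samered_nu_neg A (samered_nu_mul_left A (mul_mem h₁ hb₃A) hb₄nu)) ?_) ?_
    · rw [pow_two]; exact samered_nu_mul_left A (mul_mem hb₂A hb₃A) hY |> fun h => by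
        rwa [mul_assoc] at h
    · rw [pow_two]; exact samered_nu_mul_left A hb₄A hb₄nu
  rw [key]
  refine samered_nu_add A (samered_nu_sub A (samered_nu_sub A ?_ ?_) ?_) ?_
  · exact samered_nu_mul_left A (neg_mem (pow_mem hB2A 2)) hB8
  · exact samered_nu_mul_left A (ofNat_mem A 8) (by
      rw [pow_succ]; exact samered_nu_mul_left A (pow_mem (mem_of_nu hB4) 2) hB4)
  · exact samered_nu_mul_left A (ofNat_mem A 27) (by
      rw [pow_two]; exact samered_nu_mul_left A (mem_of_nu hB6) hB6)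
  · exact samered_nu_mul_left A (mul_mem (mul_mem (ofNat_mem A 9) hB2A) (mem_of_nu hB4)) hB6

variable {W : Affine K}

/-- integral `x` gives integral `y` -/
theorem main_val_y_le_one (hW : IsLeg W) (ha : v W.a₂ ≤ 1) (hb : v W.a₄ ≤ 1) {x y : K}
    (h : W.Equation x y) (hx : v x ≤ 1) : v y ≤ 1 := by
  have := samered_y_mem_of_x_mem v.valuationSubring W (by rw [hW.a₁]; exact zero_mem _)
    ((samered_mem_iff v _).mpr ha) (by rw [hW.a₃]; exact zero_mem _)
    ((samered_mem_iff v _).mpr hb) (by rw [hW.a₆]; exact zero_mem _) h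
    ((samered_mem_iff v _).mpr hx)
  exact (samered_mem_iff v _).mp this

/-- good reduction: every integral point has nonsingular reduction -/
theorem main_hns_good (hW : IsLeg W) (h2 : v 2 = 1) (ha : v W.a₂ ≤ 1) (hb : v W.a₄ ≤ 1)
    (hΔ : v W.Δ = 1) {x y : K} (h : W.Equation x y) (hx : v x ≤ 1) :
    v y = 1 ∨ v (3 * x ^ 2 + 2 * W.a₂ * x + W.a₄) = 1 := by
  have key := main_not_both_partials_of_Δ v.valuationSubring W
    (by rw [hW.a₁]; exact zero_mem _) ((samered_mem_iff v _).mpr ha)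
    (by rw [samered_mem_nonunits_iff, hΔ]; exact lt_irrefl _) h ((samered_mem_iff v _).mpr hx)
  rw [evalEval_polynomialX, evalEval_polynomialY, hW.a₁, hW.a₃, samered_mem_nonunits_iff,
    samered_mem_nonunits_iff] at key
  have hy : v y ≤ 1 := main_val_y_le_one v hW ha hb h hx
  have h3 : v (3 : K) ≤ 1 := by
    have : (3 : K) = 2 + 1 := by norm_num
    rw [this]
    exact v.map_add_le h2.le v.map_one.le
  have hf : v (3 * x ^ 2 + 2 * W.a₂ * x + W.a₄) ≤ 1 := by
    refine v.map_add_le (v.map_add_le ?_ ?_) hb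
    · rw [map_mul, map_pow]
      exact mul_le_one' h3 (pow_le_one' hx 2)
    · rw [map_mul, map_mul, h2, one_mul]
      exact mul_le_one' ha hx
  by_contra hcon
  rw [not_or] at hcon
  apply key
  constructor
  · rw [zero_mul, zero_sub, Valuation.map_neg]
    exact lt_of_le_of_ne hf hcon.2
  · rw [zero_mul, add_zero, add_zero, map_mul, h2, one_mul]
    exact lt_of_le_of_ne hy hcon.1

/-- multiplicative reduction: points with unit `x` have nonsingular reduction -/
theorem main_hns_mult (hW : IsLeg W) (h2 : v 2 = 1) (ha : v W.a₂ = 1) (hb : v W.a₄ < 1)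
    {x y : K} (h : W.Equation x y) (hx : v x = 1) :
    v y = 1 ∨ v (3 * x ^ 2 + 2 * W.a₂ * x + W.a₄) = 1 := by
  have hy : v y ≤ 1 := main_val_y_le_one v hW ha.le hb.le h hx.le
  by_cases hy1 : v y = 1
  · exact Or.inl hy1
  right
  have hylt : v y < 1 := lt_of_le_of_ne hy hy1
  have e := (hW.equation_iff x y).1 h
  have h1 : v (x * (x + W.a₂)) < 1 := by
    have e1 : x * (x * (x + W.a₂)) = y ^ 2 - W.a₄ * x := by linear_combination -e
    have e2 : v (x * (x * (x + W.a₂))) = v (x * (x + W.a₂)) := by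
      rw [map_mul v x, hx, one_mul]
    rw [← e2, e1]
    refine v.map_sub_lt ?_ ?_
    · rw [map_pow]; exact pow_lt_one' hylt two_ne_zero
    · rw [map_mul, hx, mul_one]; exact hb
  have e3 : 3 * x ^ 2 + 2 * W.a₂ * x + W.a₄ = x ^ 2 + (2 * (x * (x + W.a₂)) + W.a₄) := by ring
  have h4 : v (2 * (x * (x + W.a₂)) + W.a₄) < 1 := by
    refine v.map_add_lt ?_ hb
    rw [map_mul, h2, one_mul]; exact h1
  have h5 : v (x ^ 2) = 1 := by rw [map_pow, hx, one_pow]
  rw [e3, v.map_add_eq_of_lt_left (by rw [h5]; exact h4), h5]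

/-- points "of nonsingular reduction": zero, non-integral `x`, or integral with one of the two
partial derivatives a unit -/
def MainE0 (S : W.Point) : Prop :=
  S = 0 ∨ 1 < v (xc S) ∨
    (v (xc S) ≤ 1 ∧ (v (yc S) = 1 ∨ v (3 * xc S ^ 2 + 2 * W.a₂ * xc S + W.a₄) = 1))

theorem mainE0_of_good (hW : IsLeg W) (h2 : v 2 = 1) (ha : v W.a₂ ≤ 1) (hb : v W.a₄ ≤ 1)
    (hΔ : v W.Δ = 1) (S : W.Point) : MainE0 v S := by
  rcases S with _ | ⟨x, y, h⟩
  · exact Or.inl rfl
  by_cases hx : v x ≤ 1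
  · exact Or.inr (Or.inr ⟨hx, main_hns_good v hW h2 ha hb hΔ h.1 hx⟩)
  · exact Or.inr (Or.inl (not_le.mp hx))

theorem mainE0_of_mult (hW : IsLeg W) (h2 : v 2 = 1) (ha : v W.a₂ = 1) (hb : v W.a₄ < 1)
    (S : W.Point) (hS : S = 0 ∨ 1 ≤ v (xc S)) : MainE0 v S := by
  rcases hS with hS | hS
  · exact Or.inl hS
  rcases S with _ | ⟨x, y, h⟩
  · exact Or.inl rfl
  rcases lt_or_eq_of_le hS with hlt | heq
  · exact Or.inr (Or.inl hlt)
  · exact Or.inr (Or.inr ⟨heq.symm.le, main_hns_mult v hW h2 ha hb h.1 heq.symm⟩)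

end general

section galois

variable {F K : Type*} [Field F] [Field K] [Algebra F K] [DecidableEq K] {Γ₀ : Type*}
  [LinearOrderedCommGroupWithZero Γ₀] (v : Valuation K Γ₀)

theorem main_map_some (W' : Affine F) (σ : K ≃ₐ[F] K) {x y : K} (h : (W'⁄K).Nonsingular x y) :
    ∃ h' : (W'⁄K).Nonsingular (σ x) (σ y),
      Point.map (W' := W') σ.toAlgHom (Point.some x y h) = Point.some (σ x) (σ y) h' :=
  ⟨_, rfl⟩

omit [DecidableEq K] in
/-- scaling trick: if `e` is `σ`-fixed and `v z = v e` then `σ z - z` is smaller than `z` -/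
theorem main_sub_lt_of_fixed {σ : K ≃ₐ[F] K} (hσ : IsInertiaLike v σ) {e z : K} (he : σ e = e)
    (he0 : e ≠ 0) (hz : v z = v e) : v (σ z - z) < v e := by
  have hve0 : v e ≠ 0 := (v.ne_zero_iff).mpr he0
  have h1 : v (z / e) ≤ 1 := by rw [map_div₀, hz, div_self hve0]
  have h2 : σ z - z = e * (σ (z / e) - z / e) := by
    rw [map_div₀, he]; field_simp
  rw [h2, map_mul]
  calc v e * v (σ (z / e) - z / e) < v e * 1 :=
        mul_lt_mul_of_pos_left (hσ.sub_lt _ h1) (zero_lt_iff.mpr hve0)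
    _ = v e := mul_one _

/-- points of nonsingular reduction: `σ S - S` is in the kernel of reduction -/
theorem main_inKer_map_sub (W' : Affine F) (hW' : IsLeg W') (h2 : v 2 = 1)
    (ha : v (algebraMap F K W'.a₂) ≤ 1) (hb : v (algebraMap F K W'.a₄) ≤ 1)
    {σ : K ≃ₐ[F] K} (hσ : IsInertiaLike v σ) (S : (W'⁄K).Point) (hS : MainE0 v S) :
    InKer v (Point.map σ.toAlgHom S - S) := by
  have hW : IsLeg (W'⁄K) := hW'.map (algebraMap F K)
  have ha' : v (W'⁄K).a₂ ≤ 1 := ha
  have hb' : v (W'⁄K).a₄ ≤ 1 := hb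
  rcases S with _ | ⟨x, y, h⟩
  · show InKer v (Point.map σ.toAlgHom (0 : (W'⁄K).Point) - 0)
    rw [map_zero, sub_zero]
    exact inKer_zero v
  · obtain ⟨h', e⟩ := main_map_some W' σ h
    rw [e]
    rcases hS with hS | hS | ⟨hx, hns⟩
    · exact absurd hS (Point.some_ne_zero _)
    · exact InKer.sub v hW h2 ha' hb' (Or.inr (by rw [xc_some, hσ.val_eq]; exact hS)) (Or.inr hS)
    · rw [xc_some] at hx
      rw [xc_some, yc_some] at hns
      have hy : v y ≤ 1 := main_val_y_le_one v hW ha' hb' h.1 hx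
      refine inKer_sub_of_same_reduction v hW h2 ha' hb' h' h (by rw [hσ.val_eq]; exact hx)
        (hσ.sub_lt x hx) (hσ.sub_lt y hy) ?_
      rcases hns with h1 | h1
      · left; rw [hσ.val_eq]; exact h1
      · right
        have e₂ : σ ((W'⁄K).a₂) = (W'⁄K).a₂ := σ.commutes _
        have e₄ : σ ((W'⁄K).a₄) = (W'⁄K).a₄ := σ.commutes _
        have : 3 * σ x ^ 2 + 2 * (W'⁄K).a₂ * σ x + (W'⁄K).a₄ =
            σ (3 * x ^ 2 + 2 * (W'⁄K).a₂ * x + (W'⁄K).a₄) := by
          simp only [map_add, map_mul, map_pow, e₂, e₄, map_ofNat]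
        rw [this, hσ.val_eq]; exact h1

/-- `P = S + Q` with `S` of nonsingular reduction and `Q` fixed: `σ P - P` is in the kernel -/
theorem main_inKer_of_decomp (W' : Affine F) (hW' : IsLeg W') (h2 : v 2 = 1)
    (ha : v (algebraMap F K W'.a₂) ≤ 1) (hb : v (algebraMap F K W'.a₄) ≤ 1)
    {σ : K ≃ₐ[F] K} (hσ : IsInertiaLike v σ) {P S Q : (W'⁄K).Point} (hdec : P = S + Q)
    (hQ : Point.map σ.toAlgHom Q = Q) (hS : MainE0 v S) :
    InKer v (Point.map σ.toAlgHom P - P) := by
  have : Point.map σ.toAlgHom P - P = Point.map σ.toAlgHom S - S := by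
    rw [hdec, map_add, hQ]; abel
  rw [this]
  exact main_inKer_map_sub v W' hW' h2 ha hb hσ S hS

/-- a difference `σ P - P` in the kernel of reduction with `n • P = 0` vanishes -/
theorem main_fix_of_inKer (W' : Affine F) (hW' : IsLeg W') (h2 : v 2 = 1)
    (ha : v (algebraMap F K W'.a₂) ≤ 1) (hb : v (algebraMap F K W'.a₄) ≤ 1)
    (σ : K ≃ₐ[F] K) {n : ℕ} (hn : v (n : K) = 1) (P : (W'⁄K).Point) (hP : n • P = 0)
    (hK : InKer v (Point.map σ.toAlgHom P - P)) : Point.map σ.toAlgHom P = P := by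
  have hW : IsLeg (W'⁄K) := hW'.map (algebraMap F K)
  have h3 : n • (Point.map σ.toAlgHom P - P) = 0 := by
    rw [smul_sub, ← map_nsmul, hP, map_zero, sub_zero]
  exact sub_eq_zero.mp (InKer.eq_zero_of_nsmul_eq_zero v hW h2 ha hb hK hn h3)

theorem map_eq_self_of_good (W' : Affine F) (hW' : IsLeg W') (h2 : v 2 = 1)
    (ha : v (algebraMap F K W'.a₂) ≤ 1) (hb : v (algebraMap F K W'.a₄) ≤ 1)
    (hΔ : v (algebraMap F K W'.Δ) = 1) {σ : K ≃ₐ[F] K} (hσ : IsInertiaLike v σ)
    {n : ℕ} (hn : v (n : K) = 1) (P : (W'⁄K).Point) (hP : n • P = 0) :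
    Point.map σ.toAlgHom P = P := by
  have hW : IsLeg (W'⁄K) := hW'.map (algebraMap F K)
  have hΔ' : v (W'⁄K).Δ = 1 := by
    rw [show (W'⁄K).Δ = algebraMap F K W'.Δ from WeierstrassCurve.map_Δ _ _]; exact hΔ
  refine main_fix_of_inKer v W' hW' h2 ha hb σ hn P hP ?_
  exact main_inKer_map_sub v W' hW' h2 ha hb hσ P (mainE0_of_good v hW h2 ha hb hΔ' P)

theorem map_eq_self_of_mult (W' : Affine F) (hW' : IsLeg W') (h2 : v 2 = 1)
    (ha : v (algebraMap F K W'.a₂) = 1) (hb : v (algebraMap F K W'.a₄) < 1)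
    {n : ℕ} (hn : v (n : K) = 1) (u d : F) (hu : v (algebraMap F K u) = 1)
    (hd : W'.a₄ = u * d ^ n) (hd0 : d ≠ 0)
    (hsq : ∀ z : K, ∃ w : K, w ^ 2 = z) {σ : K ≃ₐ[F] K} (hσ : IsInertiaLike v σ)
    (P : (W'⁄K).Point) (hP : n • P = 0) :
    Point.map σ.toAlgHom P = P := by
  have _ := hsq
  have hW : IsLeg (W'⁄K) := hW'.map (algebraMap F K)
  have ha' : v (W'⁄K).a₂ = 1 := ha
  have hb' : v (W'⁄K).a₄ < 1 := hb
  have hn0 : n ≠ 0 := by
    rintro rfl
    rw [Nat.cast_zero, map_zero] at hn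
    exact zero_ne_one hn
  have hu0 : u ≠ 0 := by
    rintro rfl
    rw [map_zero, map_zero] at hu
    exact zero_ne_one hu
  have ha4 : (W'⁄K).a₄ ≠ 0 := by
    show algebraMap F K W'.a₄ ≠ 0
    rw [hd]
    exact (map_ne_zero _).mpr (mul_ne_zero hu0 (pow_ne_zero n hd0))
  have hM : IsMultRed v (W'⁄K) := ⟨hW, h2, ha', hb', ha4⟩
  refine main_fix_of_inKer v W' hW' h2 ha.le hb.le σ hn P hP ?_
  rcases P with _ | ⟨x, y, h⟩
  · show InKer v (Point.map σ.toAlgHom (0 : (W'⁄K).Point) - 0)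
    rw [map_zero, sub_zero]
    exact inKer_zero v
  by_cases hx1 : 1 ≤ v x
  · -- nonsingular reduction
    exact main_inKer_map_sub v W' hW' h2 ha.le hb.le hσ _
      (mainE0_of_mult v hW h2 ha' hb' _ (Or.inr hx1))
  rw [not_le] at hx1
  obtain ⟨h', e⟩ := main_map_some W' σ h
  have eq := hW.sq_yc h
  by_cases hx0 : x = 0
  · -- `P = (0, 0)`
    have hy0 : y = 0 := by
      rw [hx0] at eq
      have : y ^ 2 = 0 := by rw [eq]; ring
      exact pow_eq_zero_iff two_ne_zero |>.mp this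
    left
    rw [e]
    have : Point.some (σ x) (σ y) h' = Point.some x y h := by
      simp only [hx0, hy0, map_zero]
    rw [this, sub_self]
  have hvx0 : v x ≠ 0 := (v.ne_zero_iff).mpr hx0
  have hvxpos : 0 < v x := zero_lt_iff.mpr hvx0
  by_cases hxa : v x ≤ v (W'⁄K).a₄
  · -- `P + (0,0)` has nonsingular reduction
    have h0 := hW.nonsingular_zero_zero ha4
    have hT : Point.map (W' := W') σ.toAlgHom (Point.some 0 0 h0) = Point.some 0 0 h0 := by
      obtain ⟨h0', e0⟩ := main_map_some W' σ h0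
      rw [e0]
      simp only [map_zero]
    have hdec : Point.some x y h = (Point.some x y h + Point.some 0 0 h0) + (-Point.some 0 0 h0) :=
      (add_neg_cancel_right _ _).symm
    have hS : xc (Point.some x y h + Point.some 0 0 h0) = (W'⁄K).a₄ / x :=
      hW.xc_add_zero_zero h h0 hx0
    refine main_inKer_of_decomp v W' hW' h2 ha.le hb.le hσ hdec (by rw [map_neg, hT])
      (mainE0_of_mult v hW h2 ha' hb' _ (Or.inr ?_))
    rw [hS, map_div₀]
    exact (one_le_div₀ hvxpos).mpr hxa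
  · -- middle components
    rw [not_le] at hxa
    have hk : kap v (Point.some x y h) = v x := by
      rw [kap, if_neg (Point.some_ne_zero _), xc_some, min_eq_left hx1.le, max_eq_right hxa.le]
    obtain ⟨l, hl⟩ := kap_pow_of_nsmul_eq_zero v hM hP
    rw [hk] at hl
    set e' : K := algebraMap F K (d ^ (2 * l)) with he'
    have hve : v x = v e' := by
      have h1 : v (W'⁄K).a₄ = v (algebraMap F K d) ^ n := by
        show v (algebraMap F K W'.a₄) = _
        rw [hd, map_mul, map_mul, hu, one_mul, map_pow, map_pow]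
      have h2' : v e' = v (algebraMap F K d) ^ (2 * l) := by
        rw [he', map_zpow₀, map_zpow₀]
      have h3 : v x ^ n = v e' ^ n := by
        calc v x ^ n = (v (algebraMap F K d) ^ n) ^ (2 * l) := by rw [hl, h1]
          _ = (v (algebraMap F K d) ^ (2 * l)) ^ n := by
              rw [← zpow_natCast, ← zpow_natCast, ← zpow_mul, ← zpow_mul, mul_comm]
          _ = v e' ^ n := by rw [h2']
      exact (pow_left_inj₀ zero_le zero_le hn0).mp h3
    have hσe : σ e' = e' := σ.commutes _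
    have he0 : e' ≠ 0 := by
      intro h0
      rw [h0, map_zero] at hve
      exact hvx0 hve
    -- `v y = v x`
    have hvy : v y = v x := by
      have h1 : v (x ^ 3) < v ((W'⁄K).a₂ * x ^ 2) := by
        rw [map_mul, ha', one_mul, map_pow, map_pow, pow_succ]
        calc v x ^ 2 * v x < v x ^ 2 * 1 :=
              mul_lt_mul_of_pos_left hx1 (pow_pos hvxpos 2)
          _ = v x ^ 2 := mul_one _
      have h2'' : v ((W'⁄K).a₄ * x) < v ((W'⁄K).a₂ * x ^ 2) := by
        rw [map_mul, map_mul, ha', one_mul, map_pow, pow_two]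
        exact mul_lt_mul_of_pos_right hxa hvxpos
      have h3 : v (y ^ 2) = v x ^ 2 := by
        rw [eq, v.map_add_eq_of_lt_left (by rw [v.map_add_eq_of_lt_right h1]; exact h2''),
          v.map_add_eq_of_lt_right h1, map_mul, ha', one_mul, map_pow]
      rw [map_pow] at h3
      exact (pow_left_inj₀ zero_le zero_le two_ne_zero).mp h3
    have hdx : v (σ x - x) < v x := by
      rw [hve]; exact main_sub_lt_of_fixed v hσ hσe he0 hve
    have hdy : v (σ y - y) < v x := by
      rw [hve]; exact main_sub_lt_of_fixed v hσ hσe he0 (hvy.trans hve)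
    have h2y : v (2 * y) = v x := by rw [map_mul, h2, one_mul, hvy]
    have hsy : v (σ y + y) = v x := by
      have : σ y + y = (σ y - y) + 2 * y := by ring
      rw [this, v.map_add_eq_of_lt_right (by rw [h2y]; exact hdy), h2y]
    rw [e]
    by_cases hxx : σ x = x
    · have hyy : σ y = y := by
        have e1 := hW.sq_yc h'
        rw [hxx] at e1
        have : (σ y - y) * (σ y + y) = 0 := by linear_combination e1 - eq
        rcases mul_eq_zero.mp this with h0 | h0
        · exact sub_eq_zero.mp h0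
        · exfalso
          rw [h0, map_zero] at hsy
          exact hvx0 hsy.symm
      left
      have : Point.some (σ x) (σ y) h' = Point.some x y h := by
        simp only [hxx, hyy]
      rw [this, sub_self]
    · right
      rw [hW.xc_sub_of_ne h' h hxx]
      have hdx0 : 0 < v (σ x - x) := zero_lt_iff.mpr ((v.ne_zero_iff).mpr (sub_ne_zero.mpr hxx))
      have hL : 1 < v ((σ y + y) / (σ x - x)) := by
        rw [map_div₀, hsy]
        exact (one_lt_div₀ hdx0).mpr hdx
      have hL2 : 1 < v (((σ y + y) / (σ x - x)) ^ 2) := by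
        rw [map_pow]; exact one_lt_pow₀ hL two_ne_zero
      have hrest : v ((W'⁄K).a₂ + (σ x + x)) ≤ 1 :=
        v.map_add_le ha'.le (v.map_add_le (by rw [hσ.val_eq]; exact hx1.le) hx1.le)
      rw [sub_sub, sub_sub, v.map_sub_eq_of_lt_left (lt_of_le_of_lt hrest hL2)]
      exact hL2

end galois

end Fermat.Agent.S05
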