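import Mathlib

/-!
# The action of an admissible change of variables on points of a Weierstrass curve

For `C : WeierstrassCurve.VariableChange F` the map `(x, y) ↦ (u²x + r, u³y + u²sx + t)` is a
group isomorphism from the points of `C • W` to the points of `W`.
-/

set_option autoImplicit false
set_option linter.unusedSectionVars false

namespace Fermat.Agent.S05

open WeierstrassCurve WeierstrassCurve.Affine

section Ring

variable {R : Type*} [CommRing R]

/-- the `x`-coordinate map of a change of variables -/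
def vcX (C : VariableChange R) (x : R) : R := C.u ^ 2 * x + C.r

/-- the `y`-coordinate map of a change of variables -/
def vcY (C : VariableChange R) (x y : R) : R := C.u ^ 3 * y + C.u ^ 2 * C.s * x + C.t

variable (W : WeierstrassCurve R) (C : VariableChange R)

lemma vc_u_pow_mul_inv_pow (k : ℕ) : (C.u : R) ^ k * ((C.u⁻¹ : Rˣ) : R) ^ k = 1 := by
  rw [← mul_pow, C.u.mul_inv, one_pow]

lemma evalEval_polynomial_vc (x y : R) :
    W.toAffine.polynomial.evalEval (vcX C x) (vcY C x y) =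
      C.u ^ 6 * (C • W).toAffine.polynomial.evalEval x y := by
  have h1 := vc_u_pow_mul_inv_pow C 1
  have h2 := vc_u_pow_mul_inv_pow C 2
  have h3 := vc_u_pow_mul_inv_pow C 3
  have h4 := vc_u_pow_mul_inv_pow C 4
  have h6 := vc_u_pow_mul_inv_pow C 6
  simp only [evalEval_polynomial, variableChange_a₁, variableChange_a₂, variableChange_a₃,
    variableChange_a₄, variableChange_a₆, vcX, vcY]
  linear_combination (-((W.a₁ + 2 * C.s) * x * y * C.u ^ 5)) * h1
    + ((W.a₂ - C.s * W.a₁ + 3 * C.r - C.s ^ 2) * x ^ 2 * C.u ^ 4) * h2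
    - ((W.a₃ + C.r * W.a₁ + 2 * C.t) * y * C.u ^ 3) * h3
    + ((W.a₄ - C.s * W.a₃ + 2 * C.r * W.a₂ - (C.t + C.r * C.s) * W.a₁ + 3 * C.r ^ 2
      - 2 * C.s * C.t) * x * C.u ^ 2) * h4
    + (W.a₆ + C.r * W.a₄ + C.r ^ 2 * W.a₂ + C.r ^ 3 - C.t * W.a₃ - C.t ^ 2
      - C.r * C.t * W.a₁) * h6

lemma evalEval_polynomialY_vc (x y : R) :
    W.toAffine.polynomialY.evalEval (vcX C x) (vcY C x y) =
      C.u ^ 3 * (C • W).toAffine.polynomialY.evalEval x y := by
  have h1 := vc_u_pow_mul_inv_pow C 1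
  have h3 := vc_u_pow_mul_inv_pow C 3
  simp only [evalEval_polynomialY, variableChange_a₁, variableChange_a₃, vcX, vcY]
  linear_combination (-((W.a₁ + 2 * C.s) * x * C.u ^ 2)) * h1
    - (W.a₃ + C.r * W.a₁ + 2 * C.t) * h3

lemma evalEval_polynomialX_vc (x y : R) :
    W.toAffine.polynomialX.evalEval (vcX C x) (vcY C x y) =
      C.u ^ 4 * (C • W).toAffine.polynomialX.evalEval x y
        - C.s * C.u ^ 3 * (C • W).toAffine.polynomialY.evalEval x y := by
  have h1 := vc_u_pow_mul_inv_pow C 1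
  have h2 := vc_u_pow_mul_inv_pow C 2
  have h3 := vc_u_pow_mul_inv_pow C 3
  have h4 := vc_u_pow_mul_inv_pow C 4
  simp only [evalEval_polynomialX, evalEval_polynomialY, variableChange_a₁, variableChange_a₂,
    variableChange_a₃, variableChange_a₄, vcX, vcY]
  linear_combination (-((W.a₁ + 2 * C.s) * y * C.u ^ 3) + C.s * C.u ^ 2 * (W.a₁ + 2 * C.s) * x) * h1
    + (2 * (W.a₂ - C.s * W.a₁ + 3 * C.r - C.s ^ 2) * x * C.u ^ 2) * h2
    + (C.s * (W.a₃ + C.r * W.a₁ + 2 * C.t)) * h3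
    + (W.a₄ - C.s * W.a₃ + 2 * C.r * W.a₂ - (C.t + C.r * C.s) * W.a₁ + 3 * C.r ^ 2
      - 2 * C.s * C.t) * h4

lemma vc_isUnit_u_pow (k : ℕ) : IsUnit ((C.u : R) ^ k) := (C.u.isUnit).pow k

lemma equation_vc (x y : R) :
    W.toAffine.Equation (vcX C x) (vcY C x y) ↔ (C • W).toAffine.Equation x y := by
  rw [Affine.Equation, Affine.Equation, evalEval_polynomial_vc]
  exact (vc_isUnit_u_pow C 6).mul_right_eq_zero

lemma nonsingular_vc (x y : R) :
    W.toAffine.Nonsingular (vcX C x) (vcY C x y) ↔ (C • W).toAffine.Nonsingular x y := by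
  rw [Affine.Nonsingular, Affine.Nonsingular, equation_vc, evalEval_polynomialX_vc,
    evalEval_polynomialY_vc]
  refine and_congr_right fun _ => ?_
  have h3 : ∀ a : R, C.u ^ 3 * a = 0 ↔ a = 0 := fun a => (vc_isUnit_u_pow C 3).mul_right_eq_zero
  have h4 : ∀ a : R, C.u ^ 4 * a = 0 ↔ a = 0 := fun a => (vc_isUnit_u_pow C 4).mul_right_eq_zero
  by_cases hY : (C • W).toAffine.polynomialY.evalEval x y = 0
  · rw [hY]
    simp only [mul_zero, sub_zero, ne_eq, not_true_eq_false, or_false]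
    rw [h4]
  · have : C.u ^ 3 * (C • W).toAffine.polynomialY.evalEval x y ≠ 0 := fun h => hY ((h3 _).mp h)
    simp only [ne_eq, this, not_false_eq_true, or_true, hY]

lemma negY_vc (x y : R) :
    W.toAffine.negY (vcX C x) (vcY C x y) = vcY C x ((C • W).toAffine.negY x y) := by
  have h1 := vc_u_pow_mul_inv_pow C 1
  have h3 := vc_u_pow_mul_inv_pow C 3
  simp only [Affine.negY, variableChange_a₁, variableChange_a₃, vcX, vcY]
  linear_combination ((W.a₁ + 2 * C.s) * x * C.u ^ 2) * h1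
    + (W.a₃ + C.r * W.a₁ + 2 * C.t) * h3

lemma addX_vc (x₁ x₂ ℓ : R) :
    W.toAffine.addX (vcX C x₁) (vcX C x₂) (C.u * ℓ + C.s) =
      vcX C ((C • W).toAffine.addX x₁ x₂ ℓ) := by
  have h1 := vc_u_pow_mul_inv_pow C 1
  have h2 := vc_u_pow_mul_inv_pow C 2
  simp only [Affine.addX, variableChange_a₁, variableChange_a₂, vcX]
  linear_combination (-((W.a₁ + 2 * C.s) * ℓ * C.u)) * h1
    + (W.a₂ - C.s * W.a₁ + 3 * C.r - C.s ^ 2) * h2

lemma negAddY_vc (x₁ x₂ y₁ ℓ : R) :
    W.toAffine.negAddY (vcX C x₁) (vcX C x₂) (vcY C x₁ y₁) (C.u * ℓ + C.s) =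
      vcY C ((C • W).toAffine.addX x₁ x₂ ℓ) ((C • W).toAffine.negAddY x₁ x₂ y₁ ℓ) := by
  have h1 := vc_u_pow_mul_inv_pow C 1
  have h2 := vc_u_pow_mul_inv_pow C 2
  simp only [Affine.negAddY, Affine.addX, variableChange_a₁, variableChange_a₂, vcX, vcY]
  linear_combination (-((W.a₁ + 2 * C.s) * ℓ * C.u * (C.u * ℓ + C.s))) * h1
    + ((W.a₂ - C.s * W.a₁ + 3 * C.r - C.s ^ 2) * (C.u * ℓ + C.s)) * h2

lemma addY_vc (x₁ x₂ y₁ ℓ : R) :
    W.toAffine.addY (vcX C x₁) (vcX C x₂) (vcY C x₁ y₁) (C.u * ℓ + C.s) =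
      vcY C ((C • W).toAffine.addX x₁ x₂ ℓ) ((C • W).toAffine.addY x₁ x₂ y₁ ℓ) := by
  rw [Affine.addY, Affine.addY, negAddY_vc, addX_vc, negY_vc]

end Ring

section Field

variable {F : Type*} [Field F] (W : WeierstrassCurve F) (C : VariableChange F)

lemma vc_u_ne_zero : (C.u : F) ≠ 0 := C.u.ne_zero

lemma vcX_inj {x₁ x₂ : F} : vcX C x₁ = vcX C x₂ ↔ x₁ = x₂ := by
  simp only [vcX, add_left_inj]
  exact mul_right_inj' (pow_ne_zero 2 (vc_u_ne_zero C))

lemma vcY_inj (x : F) {y₁ y₂ : F} : vcY C x y₁ = vcY C x y₂ ↔ y₁ = y₂ := by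
  simp only [vcY, add_left_inj]
  exact mul_right_inj' (pow_ne_zero 3 (vc_u_ne_zero C))

variable [DecidableEq F]

lemma slope_vc {x₁ x₂ y₁ y₂ : F} (h₁ : (C • W).toAffine.Equation x₁ y₁)
    (h₂ : (C • W).toAffine.Equation x₂ y₂)
    (hxy : ¬(x₁ = x₂ ∧ y₁ = (C • W).toAffine.negY x₂ y₂)) :
    W.toAffine.slope (vcX C x₁) (vcX C x₂) (vcY C x₁ y₁) (vcY C x₂ y₂) =
      C.u * (C • W).toAffine.slope x₁ x₂ y₁ y₂ + C.s := by
  have hu := vc_u_ne_zero C
  by_cases hx : x₁ = x₂
  · subst hx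
    have hy : y₁ ≠ (C • W).toAffine.negY x₁ y₂ := fun h => hxy ⟨rfl, h⟩
    have hy' : vcY C x₁ y₁ ≠ W.toAffine.negY (vcX C x₁) (vcY C x₁ y₂) := by
      rw [negY_vc]
      exact fun h => hy ((vcY_inj C x₁).mp h)
    rw [slope_of_Y_ne_eq_evalEval rfl hy', slope_of_Y_ne_eq_evalEval rfl hy,
      evalEval_polynomialX_vc, evalEval_polynomialY_vc]
    have hY : (C • W).toAffine.polynomialY.evalEval x₁ y₁ ≠ 0 := by
      have hyy : y₁ = y₂ := Y_eq_of_Y_ne h₁ h₂ rfl hy
      rw [evalEval_polynomialY]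
      intro h0
      apply hy
      rw [← hyy, Affine.negY]
      linear_combination h0
    field_simp
    ring
  · have hx' : vcX C x₁ ≠ vcX C x₂ := fun h => hx ((vcX_inj C).mp h)
    rw [slope_of_X_ne hx', slope_of_X_ne hx]
    have h1 : x₁ - x₂ ≠ 0 := sub_ne_zero.mpr hx
    have h2 : vcX C x₁ - vcX C x₂ ≠ 0 := sub_ne_zero.mpr hx'
    simp only [vcX, vcY] at h2 ⊢
    field_simp
    ring

/-- The map on points induced by a change of variables (as a plain function). -/
def vcPointFun {W W' : WeierstrassCurve F} (C : VariableChange F) (h : W' = C • W) :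
    W'.toAffine.Point → W.toAffine.Point
  | .zero => .zero
  | .some x y hxy => .some (vcX C x) (vcY C x y) ((nonsingular_vc W C x y).mpr (h ▸ hxy))

lemma vcPointFun_zero {W W' : WeierstrassCurve F} (C : VariableChange F) (h : W' = C • W) :
    vcPointFun C h (0 : W'.toAffine.Point) = 0 := rfl

lemma vcPointFun_some {W W' : WeierstrassCurve F} (C : VariableChange F) (h : W' = C • W)
    {x y : F} (hxy : W'.toAffine.Nonsingular x y) :
    vcPointFun C h (Point.some x y hxy) =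
      Point.some (vcX C x) (vcY C x y) ((nonsingular_vc W C x y).mpr (h ▸ hxy)) := rfl

lemma some_eq_some_of_eq {W : WeierstrassCurve F} {x x' y y' : F}
    {h : W.toAffine.Nonsingular x y} {h' : W.toAffine.Nonsingular x' y'} (hx : x = x')
    (hy : y = y') : Point.some x y h = Point.some x' y' h' := by
  subst hx hy
  rfl

lemma vcPointFun_add {W W' : WeierstrassCurve F} (C : VariableChange F) (h : W' = C • W)
    (P Q : W'.toAffine.Point) :
    vcPointFun C h (P + Q) = vcPointFun C h P + vcPointFun C h Q := by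
  subst h
  rcases P with _ | ⟨x₁, y₁, h₁⟩
  · change vcPointFun C rfl (0 + Q) = 0 + vcPointFun C rfl Q
    rw [zero_add, zero_add]
  rcases Q with _ | ⟨x₂, y₂, h₂⟩
  · change vcPointFun C rfl (Point.some x₁ y₁ h₁ + 0) = vcPointFun C rfl (Point.some x₁ y₁ h₁) + 0
    rw [add_zero, add_zero]
  by_cases hxy : x₁ = x₂ ∧ y₁ = (C • W).toAffine.negY x₂ y₂
  · obtain ⟨hx, hy⟩ := hxy
    rw [Point.add_of_Y_eq hx hy, vcPointFun_zero, vcPointFun_some, vcPointFun_some,
      Point.add_of_Y_eq (by rw [hx]) (by rw [negY_vc, hy, hx])]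
  · have hxy' : ¬(vcX C x₁ = vcX C x₂ ∧
        vcY C x₁ y₁ = W.toAffine.negY (vcX C x₂) (vcY C x₂ y₂)) := by
      rintro ⟨hx, hy⟩
      have hx' : x₁ = x₂ := (vcX_inj C).mp hx
      subst hx'
      rw [negY_vc] at hy
      exact hxy ⟨rfl, (vcY_inj C x₁).mp hy⟩
    rw [Point.add_some hxy, vcPointFun_some, vcPointFun_some, vcPointFun_some,
      Point.add_some hxy']
    have hs := slope_vc W C h₁.1 h₂.1 hxy
    apply some_eq_some_of_eq
    · rw [hs, addX_vc]
    · rw [hs, addY_vc]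

lemma vcX_inv_vcX (x : F) : vcX C⁻¹ (vcX C x) = x := by
  have h2 := vc_u_pow_mul_inv_pow C 2
  simp only [vcX, VariableChange.inv_def]
  linear_combination x * h2

lemma vcY_inv_vcY (x y : F) : vcY C⁻¹ (vcX C x) (vcY C x y) = y := by
  have h3 := vc_u_pow_mul_inv_pow C 3
  simp only [vcX, vcY, VariableChange.inv_def]
  linear_combination y * h3

lemma vcPointFun_inv_vcPointFun {W W' : WeierstrassCurve F} (C : VariableChange F)
    (h : W' = C • W) (h' : W = C⁻¹ • W') (P : W'.toAffine.Point) :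
    vcPointFun C⁻¹ h' (vcPointFun C h P) = P := by
  rcases P with _ | ⟨x, y, hxy⟩
  · rfl
  · rw [vcPointFun_some, vcPointFun_some]
    exact some_eq_some_of_eq (vcX_inv_vcX C x) (vcY_inv_vcY C x y)

/-- The group isomorphism on points induced by a change of variables:
`(x, y) ↦ (u²x + r, u³y + u²sx + t)` from `W' = C • W` to `W`. -/
def vcPoint {W W' : WeierstrassCurve F} (C : VariableChange F) (h : W' = C • W) :
    W'.toAffine.Point ≃+ W.toAffine.Point where
  toFun := vcPointFun C h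
  invFun := vcPointFun C⁻¹ (by rw [h, inv_smul_smul])
  left_inv P := vcPointFun_inv_vcPointFun C h _ P
  right_inv P := by
    have := vcPointFun_inv_vcPointFun (W := W') (W' := W) C⁻¹ (by rw [h, inv_smul_smul])
      (by rw [inv_inv]; exact h) P
    simpa only [inv_inv] using this
  map_add' := vcPointFun_add C h

@[simp] lemma vcPoint_zero {W W' : WeierstrassCurve F} (C : VariableChange F) (h : W' = C • W) :
    vcPoint C h (0 : W'.toAffine.Point) = 0 := rfl

@[simp] lemma vcPoint_some {W W' : WeierstrassCurve F} (C : VariableChange F) (h : W' = C • W)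
    {x y : F} (hxy : W'.toAffine.Nonsingular x y) :
    vcPoint C h (Point.some x y hxy) =
      Point.some (vcX C x) (vcY C x y) ((nonsingular_vc W C x y).mpr (h ▸ hxy)) := rfl

end Field

end Fermat.Agent.S05
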