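import Mathlib
import Fermat.Prelude.Def_FLTPrelim_GaloisRep
import Fermat.Prelude.Def_FLTPrelim_Ramification
import Fermat.Agent.S05.VariableChangePoint

/-!
# Change of variables over a base ring: compatibility with base change and Galois actions
-/

set_option autoImplicit false
set_option linter.unusedSectionVars false

namespace Fermat.Agent.S05

open WeierstrassCurve WeierstrassCurve.Affine

section BaseChange

variable {R : Type*} [CommRing R] {E E' : WeierstrassCurve R}

lemma baseChange_eq_smul (C₀ : VariableChange R) (h₀ : E' = C₀ • E)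
    (K : Type*) [CommRing K] [Algebra R K] :
    E'.baseChange K = (C₀.baseChange K) • (E.baseChange K) := by
  rw [h₀]
  exact (map_variableChange E C₀ (algebraMap R K)).symm

/-- the isomorphism on `K`-points induced by a change of variables defined over the base ring -/
def vcPointBC (C₀ : VariableChange R) (h₀ : E' = C₀ • E)
    (K : Type*) [Field K] [DecidableEq K] [Algebra R K] :
    (E'⁄K).Point ≃+ (E⁄K).Point :=
  vcPoint (C₀.baseChange K) (baseChange_eq_smul C₀ h₀ K)

variable {S : Type*} [CommRing S] [Algebra R S] {F K : Type*} [Field F] [Field K]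
  [DecidableEq F] [DecidableEq K] [Algebra R F] [Algebra S F] [IsScalarTower R S F]
  [Algebra R K] [Algebra S K] [IsScalarTower R S K]

lemma vcPointBC_map (C₀ : VariableChange R) (h₀ : E' = C₀ • E) (f : F →ₐ[S] K)
    (P : (E'⁄F).Point) :
    vcPointBC C₀ h₀ K (Point.map f P) = Point.map f (vcPointBC C₀ h₀ F P) := by
  rcases P with _ | ⟨x, y, hxy⟩
  · rfl
  · have hc : ∀ a : R, f (algebraMap R F a) = algebraMap R K a := fun a => by
      rw [IsScalarTower.algebraMap_apply R S F, f.commutes, ← IsScalarTower.algebraMap_apply R S K]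
    rw [Point.map_some, vcPointBC, vcPointBC, vcPoint_some, vcPoint_some, Point.map_some]
    apply some_eq_some_of_eq
    · simp only [vcX, VariableChange.baseChange, VariableChange.map, Units.coe_map,
        MonoidHom.coe_coe, map_add, map_mul, map_pow, hc]
    · simp only [vcY, VariableChange.baseChange, VariableChange.map, Units.coe_map,
        MonoidHom.coe_coe, map_add, map_mul, map_pow, hc]

end BaseChange

section Galois

open WeierstrassCurve.Affine.Point

variable {R : Type*} [CommRing R] {E E' : WeierstrassCurve R}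
variable {S : Type*} [Field S] [Algebra R S] {K : Type*} [Field K]
  [DecidableEq K] [Algebra R K] [Algebra S K] [IsScalarTower R S K]

lemma vcPointBC_smul (C₀ : VariableChange R) (h₀ : E' = C₀ • E) (σ : K ≃ₐ[S] K)
    (P : (E'⁄K).Point) :
    vcPointBC C₀ h₀ K (σ • P) = σ • vcPointBC C₀ h₀ K P :=
  vcPointBC_map C₀ h₀ σ.toAlgHom P

lemma vcPointBC_symm_smul (C₀ : VariableChange R) (h₀ : E' = C₀ • E) (σ : K ≃ₐ[S] K)
    (P : (E⁄K).Point) :
    (vcPointBC C₀ h₀ K).symm (σ • P) = σ • (vcPointBC C₀ h₀ K).symm P := by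
  apply (vcPointBC C₀ h₀ K).injective
  rw [vcPointBC_smul, AddEquiv.apply_symm_apply, AddEquiv.apply_symm_apply]

/-- transport of "inertia acts trivially on the `n`-torsion" along an equivariant isomorphism -/
lemma galoisRepUnramifiedAt_of_addEquiv {E₁ E₂ : WeierstrassCurve R}
    (e : (E₁⁄K).Point ≃+ (E₂⁄K).Point)
    (he : ∀ (σ : K ≃ₐ[S] K) (P : (E₁⁄K).Point), e (σ • P) = σ • e P) (n q : ℕ)
    (H : GaloisRepUnramifiedAt S K E₁ n q) : GaloisRepUnramifiedAt S K E₂ n q := by
  intro A hA σ hσ x
  obtain ⟨P, hP⟩ := x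
  have hP' : e.symm P ∈ Submodule.torsionBy ℤ (E₁⁄K).Point n := by
    rw [Submodule.mem_torsionBy_iff] at hP ⊢
    rw [← map_zsmul, hP, _root_.map_zero]
  have h1 := H A hA σ hσ ⟨e.symm P, hP'⟩
  have h2 : σ • e.symm P = e.symm P := congrArg Subtype.val h1
  apply Subtype.ext
  show σ • P = P
  have h3 := congrArg e h2
  rwa [he, AddEquiv.apply_symm_apply] at h3

/-- **Model independence**: unramifiedness of the `n`-torsion representation is invariant under
a change of variables defined over the base ring. -/
theorem galoisRepUnramifiedAt_variableChange_iff (C₀ : VariableChange R) (h₀ : E' = C₀ • E)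
    (n q : ℕ) :
    GaloisRepUnramifiedAt S K E' n q ↔ GaloisRepUnramifiedAt S K E n q :=
  ⟨galoisRepUnramifiedAt_of_addEquiv (vcPointBC C₀ h₀ K) (vcPointBC_smul C₀ h₀) n q,
    galoisRepUnramifiedAt_of_addEquiv (vcPointBC C₀ h₀ K).symm (vcPointBC_symm_smul C₀ h₀) n q⟩

end Galois

end Fermat.Agent.S05
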