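import Mathlib
import Fermat.Prelude.Def_FLTPrelim_FreyPackage
import Fermat.Prelude.Def_FLTPrelim_GaloisRep
import Fermat.Prelude.Def_FLTPrelim_Ramification
import Fermat.Agent.S05.VariableChangeGalois

/-!
# The Legendre model `Y² = X (X - A) (X + B)` of the Frey curve
-/

set_option autoImplicit false

namespace Fermat.Agent.S05

open WeierstrassCurve WeierstrassCurve.Affine

/-- The curve `Y² = X (X - A) (X + B) = X³ + (B - A) X² - A B X`. -/
def legendreCurve (A B : ℚ) : WeierstrassCurve ℚ := ⟨0, B - A, 0, -(A * B), 0⟩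

/-- the change of variables `(X, Y) ↦ (X / 4, Y / 8 - X / 8)` from the Legendre model to the
Frey curve. -/
def freyChange : VariableChange ℚ := ⟨Units.mk0 (1 / 2) (by norm_num), 0, -1 / 2, 0⟩

lemma legendreCurve_eq_smul (P : FreyPackage) :
    legendreCurve ((P.a : ℚ) ^ P.p) ((P.b : ℚ) ^ P.p) = freyChange • P.freyCurve := by
  rw [variableChange_def]
  simp only [legendreCurve, freyChange, FreyPackage.freyCurve, Units.val_inv_eq_inv_val,
    Units.val_mk0]
  ext <;> simp <;> ring

/-- unramifiedness for the Frey curve can be checked on the Legendre model -/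
theorem freyPackage_unramifiedAt_iff_legendre (P : FreyPackage) (q : ℕ) :
    P.GaloisRepUnramifiedAt q ↔
      Affine.Point.GaloisRepUnramifiedAt (K := AlgebraicClosure ℚ) ℚ
        (legendreCurve ((P.a : ℚ) ^ P.p) ((P.b : ℚ) ^ P.p)) P.p q :=
  (galoisRepUnramifiedAt_variableChange_iff (S := ℚ) (K := AlgebraicClosure ℚ) freyChange
    (legendreCurve_eq_smul P) P.p q).symm

/-- `Y² = X (X - A) (X + B)` is symmetric under `(A, B) ↦ (-B, -A)`. -/
lemma legendreCurve_symm (A B : ℚ) : legendreCurve A B = legendreCurve (-B) (-A) := by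
  simp only [legendreCurve]
  ext <;> simp <;> ring

/-- translation `X ↦ X + A` moving the 2-torsion point `(A, 0)` to the origin -/
def legendreTranslate (A : ℚ) : VariableChange ℚ := ⟨1, A, 0, 0⟩

lemma legendreCurve_translate (A B : ℚ) :
    legendreCurve (-A) (A + B) = legendreTranslate A • legendreCurve A B := by
  rw [variableChange_def]
  simp only [legendreCurve, legendreTranslate]
  ext <;> simp <;> ring

/-- unramifiedness for the Frey curve can be checked on the translated Legendre model
`Y² = X (X + A) (X + C)`, `A = a ^ p`, `C = a ^ p + b ^ p = c ^ p` -/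
theorem freyPackage_unramifiedAt_iff_legendre_translate (P : FreyPackage) (q : ℕ) :
    P.GaloisRepUnramifiedAt q ↔
      Affine.Point.GaloisRepUnramifiedAt (K := AlgebraicClosure ℚ) ℚ
        (legendreCurve (-(P.a : ℚ) ^ P.p) ((P.c : ℚ) ^ P.p)) P.p q := by
  rw [freyPackage_unramifiedAt_iff_legendre]
  have hc : ((P.c : ℚ) ^ P.p) = (P.a : ℚ) ^ P.p + (P.b : ℚ) ^ P.p := by
    have := P.hFLT
    exact_mod_cast this.symm
  rw [hc]
  exact (galoisRepUnramifiedAt_variableChange_iff (S := ℚ) (K := AlgebraicClosure ℚ)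
    (legendreTranslate ((P.a : ℚ) ^ P.p))
    (legendreCurve_translate ((P.a : ℚ) ^ P.p) ((P.b : ℚ) ^ P.p)) P.p q).symm

/-- unramifiedness for the Frey curve can be checked on the model `Y² = X (X + B) (X - A)` -/
theorem freyPackage_unramifiedAt_iff_legendre_symm (P : FreyPackage) (q : ℕ) :
    P.GaloisRepUnramifiedAt q ↔
      Affine.Point.GaloisRepUnramifiedAt (K := AlgebraicClosure ℚ) ℚ
        (legendreCurve (-(P.b : ℚ) ^ P.p) (-(P.a : ℚ) ^ P.p)) P.p q := by
  rw [freyPackage_unramifiedAt_iff_legendre, legendreCurve_symm]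

end Fermat.Agent.S05
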