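import Mathlib
import Fermat.Prelude.Def_FLTPrelim_FreyPackage
import Fermat.Prelude.Def_FLTPrelim_GaloisRep
import Fermat.Prelude.Def_FLTPrelim_Ramification
import Fermat.Agent.S05.FreyLegendre
import Fermat.Agent.S05.Main
import Fermat.Agent.S05.Inertia

set_option autoImplicit false

/-!
# Unramifiedness of the torsion of the Legendre models at odd primes
-/

namespace Fermat.Agent.S05

open WeierstrassCurve WeierstrassCurve.Affine WeierstrassCurve.Affine.Point

local notation "Qb" => AlgebraicClosure ℚ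

lemma isLeg_legendreCurve (A B : ℚ) : IsLeg (legendreCurve A B) := ⟨rfl, rfl, rfl⟩

lemma legendreCurve_Δ (A B : ℚ) : (legendreCurve A B).Δ = 16 * (A * B) ^ 2 * (A + B) ^ 2 := by
  simp only [legendreCurve, WeierstrassCurve.Δ, WeierstrassCurve.b₂, WeierstrassCurve.b₄,
    WeierstrassCurve.b₆, WeierstrassCurve.b₈]
  ring

lemma legunram_algebraMap_intCast (n : ℤ) : algebraMap ℚ Qb (n : ℚ) = (n : Qb) := by
  simp

/-- reduction of the Prelude statement to a statement about a single inertia element -/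
lemma galoisRepUnramifiedAt_of_forall (W' : Affine ℚ) (n q : ℕ)
    (H : ∀ (Av : ValuationSubring Qb), Av.LiesOverPrime q → ∀ σ : Qb ≃ₐ[ℚ] Qb,
      IsInertiaLike Av.valuation σ → ∀ P : (W'⁄Qb).Point, n • P = 0 →
        Point.map σ.toAlgHom P = P) :
    GaloisRepUnramifiedAt (K := Qb) ℚ W' n q := by
  intro Av hAv σ hσ x
  haveI : Algebra.IsAlgebraic ℚ Qb := AlgebraicClosure.isAlgebraic ℚ
  apply Subtype.ext
  have hx : n • (x : (W'⁄Qb).Point) = 0 := by
    have := x.2
    rw [Submodule.mem_torsionBy_iff] at this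
    rwa [natCast_zsmul] at this
  exact H Av hAv σ (isInertiaLike_of_mem_inertiaSubgroupIn Av σ hσ) x hx

variable {q : ℕ}

lemma legunram_val_two (hq : q.Prime) (hq2 : q ≠ 2) (Av : ValuationSubring Qb)
    (hAv : Av.LiesOverPrime q) : Av.valuation (2 : Qb) = 1 := by
  have h := (valuation_intCast_eq_one_iff Av hq hAv 2).2 (by
    intro hdvd
    have : q ∣ 2 := by exact_mod_cast hdvd
    exact hq2 ((Nat.prime_dvd_prime_iff_eq hq Nat.prime_two).1 this))
  simpa using h

lemma legunram_val_natCast (hq : q.Prime) (Av : ValuationSubring Qb)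
    (hAv : Av.LiesOverPrime q) {n : ℕ} (hn : ¬ q ∣ n) : Av.valuation (n : Qb) = 1 := by
  have h := (valuation_intCast_eq_one_iff Av hq hAv (n : ℤ)).2 (by
    intro hdvd
    exact hn (by exact_mod_cast hdvd))
  simpa using h

/-- good reduction case -/
theorem legendre_unramified_good (A B : ℤ) {n : ℕ} (hq : q.Prime) (hq2 : q ≠ 2)
    (hn : ¬ q ∣ n) (hgood : ¬ (q : ℤ) ∣ A * B * (A + B)) :
    GaloisRepUnramifiedAt (K := Qb) ℚ (legendreCurve A B) n q := by
  apply galoisRepUnramifiedAt_of_forall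
  intro Av hAv σ hσ P hP
  have h2 := legunram_val_two hq hq2 Av hAv
  refine map_eq_self_of_good Av.valuation (legendreCurve A B) (isLeg_legendreCurve _ _) h2
    ?_ ?_ ?_ hσ (legunram_val_natCast hq Av hAv hn) P hP
  · have : algebraMap ℚ Qb (legendreCurve A B).a₂ = ((B - A : ℤ) : Qb) := by
      simp [legendreCurve]
    rw [this]
    exact valuation_intCast_le_one Av _
  · have : algebraMap ℚ Qb (legendreCurve A B).a₄ = ((-(A * B) : ℤ) : Qb) := by
      simp [legendreCurve]
    rw [this]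
    exact valuation_intCast_le_one Av _
  · have : algebraMap ℚ Qb (legendreCurve A B).Δ = ((16 * (A * B) ^ 2 * (A + B) ^ 2 : ℤ) : Qb) := by
      rw [legendreCurve_Δ]
      simp
    rw [this, valuation_intCast_eq_one_iff Av hq hAv]
    intro hdvd
    have hqp : Prime (q : ℤ) := Nat.prime_iff_prime_int.1 hq
    rcases hqp.dvd_or_dvd hdvd with h | h
    · rcases hqp.dvd_or_dvd h with h | h
      · have h16 : q ∣ 16 := by exact_mod_cast h
        have : q ∣ 2 := hq.dvd_of_dvd_pow (show q ∣ 2 ^ 4 by simpa using h16)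
        exact hq2 ((Nat.prime_dvd_prime_iff_eq hq Nat.prime_two).1 this)
      · exact hgood (dvd_mul_of_dvd_left (hqp.dvd_of_dvd_pow h) _)
    · exact hgood (dvd_mul_of_dvd_right (hqp.dvd_of_dvd_pow h) _)

/-- multiplicative reduction case (node at the origin) -/
theorem legendre_unramified_mult (A B : ℤ) {n : ℕ} (hq : q.Prime) (hq2 : q ≠ 2)
    (hn : ¬ q ∣ n) (ha₂ : ¬ (q : ℤ) ∣ B - A) (ha₄ : (q : ℤ) ∣ A * B) (u d : ℤ)
    (hu : ¬ (q : ℤ) ∣ u) (hd : -(A * B) = u * d ^ n) (hd0 : d ≠ 0) :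
    GaloisRepUnramifiedAt (K := Qb) ℚ (legendreCurve A B) n q := by
  apply galoisRepUnramifiedAt_of_forall
  intro Av hAv σ hσ P hP
  have h2 := legunram_val_two hq hq2 Av hAv
  refine map_eq_self_of_mult Av.valuation (legendreCurve A B) (isLeg_legendreCurve _ _) h2
    ?_ ?_ (legunram_val_natCast hq Av hAv hn) (u : ℚ) (d : ℚ) ?_ ?_ (by exact_mod_cast hd0)
    (fun z => IsAlgClosed.exists_pow_nat_eq z (by norm_num)) hσ P hP
  · have : algebraMap ℚ Qb (legendreCurve A B).a₂ = ((B - A : ℤ) : Qb) := by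
      simp [legendreCurve]
    rw [this, valuation_intCast_eq_one_iff Av hq hAv]
    exact ha₂
  · have : algebraMap ℚ Qb (legendreCurve A B).a₄ = ((-(A * B) : ℤ) : Qb) := by
      simp [legendreCurve]
    rw [this]
    refine lt_of_le_of_ne (valuation_intCast_le_one Av _) ?_
    rw [Ne, valuation_intCast_eq_one_iff Av hq hAv, not_not]
    exact (dvd_neg).2 ha₄
  · have : algebraMap ℚ Qb (u : ℚ) = ((u : ℤ) : Qb) := by simp
    rw [this, valuation_intCast_eq_one_iff Av hq hAv]
    exact hu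
  · show -((A : ℚ) * (B : ℚ)) = (u : ℚ) * (d : ℚ) ^ n
    exact_mod_cast hd

end Fermat.Agent.S05
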